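import Mathlib
import Fermat.Agent.MU.S17.H.Pos.Defs

section MergeWrap_S17_H_Pos_Props -- from S17/H/Pos/Props.lean

set_option autoImplicit false

/-!
# S17, package H, seat GB (positivity): the Props of the sub-seats

* `Inj`, `DetData`  (seat DATA)   : the finite list of determinant data, with injectivity on `A`.
* `JetData`         (seat DETLOC) : the confluent (jet) determinant `Δ(ξ, A)²`, its Galois
                                    equivariance, nonvanishing, and the LOCAL determinant bound.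
* `KappaFam`        (seat KAPPA)  : `κ_v(P) = log ‖w(P)‖_v - 2 log ‖φ(P)‖_v` for a Galois-fixed
                                    family `w` (the Gauss map `φ_c D_a φ_b - φ_b D_a φ_c`,
                                    `D_a = d/dφ_a`) of polar degree `≥ 2 e + 2 g - 2` (Hurwitz).

`DetThm` follows from `JetData` + `DetData` (seat DETGLOB, `Pos/DetGlobal.lean`);
`PosThm` follows from `KappaFam` + `WeilCompare` (seat POS, `Pos/Pos.lean`).
-/

noncomputable section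

open AlgebraicCurve ModularCurve Fermat.Agent.RR

namespace Fermat.Agent.S17.Pos

variable {N : ℕ} [NeZero N]

/-- no nonzero element of the span of `ξ` vanishes on `A` (as a section of `V₁`) -/
def Inj (S : HSetup N) {n : ℕ} (ξ : Fin (n + 1) → FN N) (A : DivN N) : Prop :=
  ∀ s ∈ Submodule.span Qbar (Set.range ξ), A ≤ zdiv (Pairing.hRR N) S.P₀ S.e 1 s → s = 0

/-- **Seat DATA.**  A finite list of determinant data (Galois-stable finite sets of linearly
independent `d`-tuples of sections, of polar degree `≤ g + d - 2`) such that every canonical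
divisor `A` of degree `d = n + 1` has a datum `X` in the list whose members have no base point
on `A` and are injective on `A`. -/
def DetData (S : HSetup N) : Prop :=
  ∃ 𝓛 : Finset (Σ n : ℕ, Finset (Fin (n + 1) → FN N)),
    (∀ Y ∈ 𝓛, IsDetDatum S Y.1 Y.2 ∧ ∀ ξ ∈ Y.2, LinearIndependent Qbar ξ) ∧
    ∀ (x : MW N) (A : DivN N) (n : ℕ), IsCanon S (x : JZero N) A (n + 1) →
      ∃ X : Finset (Fin (n + 1) → FN N), (⟨n, X⟩ : Σ n : ℕ, Finset (Fin (n + 1) → FN N)) ∈ 𝓛 ∧
        ∀ ξ ∈ X, NoBase ξ A ∧ Inj S ξ A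

/-- **Seat DETLOC.**  The square of the confluent determinant of a `d`-tuple `ξ` of sections at
an effective divisor `A` of degree `d = n + 1` (columns `(P, l)`, `l < A(P)`: `l`-th Taylor
coefficient at `P` with respect to `π_P`), with its three properties. -/
structure JetData (S : HSetup N) (U : Unif S) where
  /-- `Δ(ξ, A)²` -/
  jetSq : (n : ℕ) → (Fin (n + 1) → FN N) → DivN N → Qbar
  /-- Galois equivariance -/
  galois : ∀ (σ : GQ) (n : ℕ) (ξ : Fin (n + 1) → FN N) (A : DivN N), 0 ≤ A →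
    Divisor.degree A = ((n + 1 : ℕ) : ℤ) → A S.P₀ = 0 →
    σ (jetSq n ξ A) = jetSq n (fun i => Pts.galFun N σ (ξ i)) (galDiv N σ A)
  /-- nonvanishing -/
  ne_zero : ∀ (n : ℕ) (ξ : Fin (n + 1) → FN N) (A : DivN N),
    (∀ i, ξ i ∈ secSpace S.P₀ S.e 1) → LinearIndependent Qbar ξ → 0 ≤ A →
    Divisor.degree A = ((n + 1 : ℕ) : ℤ) → A S.P₀ = 0 → Inj S ξ A → jetSq n ξ A ≠ 0
  /-- the local determinant bound:
  `log |Δ²|_v + Σ_{P ≠ Q} A(P) A(Q) g_v(P,Q) - Σ_P (A(P)² - A(P)) κ_v(P)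
     ≤ 2 Σ_P A(P) log ‖ξ(P)‖_v + γ_v` -/
  bound : ∀ (n : ℕ) (ξ : Fin (n + 1) → FN N),
    (∀ i, ξ i ∈ secSpace S.P₀ S.e 1) → LinearIndependent Qbar ξ →
    ∃ γ : MConst S.𝔸, ∀ (v : S.𝔸.ι) (A : DivN N), 0 ≤ A →
      Divisor.degree A = ((n + 1 : ℕ) : ℤ) → A S.P₀ = 0 → NoBase ξ A → Inj S ξ A →
      Real.log (S.𝔸.abv v (jetSq n ξ A))
        + ∑ P ∈ A.support, ∑ Q ∈ A.support, (A P : ℝ) * (A Q : ℝ) * gloc S.𝔸 v S.φ P Q
        - ∑ P ∈ A.support, ((A P : ℝ) ^ 2 - (A P : ℝ)) * kappa S U v P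
      ≤ 2 * ∑ P ∈ A.support, (A P : ℝ) * famloc S v ξ P + γ v

/-- **Seat KAPPA.**  For every index `a` such that `φ_a - φ_a(P)` is the uniformizer `π_P` at
some point `P ≠ P₀`: a Galois-fixed family `w` of nonzero functions and a Galois-stable divisor
`D` of degree `≥ 2 e + 2 g - 2` such that the polar divisor of `w` is `≥ D` everywhere, and at
every `P ≠ P₀` with `π_P = φ_a - φ_a(P)` the `w_i` are regular, not all zero, `D(P) = 0`, and
`κ_v(P) = log ‖w(P)‖_v - 2 log ‖φ(P)‖_v`.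
(`w` = the functions `φ_c D_a φ_b - φ_b D_a φ_c`, `b ≠ c`, `D_a = d/dφ_a`; `D = 2 e P₀ + div(dφ_a)`.) -/
def KappaFam (S : HSetup N) (U : Unif S) : Prop :=
  ∀ a : Fin (S.r + 1),
    (∃ P : PtN N, P ≠ S.P₀ ∧ U.π P = S.φ a - algebraMap Qbar (FN N) (val P (S.φ a))) →
    ∃ (m : ℕ) (w : Fin (m + 1) → FN N) (D : DivN N),
      (∀ i, w i ≠ 0) ∧ (∀ (σ : GQ) i, Pts.galFun N σ (w i) = w i) ∧ GalStable N D ∧
      2 * (S.e : ℤ) + 2 * (genusFF Qbar (FN N) : ℤ) - 2 ≤ Divisor.degree D ∧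
      (∀ P : PtN N, ∃ i, P.ord (w i) ≤ - D P) ∧
      ∀ P : PtN N, P ≠ S.P₀ → U.π P = S.φ a - algebraMap Qbar (FN N) (val P (S.φ a)) →
        D P = 0 ∧ (∀ i, 0 ≤ P.ord (w i)) ∧ (∃ i, P.ord (w i) = 0) ∧
        ∀ v : S.𝔸.ι, kappa S U v P
          = Real.log (vnorm S.𝔸 v fun i => val P (w i)) - 2 * lamloc S.𝔸 v S.φ P

/-- the hypothesis L4 in the form used by seat POS -/
def WeilCompareAll (S : HSetup N) : Prop :=
  ∀ (n n' : ℕ) (u : Fin (n + 1) → FN N) (w : Fin (n' + 1) → FN N),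
    SamePolar u w → WeilCompare S.𝔸 u w

end Fermat.Agent.S17.Pos
end
end MergeWrap_S17_H_Pos_Props
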