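import Mathlib
import Fermat.Agent.MU.S17.H.Pos.Props

section MergeWrap_S17_H_Pos_OneProp -- from S17/H/Pos/OneProp.lean

set_option autoImplicit false

/-!
# S17, package H, seat GB-ONE: the one-step bound (Prop)

"`LocalDecompLe` for the linear system spanned by `ξ`", relative to the coefficients of a section
in `ξ` and with the base locus of `ξ` eliminated:  for `s = Σ c_i ξ_i ≠ 0`, a point `P ≠ P₀` which
is not a base point of `ξ`, `l = ord_P s`, and an effective divisor `A' ≤ Z_s` without base points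
of `ξ`:

`log |(s / π^l)(P)|_v ≤ log ‖c‖_v + l log θ_v(P;π) - Σ_{Q ≠ P} A'(Q) g_v(P,Q) + log ‖ξ(P)‖_v + γ_v`.

Proof (seat ONE, file `Pos/One.lean`): `LocalDecompLe` at `j = 1` for `s` (`m = l`);
`cnorm b s ≤ C_v max |c_i|_v`; `Z_s ≥ A' + B`, `B = inf_i Z_{ξ_i}` the base divisor,
`g_v ≥ -γ'_v` on the residual zeros; elimination of `g_v(P, B)`: `LocalDecompGe` (`m = 0`) for a
`ξ_r` with `ξ_r(P) ≠ 0` whose residual zeros `Z_{ξ_r} - B` are `v`-adically far from `P` (chordal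
triangle inequality `δ(Q,Q') ≤ 3 max(δ(P,Q), δ(P,Q'))`; the residual divisors have no common
point).
-/

noncomputable section

open AlgebraicCurve ModularCurve Fermat.Agent.RR

namespace Fermat.Agent.S17.Pos

variable {N : ℕ} [NeZero N]

/-- **Seat ONE.** -/
def OneStep (S : HSetup N) : Prop :=
  ∀ (n : ℕ) (ξ : Fin (n + 1) → FN N), (∀ i, ξ i ∈ secSpace S.P₀ S.e 1) →
    LinearIndependent Qbar ξ →
    ∃ γ : MConst S.𝔸, ∀ (v : S.𝔸.ι) (c : Fin (n + 1) → Qbar) (P : PtN N) (π : FN N) (l : ℕ)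
      (A' : DivN N), c ≠ 0 → P ≠ S.P₀ → (∃ i, val P (ξ i) ≠ 0) → P.ord π = 1 →
      (l : ℤ) = P.ord (∑ i, c i • ξ i) → 0 ≤ A' → A' S.P₀ = 0 → NoBase ξ A' →
      A' ≤ zdiv (Pairing.hRR N) S.P₀ S.e 1 (∑ i, c i • ξ i) →
      Real.log (S.𝔸.abv v (val P ((∑ i, c i • ξ i) / π ^ l)))
        ≤ Real.log (vnorm S.𝔸 v c) + l * Real.log (theta S.𝔸 v S.φ P π)
          - gsum S.𝔸 v S.φ P A' + famloc S v ξ P + γ v

end Fermat.Agent.S17.Pos
end
end MergeWrap_S17_H_Pos_OneProp
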