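import Mathlib
import Fermat.Agent.MU.S17.H.Pos.AdjFin
import Fermat.Agent.MU.S17.H.ImmCurve

section MergeWrap_S17_H_Pos_ElimBase -- from S17/H/Pos/ElimBase.lean

set_option autoImplicit false
set_option linter.unusedSectionVars false

/-!
# S17, package H, seat GB-ELIM, part 1: the base divisor of a family of sections and the local
decomposition theorem at a non-zero of a section

* `baseDiv S ξ`        : `B = inf_i Z_{ξ_i}` (pointwise minimum of the zero divisors).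
* `baseDiv_le_zdiv`    : `B ≤ Z_s` for every nonzero `s` in the span of `ξ`.
* `exists_baseDiv_eq`  : at every point some `ξ_i` has `Z_{ξ_i}(c) = B(c)`.
* `elim_log_secSize`   : `log |s|_v(P) = log |s(P)|_v - lamloc_v(P)` for `P ≠ P₀`, `s(P) ≠ 0`.
* `elim_localGe`       : `LocalDecompGe` for `s` at `P ≠ P₀` with `s(P) ≠ 0`:
                         `lamloc_v(P) - glin(P, Z_s) ≤ log |s(P)|_v - log ‖s‖_v + γ_v`.
-/

noncomputable section

open AlgebraicCurve ModularCurve Fermat.Agent.RR Fermat.Agent.S17.Pairing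

namespace Fermat.Agent.S17.Pos

variable {N : ℕ} [NeZero N]

/-- the zero divisor of a section of `V₁` -/
abbrev zd (S : HSetup N) (f : FN N) : DivN N := zdiv (hRR N) S.P₀ S.e 1 f

/-- the base divisor `inf_i Z_{ξ_i}` of a family of sections (truncated at `0`) -/
def baseDiv (S : HSetup N) {n : ℕ} (ξ : Fin (n + 1) → FN N) : DivN N :=
  Finsupp.onFinset (zd S (ξ 0)).support
    (fun c => max (Finset.univ.inf' Finset.univ_nonempty fun i => zd S (ξ i) c) 0) (by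
      intro c hc
      rw [Finsupp.mem_support_iff]
      intro h0
      apply hc
      have h1 : (Finset.univ.inf' Finset.univ_nonempty fun i => zd S (ξ i) c) ≤ zd S (ξ 0) c :=
        Finset.inf'_le (fun i => zd S (ξ i) c) (Finset.mem_univ 0)
      rw [h0] at h1
      exact max_eq_right h1)

theorem baseDiv_apply' (S : HSetup N) {n : ℕ} (ξ : Fin (n + 1) → FN N) (c : PtN N) :
    baseDiv S ξ c = max (Finset.univ.inf' Finset.univ_nonempty fun i => zd S (ξ i) c) 0 := rfl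

theorem baseDiv_nonneg (S : HSetup N) {n : ℕ} (ξ : Fin (n + 1) → FN N) : 0 ≤ baseDiv S ξ := by
  rw [Finsupp.le_def]
  intro c
  rw [baseDiv_apply']
  exact le_max_right _ _

section

variable (S : HSetup N) {n : ℕ} (ξ : Fin (n + 1) → FN N)
  (hξ : ∀ i, ξ i ∈ secSpace S.P₀ S.e 1) (hξ0 : ∀ i, ξ i ≠ 0)

include hξ hξ0

theorem baseDiv_apply (c : PtN N) :
    baseDiv S ξ c = Finset.univ.inf' Finset.univ_nonempty fun i => zd S (ξ i) c := by
  rw [baseDiv_apply']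
  apply max_eq_left
  rw [Finset.le_inf'_iff]
  intro i _
  exact zdiv_nonneg (hRR N) S.P₀ S.e 1 (hξ i) (hξ0 i) c

theorem baseDiv_le (i : Fin (n + 1)) : baseDiv S ξ ≤ zd S (ξ i) := by
  rw [Finsupp.le_def]
  intro c
  rw [baseDiv_apply S ξ hξ hξ0]
  exact Finset.inf'_le (fun i => zd S (ξ i) c) (Finset.mem_univ i)

/-- at every point the minimum is attained -/
theorem exists_baseDiv_eq (c : PtN N) : ∃ i, zd S (ξ i) c = baseDiv S ξ c := by
  obtain ⟨i, -, hi⟩ := Finset.exists_mem_eq_inf' Finset.univ_nonempty fun i => zd S (ξ i) c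
  exact ⟨i, by rw [baseDiv_apply S ξ hξ hξ0, hi]⟩

/-- the base divisor vanishes where some `ξ_i` does not vanish -/
theorem baseDiv_eq_zero {c : PtN N} (hc : ∃ i, zd S (ξ i) c = 0) : baseDiv S ξ c = 0 := by
  obtain ⟨i, hi⟩ := hc
  have h1 := Finsupp.le_def.mp (baseDiv_le S ξ hξ hξ0 i) c
  have h2 := Finsupp.le_def.mp (baseDiv_nonneg S ξ) c
  rw [hi] at h1
  exact le_antisymm h1 h2

/-- the sections of the span vanish on the base divisor -/
theorem baseDiv_le_zdiv {s : FN N} (hs : s ∈ Submodule.span Qbar (Set.range ξ)) (hs0 : s ≠ 0) :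
    baseDiv S ξ ≤ zd S s := by
  have h := hRR N
  have hsub : Submodule.span Qbar (Set.range ξ)
      ≤ riemannRochSpace (Finsupp.single S.P₀ ((1 * S.e : ℕ) : ℤ) - baseDiv S ξ) := by
    rw [Submodule.span_le]
    rintro _ ⟨i, rfl⟩
    rw [SetLike.mem_coe, mem_riemannRochSpace_iff_le h (hξ0 i)]
    have := baseDiv_le S ξ hξ hξ0 i
    unfold zd zdiv at this
    rw [neg_sub]
    exact sub_le_iff_le_add.mpr this
  have hmem := hsub hs
  rw [mem_riemannRochSpace_iff_le h hs0, neg_sub] at hmem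
  unfold zd zdiv
  exact sub_le_iff_le_add.mp hmem

end

/-! ### the local decomposition theorem at a non-zero of a section -/

/-- for `P ≠ P₀` and a section `s` of `V₁`: `|s|_v(P) = |s(P)|_v / ‖φ(P)‖_v` -/
theorem elim_secSize (S : HSetup N) (v : S.𝔸.ι) {P : PtN N} (hP : P ≠ S.P₀) (π : FN N)
    {s : FN N} (hs : s ∈ secSpace S.P₀ S.e 1) (hs0 : s ≠ 0) :
    secSize S.𝔸 v S.φ 1 P π 0 s
      = S.𝔸.abv v (val P s) / vnorm S.𝔸 v (fun a => val P (S.φ a)) := by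
  classical
  have he := e_ge_two_genus S
  have hpiv := S.isEmbBasis.ord_pivot_of_ne (hRR N) he hP
  have hp0 : S.φ (pivot S.φ P) ≠ 0 := S.isEmbBasis.ne_zero _
  have hv0 : val P (S.φ (pivot S.φ P)) ≠ 0 := Pts.ev_ne_zero_of_ord_eq_zero (hRR N) P hp0 hpiv
  have habs : 0 < S.𝔸.abv v (val P (S.φ (pivot S.φ P))) := (S.𝔸.abv v).pos hv0
  have hsnn : 0 ≤ P.ord s := by
    have h1 := zdiv_nonneg (hRR N) S.P₀ S.e 1 hs hs0 P
    rw [zdiv_apply, Finsupp.single_apply, if_neg (Ne.symm hP), add_zero] at h1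
    exact h1
  unfold secSize
  rw [pow_one, pow_zero, mul_one, pow_one, adj_vnorm_coord S v hP]
  have : val P (s / S.φ (pivot S.φ P)) = val P s / val P (S.φ (pivot S.φ P)) :=
    Pts.ev_div (hRR N) P hsnn hpiv
  rw [this, map_div₀]
  field_simp

/-- for `P ≠ P₀`, `s(P) ≠ 0`: `log |s|_v(P) = log |s(P)|_v - lamloc_v(P)` -/
theorem elim_log_secSize (S : HSetup N) (v : S.𝔸.ι) {P : PtN N} (hP : P ≠ S.P₀) (π : FN N)
    {s : FN N} (hs : s ∈ secSpace S.P₀ S.e 1) (hs0 : s ≠ 0) (hsP : val P s ≠ 0) :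
    Real.log (secSize S.𝔸 v S.φ 1 P π 0 s)
      = Real.log (S.𝔸.abv v (val P s)) - lamloc S.𝔸 v S.φ P := by
  rw [elim_secSize S v hP π hs hs0]
  unfold lamloc
  have h1 : 0 < S.𝔸.abv v (val P s) := (S.𝔸.abv v).pos hsP
  have h2 : 0 < vnorm S.𝔸 v (fun a => val P (S.φ a)) := by
    refine vnorm_pos S.𝔸 v ?_
    intro h0
    have := congrFun h0 0
    simp only [Pi.zero_apply] at this
    rw [S.isEmbBasis.zero_eq_one] at this
    exact one_ne_zero ((Pts.ev_one P).symm.trans this)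
  rw [Real.log_div h1.ne' h2.ne']

/-- a section which does not vanish at `P ≠ P₀` (as a function) has `Z_s(P) = 0` -/
theorem elim_zd_eq_zero (S : HSetup N) {P : PtN N} (hP : P ≠ S.P₀) {s : FN N}
    (hs : s ∈ secSpace S.P₀ S.e 1) (hs0 : s ≠ 0) (hsP : val P s ≠ 0) : zd S s P = 0 := by
  classical
  have h1 := zdiv_nonneg (hRR N) S.P₀ S.e 1 hs hs0 P
  unfold zd
  rw [zdiv_apply, Finsupp.single_apply, if_neg (Ne.symm hP), add_zero] at h1 ⊢
  by_contra hne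
  have hpos : 0 < P.ord s := lt_of_le_of_ne h1 (Ne.symm hne)
  exact hsP ((Pts.ev_eq_zero_iff (hRR N) P hs0 h1).mpr hpos)

/-- `LocalDecompGe` at a non-zero `P ≠ P₀` of a section -/
theorem elim_localGe (S : HSetup N) {d : ℕ}
    (b : Module.Basis (Fin (d + 1)) Qbar (secSpace S.P₀ S.e 1)) {γ : MConst S.𝔸}
    (hγ : ∀ (v : S.𝔸.ι) (f : FN N), f ∈ secSpace S.P₀ S.e 1 → f ≠ 0 →
      ∀ (P : PtN N) (π : FN N), P.ord π = 1 → ∀ m : ℕ,
        (m : ℤ) = zdiv (hRR N) S.P₀ S.e 1 f P →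
        Real.log (cnorm S.𝔸 v b f) + m * Real.log (theta S.𝔸 v S.φ P π)
          - gsum S.𝔸 v S.φ P (zdiv (hRR N) S.P₀ S.e 1 f) - γ v
          ≤ Real.log (secSize S.𝔸 v S.φ 1 P π m f))
    (v : S.𝔸.ι) {P : PtN N} (hP : P ≠ S.P₀) {s : FN N} (hs : s ∈ secSpace S.P₀ S.e 1)
    (hs0 : s ≠ 0) (hsP : val P s ≠ 0) :
    lamloc S.𝔸 v S.φ P - glin S v P (zd S s)
      ≤ Real.log (S.𝔸.abv v (val P s)) - Real.log (cnorm S.𝔸 v b s) + γ v := by
  obtain ⟨π, hπ⟩ := exists_uniformizer P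
  have hm : ((0 : ℕ) : ℤ) = zdiv (hRR N) S.P₀ S.e 1 s P := by
    have := elim_zd_eq_zero S hP hs hs0 hsP
    unfold zd at this
    rw [this]
    rfl
  have h := hγ v s hs hs0 P π hπ 0 hm
  rw [elim_log_secSize S v hP π hs hs0 hsP, gsum_eq_glin] at h
  push_cast at h
  unfold zd
  linarith

end Fermat.Agent.S17.Pos
end
end MergeWrap_S17_H_Pos_ElimBase

section MergeWrap_S17_H_Pos_ElimChoice -- from S17/H/Pos/ElimChoice.lean

set_option autoImplicit false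
set_option linter.unusedSectionVars false

/-!
# S17, package H, seat GB-ELIM, part 2: elimination of the base divisor

`exists_base_elim_of_tri` : the statement of seat ELIM from `LocalDecompGe` (`j = 1`) and the
chordal triangle inequality `min (g_v(P,Q), g_v(P,Q')) ≤ g_v(Q,Q') + τ_v` (`ChordTriangle S`).

Proof: `B = inf_i Z_{ξ_i}`, `R_i = Z_{ξ_i} - B ≥ 0` (degree `≤ e`) have no common point;
`C = ∪ supp R_i`, `G_v = Σ_{c,c' ∈ C} |g_v(c,c')|`.  For `P ≠ P₀` where some `ξ_i` does not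
vanish there is an index `r` with `ξ_r(P) ≠ 0` and `g_v(P,c) ≤ G_v + τ_v` on `supp R_r`
(`exists_good_index`); then `LocalDecompGe` (`m = 0`) for `ξ_r` at `P`.
-/

noncomputable section

open AlgebraicCurve ModularCurve Fermat.Agent.RR Fermat.Agent.S17.Pairing

namespace Fermat.Agent.S17.Pos

variable {N : ℕ} [NeZero N]

/-- **the chordal triangle inequality**, in logarithmic form -/
def ChordTriangle (S : HSetup N) : Prop :=
  ∃ τ : MConst S.𝔸, ∀ (v : S.𝔸.ι) (P Q Q' : PtN N), P ≠ Q → P ≠ Q' → Q ≠ Q' →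
    min (gloc S.𝔸 v S.φ P Q) (gloc S.𝔸 v S.φ P Q') ≤ gloc S.𝔸 v S.φ Q Q' + τ v

/-- the residual divisors `R_i = Z_{ξ_i} - B` -/
def resDiv (S : HSetup N) {n : ℕ} (ξ : Fin (n + 1) → FN N) (i : Fin (n + 1)) : DivN N :=
  zd S (ξ i) - baseDiv S ξ

open Classical in
/-- the finite set `C = ∪ supp R_i` -/
def resPts (S : HSetup N) {n : ℕ} (ξ : Fin (n + 1) → FN N) : Finset (PtN N) :=
  Finset.univ.biUnion fun i => (resDiv S ξ i).support

/-- `G_v = Σ_{c, c' ∈ C} |g_v(c,c')|` -/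
def elimG (S : HSetup N) {n : ℕ} (ξ : Fin (n + 1) → FN N) : MConst S.𝔸 where
  c := fun v => ∑ c ∈ resPts S ξ, ∑ c' ∈ resPts S ξ, |gloc S.𝔸 v S.φ c c'|
  nonneg := fun v => Finset.sum_nonneg fun _ _ => Finset.sum_nonneg fun _ _ => abs_nonneg _
  finite := by
    classical
    have hfin : (⋃ c ∈ resPts S ξ, ⋃ c' ∈ resPts S ξ,
        {v : S.𝔸.ι | gloc S.𝔸 v S.φ c c' ≠ 0}).Finite :=
      Set.Finite.biUnion (resPts S ξ).finite_toSet fun c _ =>
        Set.Finite.biUnion (resPts S ξ).finite_toSet fun c' _ => glocFinite S c c'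
    refine hfin.subset ?_
    intro v hv
    simp only [Set.mem_ofPred_eq, ne_eq] at hv
    obtain ⟨c, hc, hne⟩ := Finset.exists_ne_zero_of_sum_ne_zero hv
    obtain ⟨c', hc', hne'⟩ := Finset.exists_ne_zero_of_sum_ne_zero hne
    simp only [Set.mem_iUnion, Set.mem_ofPred_eq]
    exact ⟨c, hc, c', hc', fun h0 => hne' (by rw [h0, abs_zero])⟩

theorem gloc_le_elimG (S : HSetup N) {n : ℕ} (ξ : Fin (n + 1) → FN N) (v : S.𝔸.ι)
    {c c' : PtN N} (hc : c ∈ resPts S ξ) (hc' : c' ∈ resPts S ξ) :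
    gloc S.𝔸 v S.φ c c' ≤ elimG S ξ v := by
  refine (le_abs_self _).trans ?_
  show |gloc S.𝔸 v S.φ c c'| ≤ ∑ c ∈ resPts S ξ, ∑ c' ∈ resPts S ξ, |gloc S.𝔸 v S.φ c c'|
  refine le_trans ?_ (Finset.single_le_sum
    (f := fun c => ∑ c' ∈ resPts S ξ, |gloc S.𝔸 v S.φ c c'|)
    (fun _ _ => Finset.sum_nonneg fun _ _ => abs_nonneg _) hc)
  exact Finset.single_le_sum (f := fun c' => |gloc S.𝔸 v S.φ c c'|)
    (fun _ _ => abs_nonneg _) hc'

/-- `κ_v = Σ_i |log ‖ξ_i‖_v|` -/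
def elimK (S : HSetup N) {d : ℕ} (b : Module.Basis (Fin (d + 1)) Qbar (secSpace S.P₀ S.e 1))
    {n : ℕ} (ξ : Fin (n + 1) → FN N) : MConst S.𝔸 where
  c := fun v => ∑ i, |Real.log (cnorm S.𝔸 v b (ξ i))|
  nonneg := fun v => Finset.sum_nonneg fun _ _ => abs_nonneg _
  finite := by
    classical
    have hfin : (⋃ i ∈ (Finset.univ : Finset (Fin (n + 1))),
        {v : S.𝔸.ι | Real.log (cnorm S.𝔸 v b (ξ i)) ≠ 0}).Finite :=
      Set.Finite.biUnion (Finset.univ).finite_toSet fun i _ => adj_finite_log_cnorm S b (ξ i)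
    refine hfin.subset ?_
    intro v hv
    simp only [Set.mem_ofPred_eq, ne_eq] at hv
    obtain ⟨i, hi, hne⟩ := Finset.exists_ne_zero_of_sum_ne_zero hv
    simp only [Set.mem_iUnion, Set.mem_ofPred_eq]
    exact ⟨i, hi, fun h0 => hne (by rw [h0, abs_zero])⟩

section

variable (S : HSetup N) {n : ℕ} (ξ : Fin (n + 1) → FN N)
  (hξ : ∀ i, ξ i ∈ secSpace S.P₀ S.e 1) (hξ0 : ∀ i, ξ i ≠ 0)

include hξ hξ0

theorem resDiv_nonneg (i : Fin (n + 1)) : 0 ≤ resDiv S ξ i :=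
  sub_nonneg.mpr (baseDiv_le S ξ hξ hξ0 i)

theorem resDiv_apply_nonneg (i : Fin (n + 1)) (c : PtN N) : (0 : ℝ) ≤ (resDiv S ξ i c : ℝ) := by
  exact_mod_cast Finsupp.le_def.mp (resDiv_nonneg S ξ hξ hξ0 i) c

/-- `deg R_i ≤ e` -/
theorem sum_resDiv_le (i : Fin (n + 1)) :
    ∑ c ∈ (resDiv S ξ i).support, (resDiv S ξ i c : ℝ) ≤ S.e := by
  have h := hRR N
  have h1 : Divisor.degree (resDiv S ξ i) ≤ (S.e : ℤ) := by
    unfold resDiv
    rw [map_sub]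
    have h2 : Divisor.degree (zd S (ξ i)) = (S.e : ℤ) := by
      unfold zd zdiv
      rw [map_add, degree_divOf, zero_add, Divisor.degree_single, h.deg_one]
      push_cast
      ring
    have h3 := degree_nonneg_of_nonneg h (baseDiv_nonneg S ξ)
    omega
  rw [degree_eq_sum h] at h1
  have h4 : ((∑ c ∈ (resDiv S ξ i).support, resDiv S ξ i c : ℤ) : ℝ) ≤ ((S.e : ℤ) : ℝ) := by
    exact_mod_cast h1
  push_cast at h4
  exact h4

/-- the residual divisors have no common point -/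
theorem exists_resDiv_eq_zero (c : PtN N) : ∃ i, resDiv S ξ i c = 0 := by
  obtain ⟨i, hi⟩ := exists_baseDiv_eq S ξ hξ hξ0 c
  refine ⟨i, ?_⟩
  unfold resDiv
  rw [Finsupp.sub_apply, hi, sub_self]

theorem mem_resPts_of_mem_support {i : Fin (n + 1)} {c : PtN N}
    (hc : c ∈ (resDiv S ξ i).support) : c ∈ resPts S ξ := by
  classical
  unfold resPts
  rw [Finset.mem_biUnion]
  exact ⟨i, Finset.mem_univ i, hc⟩

/-- **the choice of the index** -/
theorem exists_good_index {τ : MConst S.𝔸}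
    (hτ : ∀ (v : S.𝔸.ι) (P Q Q' : PtN N), P ≠ Q → P ≠ Q' → Q ≠ Q' →
      min (gloc S.𝔸 v S.φ P Q) (gloc S.𝔸 v S.φ P Q') ≤ gloc S.𝔸 v S.φ Q Q' + τ v)
    (v : S.𝔸.ι) {P : PtN N} (hP : P ≠ S.P₀) (hex : ∃ i, val P (ξ i) ≠ 0) :
    ∃ r, val P (ξ r) ≠ 0 ∧ ∀ c ∈ (resDiv S ξ r).support,
      gloc S.𝔸 v S.φ P c ≤ elimG S ξ v + τ v := by
  classical
  have hτ0 := τ.nonneg v
  have hG0 := (elimG S ξ).nonneg v
  by_cases hPC : P ∈ resPts S ξ
  · -- `P` is one of the finitely many points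
    obtain ⟨r, hr⟩ := hex
    refine ⟨r, hr, fun c hc => ?_⟩
    have := gloc_le_elimG S ξ v hPC (mem_resPts_of_mem_support S ξ hξ hξ0 hc)
    linarith
  · -- `P` is not one of them: every `ξ_i` is a unit at `P`
    have hall : ∀ i, val P (ξ i) ≠ 0 := by
      intro i
      obtain ⟨i₀, hi₀⟩ := hex
      have hB : baseDiv S ξ P = 0 :=
        baseDiv_eq_zero S ξ hξ hξ0 ⟨i₀, elim_zd_eq_zero S hP (hξ i₀) (hξ0 i₀) hi₀⟩
      have hR : resDiv S ξ i P = 0 := by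
        by_contra hne
        exact hPC (mem_resPts_of_mem_support S ξ hξ hξ0 (Finsupp.mem_support_iff.mpr hne))
      have hZ : zd S (ξ i) P = 0 := by
        unfold resDiv at hR
        rw [Finsupp.sub_apply, hB, sub_zero] at hR
        exact hR
      have hord : P.ord (ξ i) = 0 := by
        unfold zd at hZ
        rw [zdiv_apply, Finsupp.single_apply, if_neg (Ne.symm hP), add_zero] at hZ
        exact hZ
      exact Pts.ev_ne_zero_of_ord_eq_zero (hRR N) P (hξ0 i) hord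
    by_cases hbad : ∃ cs ∈ resPts S ξ, elimG S ξ v + τ v < gloc S.𝔸 v S.φ P cs
    · obtain ⟨cs, hcs, hlt⟩ := hbad
      obtain ⟨r, hr⟩ := exists_resDiv_eq_zero S ξ hξ hξ0 cs
      refine ⟨r, hall r, fun c hc => ?_⟩
      have hcC := mem_resPts_of_mem_support S ξ hξ hξ0 hc
      have hne : c ≠ cs := by
        rintro rfl
        exact (Finsupp.mem_support_iff.mp hc) hr
      have hPc : P ≠ c := fun h => hPC (h ▸ hcC)
      have hPcs : P ≠ cs := fun h => hPC (h ▸ hcs)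
      have h1 := hτ v P c cs hPc hPcs hne
      have h2 := gloc_le_elimG S ξ v hcC hcs
      rcases min_le_iff.mp h1 with h3 | h3
      · linarith
      · linarith
    · simp only [not_exists, not_and, not_lt] at hbad
      exact ⟨0, hall 0, fun c hc => hbad c (mem_resPts_of_mem_support S ξ hξ hξ0 hc)⟩

/-- bound of `glin (P, R_r)` -/
theorem glin_resDiv_le (v : S.𝔸.ι) (P : PtN N) (r : Fin (n + 1)) {M : ℝ} (hM : 0 ≤ M)
    (hle : ∀ c ∈ (resDiv S ξ r).support, gloc S.𝔸 v S.φ P c ≤ M) :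
    glin S v P (resDiv S ξ r) ≤ S.e * M := by
  unfold glin
  calc ∑ c ∈ (resDiv S ξ r).support, (resDiv S ξ r c : ℝ) * gloc S.𝔸 v S.φ P c
      ≤ ∑ c ∈ (resDiv S ξ r).support, (resDiv S ξ r c : ℝ) * M :=
        Finset.sum_le_sum fun c hc =>
          mul_le_mul_of_nonneg_left (hle c hc) (resDiv_apply_nonneg S ξ hξ hξ0 r c)
    _ = (∑ c ∈ (resDiv S ξ r).support, (resDiv S ξ r c : ℝ)) * M := by rw [Finset.sum_mul]
    _ ≤ S.e * M := mul_le_mul_of_nonneg_right (sum_resDiv_le S ξ hξ hξ0 r) hM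

end

/-- **Seat GB-ELIM**, from the chordal triangle inequality. -/
theorem exists_base_elim_of_tri (S : HSetup N) (hTri : ChordTriangle S) {d : ℕ}
    (b : Module.Basis (Fin (d + 1)) Qbar (secSpace S.P₀ S.e 1))
    (hGe : LocalDecompGe S.𝔸 (hRR N) S.P₀ S.e S.φ 1 b) {n : ℕ} (ξ : Fin (n + 1) → FN N)
    (hξ : ∀ i, ξ i ∈ secSpace S.P₀ S.e 1) (hξ0 : ∀ i, ξ i ≠ 0) :
    ∃ (B : DivN N) (γ : MConst S.𝔸), 0 ≤ B ∧
      (∀ s ∈ Submodule.span Qbar (Set.range ξ), s ≠ 0 →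
        B ≤ zdiv (hRR N) S.P₀ S.e 1 s) ∧
      (∀ P : PtN N, (∃ i, zdiv (hRR N) S.P₀ S.e 1 (ξ i) P = 0) → B P = 0) ∧
      ∀ (v : S.𝔸.ι) (P : PtN N), P ≠ S.P₀ → (∃ i, val P (ξ i) ≠ 0) →
        lamloc S.𝔸 v S.φ P - glin S v P B ≤ famloc S v ξ P + γ v := by
  classical
  obtain ⟨γ, hγ⟩ := hGe
  obtain ⟨τ, hτ⟩ := hTri
  refine ⟨baseDiv S ξ, γ + elimK S b ξ + MConst.nsmul' S.e (elimG S ξ + τ),
    baseDiv_nonneg S ξ, fun s hs hs0 => baseDiv_le_zdiv S ξ hξ hξ0 hs hs0,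
    fun P hP => baseDiv_eq_zero S ξ hξ hξ0 hP, ?_⟩
  intro v P hP hex
  obtain ⟨r, hr, hle⟩ := exists_good_index S ξ hξ hξ0 hτ v hP hex
  have hM : 0 ≤ elimG S ξ v + τ v := add_nonneg ((elimG S ξ).nonneg v) (τ.nonneg v)
  have h1 := elim_localGe S b hγ v hP (hξ r) (hξ0 r) hr
  have h2 := glin_resDiv_le S ξ hξ hξ0 v P r hM hle
  have h3 : glin S v P (resDiv S ξ r) = glin S v P (zd S (ξ r)) - glin S v P (baseDiv S ξ) := by
    unfold resDiv
    exact glin_sub S v P _ _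
  -- `log |ξ_r(P)|_v ≤ famloc`
  have h4 : Real.log (S.𝔸.abv v (val P (ξ r))) ≤ famloc S v ξ P := by
    unfold famloc
    refine Real.log_le_log ((S.𝔸.abv v).pos hr) ?_
    exact abv_le_vnorm S.𝔸 v (fun i => val P (ξ i)) r
  -- `- log ‖ξ_r‖_v ≤ κ_v`
  have h5 : - Real.log (cnorm S.𝔸 v b (ξ r)) ≤ elimK S b ξ v := by
    refine (neg_le_abs _).trans ?_
    exact Finset.single_le_sum (f := fun i => |Real.log (cnorm S.𝔸 v b (ξ i))|)
      (fun _ _ => abs_nonneg _) (Finset.mem_univ r)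
  simp only [MConst.add_apply, MConst.nsmul'_apply]
  linarith

end Fermat.Agent.S17.Pos
end
end MergeWrap_S17_H_Pos_ElimChoice

section MergeWrap_S17_H_ChordTri -- from S17/H/ChordTri.lean

set_option autoImplicit false
set_option linter.unusedSectionVars false
set_option linter.style.longLine false

/-!
# S17, package H: the triangle inequality for the chordal distance

For vectors `x y z` over `ℚ̄` and a place `v`:

* `wnorm_triangle`          : `‖y‖ ‖x ∧ z‖ ≤ 2 ‖x‖ ‖y ∧ z‖ + ‖z‖ ‖x ∧ y‖`;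
* `wnorm_triangle_nonarch`  : `‖y‖ ‖x ∧ z‖ ≤ max (‖x‖ ‖y ∧ z‖) (‖z‖ ‖x ∧ y‖)` (`v` ultrametric);
* `IsEmbBasis.chord_triangle` : `δ_v(P,R) ≤ exp (2 archLogTwo v) max (δ_v(P,Q)) (δ_v(Q,R))`
  (constant `1` at the ultrametric places, `4` at the others);
* `IsEmbBasis.gloc_triangle`  : `min (g_v(P,Q)) (g_v(Q,R)) - 2 archLogTwo v ≤ g_v(P,R)`
  for pairwise distinct `P, Q, R`.

All come from the identity
`y_k (x_i z_j - x_j z_i) = x_i (y_k z_j - y_j z_k) - x_j (y_k z_i - y_i z_k) + z_k (x_i y_j - x_j y_i)`.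
-/

noncomputable section

open AlgebraicCurve Fermat.Agent.RR

namespace Fermat.Agent.S17

variable (𝔸 : AbsSys) (v : 𝔸.ι)

theorem chordTri_wnorm_symm {r : ℕ} (x y : Fin (r + 1) → Qbar) : wnorm 𝔸 v x y = wnorm 𝔸 v y x := by
  have key : ∀ x y : Fin (r + 1) → Qbar, wnorm 𝔸 v x y ≤ wnorm 𝔸 v y x := by
    intro x y
    refine Finset.sup'_le _ _ fun p _ => ?_
    have h1 : x p.1 * y p.2 - x p.2 * y p.1 = y p.2 * x p.1 - y p.1 * x p.2 := by ring
    rw [h1]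
    exact abv_minor_le_wnorm 𝔸 v y x p.2 p.1
  exact le_antisymm (key x y) (key y x)

/-- the three-term bound for one minor -/
theorem chordTri_minor {r : ℕ} (x y z : Fin (r + 1) → Qbar) (i j k : Fin (r + 1)) :
    y k * (x i * z j - x j * z i) =
      x i * (y k * z j - y j * z k) - x j * (y k * z i - y i * z k)
        + z k * (x i * y j - x j * y i) := by
  ring

theorem wnorm_triangle {r : ℕ} (x y z : Fin (r + 1) → Qbar) :
    vnorm 𝔸 v y * wnorm 𝔸 v x z ≤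
      2 * (vnorm 𝔸 v x * wnorm 𝔸 v y z) + vnorm 𝔸 v z * wnorm 𝔸 v x y := by
  obtain ⟨k, hk⟩ := exists_abv_eq_vnorm 𝔸 v y
  obtain ⟨p, -, hp⟩ := Finset.exists_mem_eq_sup' Finset.univ_nonempty
    fun p : Fin (r + 1) × Fin (r + 1) => 𝔸.abv v (x p.1 * z p.2 - x p.2 * z p.1)
  have hw : wnorm 𝔸 v x z = 𝔸.abv v (x p.1 * z p.2 - x p.2 * z p.1) := hp
  rw [← hk, hw, ← map_mul, chordTri_minor x y z p.1 p.2 k]
  have hyz := wnorm_nonneg 𝔸 v y z
  have hxy := wnorm_nonneg 𝔸 v x y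
  have t1 : 𝔸.abv v (x p.1 * (y k * z p.2 - y p.2 * z k)) ≤ vnorm 𝔸 v x * wnorm 𝔸 v y z := by
    rw [map_mul]
    exact mul_le_mul (abv_le_vnorm 𝔸 v x _) (abv_minor_le_wnorm 𝔸 v y z k p.2)
      ((𝔸.abv v).nonneg _) (vnorm_nonneg 𝔸 v x)
  have t2 : 𝔸.abv v (x p.2 * (y k * z p.1 - y p.1 * z k)) ≤ vnorm 𝔸 v x * wnorm 𝔸 v y z := by
    rw [map_mul]
    exact mul_le_mul (abv_le_vnorm 𝔸 v x _) (abv_minor_le_wnorm 𝔸 v y z k p.1)
      ((𝔸.abv v).nonneg _) (vnorm_nonneg 𝔸 v x)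
  have t3 : 𝔸.abv v (z k * (x p.1 * y p.2 - x p.2 * y p.1)) ≤ vnorm 𝔸 v z * wnorm 𝔸 v x y := by
    rw [map_mul]
    exact mul_le_mul (abv_le_vnorm 𝔸 v z _) (abv_minor_le_wnorm 𝔸 v x y p.1 p.2)
      ((𝔸.abv v).nonneg _) (vnorm_nonneg 𝔸 v z)
  have a1 := (𝔸.abv v).add_le
    (x p.1 * (y k * z p.2 - y p.2 * z k) - x p.2 * (y k * z p.1 - y p.1 * z k))
    (z k * (x p.1 * y p.2 - x p.2 * y p.1))
  have a2 := (𝔸.abv v).add_le (x p.1 * (y k * z p.2 - y p.2 * z k))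
    (-(x p.2 * (y k * z p.1 - y p.1 * z k)))
  rw [← sub_eq_add_neg, (𝔸.abv v).map_neg] at a2
  linarith

theorem wnorm_triangle_nonarch {r : ℕ} (hv : v ∉ 𝔸.arch) (x y z : Fin (r + 1) → Qbar) :
    vnorm 𝔸 v y * wnorm 𝔸 v x z ≤
      max (vnorm 𝔸 v x * wnorm 𝔸 v y z) (vnorm 𝔸 v z * wnorm 𝔸 v x y) := by
  have hna := 𝔸.nonarch v hv
  obtain ⟨k, hk⟩ := exists_abv_eq_vnorm 𝔸 v y
  obtain ⟨p, -, hp⟩ := Finset.exists_mem_eq_sup' Finset.univ_nonempty
    fun p : Fin (r + 1) × Fin (r + 1) => 𝔸.abv v (x p.1 * z p.2 - x p.2 * z p.1)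
  have hw : wnorm 𝔸 v x z = 𝔸.abv v (x p.1 * z p.2 - x p.2 * z p.1) := hp
  rw [← hk, hw, ← map_mul, chordTri_minor x y z p.1 p.2 k]
  have t1 : 𝔸.abv v (x p.1 * (y k * z p.2 - y p.2 * z k)) ≤ vnorm 𝔸 v x * wnorm 𝔸 v y z := by
    rw [map_mul]
    exact mul_le_mul (abv_le_vnorm 𝔸 v x _) (abv_minor_le_wnorm 𝔸 v y z k p.2)
      ((𝔸.abv v).nonneg _) (vnorm_nonneg 𝔸 v x)
  have t2 : 𝔸.abv v (x p.2 * (y k * z p.1 - y p.1 * z k)) ≤ vnorm 𝔸 v x * wnorm 𝔸 v y z := by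
    rw [map_mul]
    exact mul_le_mul (abv_le_vnorm 𝔸 v x _) (abv_minor_le_wnorm 𝔸 v y z k p.1)
      ((𝔸.abv v).nonneg _) (vnorm_nonneg 𝔸 v x)
  have t3 : 𝔸.abv v (z k * (x p.1 * y p.2 - x p.2 * y p.1)) ≤ vnorm 𝔸 v z * wnorm 𝔸 v x y := by
    rw [map_mul]
    exact mul_le_mul (abv_le_vnorm 𝔸 v z _) (abv_minor_le_wnorm 𝔸 v x y p.1 p.2)
      ((𝔸.abv v).nonneg _) (vnorm_nonneg 𝔸 v z)
  have a1 := hna
    (x p.1 * (y k * z p.2 - y p.2 * z k) - x p.2 * (y k * z p.1 - y p.1 * z k))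
    (z k * (x p.1 * y p.2 - x p.2 * y p.1))
  have a2 := hna (x p.1 * (y k * z p.2 - y p.2 * z k))
    (-(x p.2 * (y k * z p.1 - y p.1 * z k)))
  rw [← sub_eq_add_neg, (𝔸.abv v).map_neg] at a2
  refine le_trans a1 (max_le (le_trans a2 (max_le ?_ ?_)) ?_)
  · exact le_trans t1 (le_max_left _ _)
  · exact le_trans t2 (le_max_left _ _)
  · exact le_trans t3 (le_max_right _ _)

/-- both cases: `‖y‖ ‖x ∧ z‖ ≤ exp (2 archLogTwo v) max (‖x‖ ‖y ∧ z‖) (‖z‖ ‖x ∧ y‖)`. -/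
theorem wnorm_triangle_max {r : ℕ} (x y z : Fin (r + 1) → Qbar) :
    vnorm 𝔸 v y * wnorm 𝔸 v x z ≤ Real.exp (2 * archLogTwo 𝔸 v) *
      max (vnorm 𝔸 v x * wnorm 𝔸 v y z) (vnorm 𝔸 v z * wnorm 𝔸 v x y) := by
  by_cases hv : v ∈ 𝔸.arch
  · have h4 : Real.exp (2 * archLogTwo 𝔸 v) = 4 := by
      rw [archLogTwo_apply_of_mem 𝔸 hv, show (2 : ℝ) * Real.log 2 = Real.log 2 + Real.log 2 by ring,
        Real.exp_add, Real.exp_log (by norm_num)]
      norm_num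
    rw [h4]
    have h1 := wnorm_triangle 𝔸 v x y z
    have h2 := le_max_left (vnorm 𝔸 v x * wnorm 𝔸 v y z) (vnorm 𝔸 v z * wnorm 𝔸 v x y)
    have h3 := le_max_right (vnorm 𝔸 v x * wnorm 𝔸 v y z) (vnorm 𝔸 v z * wnorm 𝔸 v x y)
    have h5 : 0 ≤ vnorm 𝔸 v x * wnorm 𝔸 v y z :=
      mul_nonneg (vnorm_nonneg 𝔸 v x) (wnorm_nonneg 𝔸 v y z)
    linarith
  · rw [archLogTwo_apply_of_not_mem 𝔸 hv, mul_zero, Real.exp_zero, one_mul]
    exact wnorm_triangle_nonarch 𝔸 v hv x y z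

section emb

variable {F : Type*} [Field F] [Algebra Qbar F]
variable {P₀ : Place Qbar F} {e r : ℕ} {φ : Fin (r + 1) → F}

/-- **the triangle inequality for the chordal distance** -/
theorem IsEmbBasis.chord_triangle (hφ : IsEmbBasis P₀ e φ) (P Q R : Place Qbar F) :
    chord 𝔸 v φ P R ≤ Real.exp (2 * archLogTwo 𝔸 v) *
      max (chord 𝔸 v φ P Q) (chord 𝔸 v φ Q R) := by
  have hP := hφ.vnorm_coord_pos 𝔸 v P
  have hQ := hφ.vnorm_coord_pos 𝔸 v Q
  have hR := hφ.vnorm_coord_pos 𝔸 v R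
  have key := wnorm_triangle_max 𝔸 v (coord φ P) (coord φ Q) (coord φ R)
  have hE := Real.exp_pos (2 * archLogTwo 𝔸 v)
  have hden : 0 < vnorm 𝔸 v (coord φ P) * vnorm 𝔸 v (coord φ Q) * vnorm 𝔸 v (coord φ R) :=
    mul_pos (mul_pos hP hQ) hR
  -- the two terms of the maximum
  have e1 : vnorm 𝔸 v (coord φ P) * wnorm 𝔸 v (coord φ Q) (coord φ R) =
      chord 𝔸 v φ Q R *
        (vnorm 𝔸 v (coord φ P) * vnorm 𝔸 v (coord φ Q) * vnorm 𝔸 v (coord φ R)) := by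
    unfold chord
    field_simp
  have e2 : vnorm 𝔸 v (coord φ R) * wnorm 𝔸 v (coord φ P) (coord φ Q) =
      chord 𝔸 v φ P Q *
        (vnorm 𝔸 v (coord φ P) * vnorm 𝔸 v (coord φ Q) * vnorm 𝔸 v (coord φ R)) := by
    unfold chord
    field_simp
  have e3 : vnorm 𝔸 v (coord φ Q) * wnorm 𝔸 v (coord φ P) (coord φ R) =
      chord 𝔸 v φ P R *
        (vnorm 𝔸 v (coord φ P) * vnorm 𝔸 v (coord φ Q) * vnorm 𝔸 v (coord φ R)) := by
    unfold chord
    field_simp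
  rw [e1, e2, e3, ← max_mul_of_nonneg _ _ hden.le] at key
  have key' : chord 𝔸 v φ P R *
      (vnorm 𝔸 v (coord φ P) * vnorm 𝔸 v (coord φ Q) * vnorm 𝔸 v (coord φ R)) ≤
      (Real.exp (2 * archLogTwo 𝔸 v) * max (chord 𝔸 v φ Q R) (chord 𝔸 v φ P Q)) *
        (vnorm 𝔸 v (coord φ P) * vnorm 𝔸 v (coord φ Q) * vnorm 𝔸 v (coord φ R)) := by
    linarith [key]
  have := le_of_mul_le_mul_right key' hden
  rwa [max_comm] at this

/-- **the triangle inequality for the local diagonal heights** -/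
theorem IsEmbBasis.gloc_triangle (hφ : IsEmbBasis P₀ e φ) (h : IsRRField Qbar F)
    (he : 2 * genusFF Qbar F + 1 ≤ e) {P Q R : Place Qbar F} (hPQ : P ≠ Q) (hQR : Q ≠ R)
    (hPR : P ≠ R) :
    min (gloc 𝔸 v φ P Q) (gloc 𝔸 v φ Q R) - 2 * archLogTwo 𝔸 v ≤ gloc 𝔸 v φ P R := by
  have h1 := hφ.chord_pos 𝔸 v h he hPQ
  have h2 := hφ.chord_pos 𝔸 v h he hQR
  have h3 := hφ.chord_pos 𝔸 v h he hPR
  have key := hφ.chord_triangle 𝔸 v P Q R
  have hE := Real.exp_pos (2 * archLogTwo 𝔸 v)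
  unfold gloc
  rcases le_total (chord 𝔸 v φ P Q) (chord 𝔸 v φ Q R) with hle | hle
  · rw [max_eq_right hle] at key
    have l1 := Real.log_le_log h3 key
    rw [Real.log_mul hE.ne' h2.ne', Real.log_exp] at l1
    have := min_le_right (-Real.log (chord 𝔸 v φ P Q)) (-Real.log (chord 𝔸 v φ Q R))
    linarith
  · rw [max_eq_left hle] at key
    have l1 := Real.log_le_log h3 key
    rw [Real.log_mul hE.ne' h1.ne', Real.log_exp] at l1
    have := min_le_left (-Real.log (chord 𝔸 v φ P Q)) (-Real.log (chord 𝔸 v φ Q R))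
    linarith

end emb

end Fermat.Agent.S17
end
end MergeWrap_S17_H_ChordTri

section MergeWrap_S17_H_Pos_Elim -- from S17/H/Pos/Elim.lean

set_option autoImplicit false
set_option linter.unusedSectionVars false

/-!
# S17, package H, seat GB-ELIM: elimination of the base divisor

`exists_base_elim S b hGe ξ hξ hξ0`: for a family `ξ` of nonzero sections of `V₁ = L(e P₀)` the
base divisor `B = inf_i Z_{ξ_i}` satisfies
* `0 ≤ B`, `B ≤ Z_s` for all nonzero `s` in the span of `ξ`,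
* `B(P) = 0` at every point `P` where some `ξ_i` does not vanish (as a section),
* `lamloc_v(P) - Σ_c B(c) g_v(P,c) ≤ famloc_v(ξ; P) + γ_v` for all `v` and all `P ≠ P₀` where
  some `ξ_i` does not vanish.

(The clause `B S.P₀ = 0` of the first draft is false in general, e.g. for `ξ = (1)`.)
-/

noncomputable section

open AlgebraicCurve ModularCurve Fermat.Agent.RR Fermat.Agent.S17.Pairing

namespace Fermat.Agent.S17.Pos

variable {N : ℕ} [NeZero N]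

/-- the chordal triangle inequality (seat ChordTri, helper27) in the form used here -/
theorem chordTriangle (S : HSetup N) : ChordTriangle S := by
  refine ⟨MConst.nsmul' 2 (archLogTwo S.𝔸), ?_⟩
  intro v P Q Q' hPQ hPQ' hQQ'
  have he : 2 * genusFF Qbar (FN N) + 1 ≤ S.e := by
    have := S.e_large
    omega
  have h := S.isEmbBasis.gloc_triangle S.𝔸 v (hRR N) he (Ne.symm hPQ) hPQ' hQQ'
  rw [gloc_symm S.𝔸 v S.φ Q P] at h
  rw [MConst.nsmul'_apply]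
  push_cast
  linarith

/-- **Seat GB-ELIM.** -/
theorem exists_base_elim (S : HSetup N) {d : ℕ}
    (b : Module.Basis (Fin (d + 1)) Qbar (secSpace S.P₀ S.e 1))
    (hGe : LocalDecompGe S.𝔸 (hRR N) S.P₀ S.e S.φ 1 b) {n : ℕ} (ξ : Fin (n + 1) → FN N)
    (hξ : ∀ i, ξ i ∈ secSpace S.P₀ S.e 1) (hξ0 : ∀ i, ξ i ≠ 0) :
    ∃ (B : DivN N) (γ : MConst S.𝔸), 0 ≤ B ∧
      (∀ s ∈ Submodule.span Qbar (Set.range ξ), s ≠ 0 →
        B ≤ zdiv (hRR N) S.P₀ S.e 1 s) ∧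
      (∀ P : PtN N, (∃ i, zdiv (hRR N) S.P₀ S.e 1 (ξ i) P = 0) → B P = 0) ∧
      ∀ (v : S.𝔸.ι) (P : PtN N), P ≠ S.P₀ → (∃ i, val P (ξ i) ≠ 0) →
        lamloc S.𝔸 v S.φ P - glin S v P B ≤ famloc S v ξ P + γ v :=
  exists_base_elim_of_tri S (chordTriangle S) b hGe ξ hξ hξ0

/-- variant: `B(P) = 0` at the points `P ≠ P₀` where some `ξ_i(P) ≠ 0` (as a function) -/
theorem exists_base_elim' (S : HSetup N) {d : ℕ}
    (b : Module.Basis (Fin (d + 1)) Qbar (secSpace S.P₀ S.e 1))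
    (hGe : LocalDecompGe S.𝔸 (hRR N) S.P₀ S.e S.φ 1 b) {n : ℕ} (ξ : Fin (n + 1) → FN N)
    (hξ : ∀ i, ξ i ∈ secSpace S.P₀ S.e 1) (hξ0 : ∀ i, ξ i ≠ 0) :
    ∃ (B : DivN N) (γ : MConst S.𝔸), 0 ≤ B ∧
      (∀ s ∈ Submodule.span Qbar (Set.range ξ), s ≠ 0 →
        B ≤ zdiv (hRR N) S.P₀ S.e 1 s) ∧
      (∀ P : PtN N, P ≠ S.P₀ → (∃ i, val P (ξ i) ≠ 0) → B P = 0) ∧
      ∀ (v : S.𝔸.ι) (P : PtN N), P ≠ S.P₀ → (∃ i, val P (ξ i) ≠ 0) →
        lamloc S.𝔸 v S.φ P - glin S v P B ≤ famloc S v ξ P + γ v := by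
  obtain ⟨B, γ, h0, h1, h2, h3⟩ := exists_base_elim S b hGe ξ hξ hξ0
  refine ⟨B, γ, h0, h1, ?_, h3⟩
  rintro P hP ⟨i, hi⟩
  exact h2 P ⟨i, elim_zd_eq_zero S hP (hξ i) (hξ0 i) hi⟩

end Fermat.Agent.S17.Pos
end
end MergeWrap_S17_H_Pos_Elim
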