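import Mathlib
import Fermat.Agent.MU.S17.H.Pos.Props
import Fermat.Agent.MU.S17.H.Pairing.Green
import Fermat.Agent.MU.S17.H.MoveGlobal
import Fermat.Agent.MU.S17.Rat.Modular
import Fermat.Agent.MU.S17.H.ImmCurve

section MergeWrap_S17_H_Pos_Fin -- from S17/H/Pos/Fin.lean

set_option autoImplicit false

/-!
# S17, package H, seat GB: finiteness in `v`, global sums, the product formula for fixed numbers

* `finsum_log_abv_eq_zero` : `Σ_v log |a|_v = 0` for a Galois-fixed `a ≠ 0`.
* `finite_log_abv`, `finite_famloc`, `finite_lamloc`, `finite_kappa` : finite supports in `v`.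
* `finsum_sum_mul` : `Σ_v Σ_P w(P) f_v(P) = Σ_P w(P) Σ_v f_v(P)`.
* `nHeight_eq`, `canonAdm`.
-/

noncomputable section

open AlgebraicCurve ModularCurve Fermat.Agent.RR

namespace Fermat.Agent.S17.Pos

variable {N : ℕ} [NeZero N]

/-- the product formula for a Galois-fixed nonzero algebraic number -/
theorem finsum_log_abv_eq_zero (𝔸 : AbsSys) {a : Qbar} (ha : a ≠ 0) (hfix : ∀ σ : GQ, σ a = a) :
    ∑ᶠ v : 𝔸.ι, Real.log (𝔸.abv v a) = 0 := by
  obtain ⟨q, rfl⟩ := Fermat.Agent.S17.RatDesc.fixed_const a hfix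
  refine 𝔸.product_formula q ?_
  rintro rfl
  exact ha (map_zero _)

/-- `log |a|_v = 0` for almost all `v` -/
theorem finite_log_abv (𝔸 : AbsSys) {a : Qbar} (ha : a ≠ 0) :
    (Function.support fun v : 𝔸.ι => Real.log (𝔸.abv v a)).Finite := by
  refine (𝔸.finite_ne_one a ha).subset ?_
  intro v hv
  simp only [Function.mem_support, ne_eq] at hv
  simp only [Set.mem_ofPred_eq, ne_eq]
  intro h1
  rw [h1, Real.log_one] at hv
  exact hv rfl

/-- `log ‖x‖_v = 0` for almost all `v`, for a nonzero vector `x` -/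
theorem finite_log_vnorm (𝔸 : AbsSys) {n : ℕ} (x : Fin (n + 1) → Qbar) (hx : ∃ i, x i ≠ 0) :
    (Function.support fun v : 𝔸.ι => Real.log (vnorm 𝔸 v x)).Finite := by
  refine (Pairing.finite_sup'_ne_one 𝔸 x hx).subset ?_
  intro v hv
  simp only [Function.mem_support, ne_eq] at hv
  simp only [Set.mem_ofPred_eq, ne_eq]
  intro h1
  apply hv
  unfold vnorm
  rw [h1, Real.log_one]

theorem finite_famloc (S : HSetup N) {n : ℕ} (ξ : Fin (n + 1) → FN N) (P : PtN N)
    (h : ∃ i, val P (ξ i) ≠ 0) : (Function.support fun v : S.𝔸.ι => famloc S v ξ P).Finite :=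
  finite_log_vnorm S.𝔸 (fun i => val P (ξ i)) h

theorem finite_lamloc (S : HSetup N) (P : PtN N) :
    (Function.support fun v : S.𝔸.ι => lamloc S.𝔸 v S.φ P).Finite := by
  refine finite_log_vnorm S.𝔸 (fun a => val P (S.φ a)) ⟨0, ?_⟩
  show val P (S.φ 0) ≠ 0
  rw [S.isEmbBasis.zero_eq_one]
  unfold val
  rw [Pts.ev_one]
  exact one_ne_zero

theorem lamloc_eq_famloc (S : HSetup N) (v : S.𝔸.ι) (P : PtN N) :
    lamloc S.𝔸 v S.φ P = famloc S v S.φ P := rfl

theorem e_large' (S : HSetup N) : 2 * genusFF Qbar (FN N) + 1 ≤ S.e := by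
  have := S.e_large
  omega

theorem finite_kappa (S : HSetup N) (U : Unif S) (P : PtN N) :
    (Function.support fun v : S.𝔸.ι => kappa S U v P).Finite := by
  classical
  have hpos : ∀ v : S.𝔸.ι, 0 < theta S.𝔸 v S.φ P (U.π P) := fun v =>
    S.isEmbBasis.theta_pos S.𝔸 v (Pairing.hRR N) (e_large' S) P (U.ord_eq P)
  -- the numerators are not all zero
  by_cases hne : ∃ p : Fin (S.r + 1) × Fin (S.r + 1),
      val P ((algebraMap Qbar (FN N) (coord S.φ P p.2) * S.φ p.1
        - algebraMap Qbar (FN N) (coord S.φ P p.1) * S.φ p.2) / (S.φ (pivot S.φ P) * U.π P)) ≠ 0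
  swap
  · rw [not_exists] at hne
    have hF : ∀ v : S.𝔸.ι, False := fun v => by
      have h0 : theta S.𝔸 v S.φ P (U.π P) = 0 := by
        unfold theta
        rw [Pairing.sup'_eq_zero S.𝔸 _ _ (fun p => not_not.mp (hne p)), zero_div]
      exact absurd h0 (hpos v).ne'
    refine Set.Finite.subset Set.finite_empty ?_
    intro v _
    exact (hF v).elim
  have h1 := Pairing.finite_sup'_ne_one S.𝔸 _ hne
  have h2 := Pairing.finite_sup'_ne_one S.𝔸 (coord S.φ P) ⟨pivot S.φ P, by
    rw [S.isEmbBasis.coord_pivot P]; exact one_ne_zero⟩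
  refine (h1.union h2).subset ?_
  intro v hv
  by_contra hcon
  simp only [Set.mem_union, Set.mem_ofPred_eq, ne_eq, not_or, not_not] at hcon
  obtain ⟨e1, e2⟩ := hcon
  apply hv
  show kappa S U v P = 0
  unfold kappa theta vnorm
  rw [e1, e2]
  simp

/-- exchange of `Σ_v` with a weighted finite sum -/
theorem finsum_sum_mul {ι α : Type*} (T : Finset α) (w : α → ℝ) (f : ι → α → ℝ)
    (hf : ∀ P ∈ T, (Function.support fun v => f v P).Finite) :
    ∑ᶠ v, ∑ P ∈ T, w P * f v P = ∑ P ∈ T, w P * ∑ᶠ v, f v P := by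
  rw [finsum_sum_comm]
  · refine Finset.sum_congr rfl fun P _ => ?_
    rw [mul_finsum]
  · intro P hP
    refine (hf P hP).subset ?_
    intro v hv
    simp only [Function.mem_support, ne_eq, mul_eq_zero, not_or] at hv ⊢
    exact hv.2

/-- finite support of a weighted finite sum -/
theorem finite_support_sum_mul {ι α : Type*} (T : Finset α) (w : α → ℝ) (f : ι → α → ℝ)
    (hf : ∀ P ∈ T, (Function.support fun v => f v P).Finite) :
    (Function.support fun v => ∑ P ∈ T, w P * f v P).Finite := by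
  classical
  refine (Set.Finite.biUnion T.finite_toSet (fun P hP => hf P hP)).subset ?_
  intro v hv
  simp only [Function.mem_support, ne_eq] at hv
  obtain ⟨P, hP, hne⟩ := Finset.exists_ne_zero_of_sum_ne_zero hv
  simp only [Set.mem_iUnion, Function.mem_support, ne_eq, Finset.mem_coe]
  refine ⟨P, hP, ?_⟩
  intro h0
  rw [h0, mul_zero] at hne
  exact hne rfl

theorem nHeight_eq (S : HSetup N) (A : DivN N) :
    nHeight S A = (1 / (S.e : ℝ)) * ∑ P ∈ A.support, (A P : ℝ) * lamglob S P := by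
  unfold nHeight lamglob
  rw [finsum_sum_mul A.support (fun P => (A P : ℝ)) (fun v P => lamloc S.𝔸 v S.φ P)
    (fun P _ => finite_lamloc S P)]

theorem K1_eq_finsum (S : HSetup N) (U : Unif S) (A : DivN N) :
    K1 S U A = ∑ᶠ v : S.𝔸.ι, ∑ P ∈ A.support, (A P : ℝ) * kappa S U v P := by
  unfold K1 kapglob
  rw [finsum_sum_mul A.support (fun P => (A P : ℝ)) (fun v P => kappa S U v P)
    (fun P _ => finite_kappa S U P)]

theorem K2_eq_finsum (S : HSetup N) (U : Unif S) (A : DivN N) :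
    K2 S U A = ∑ᶠ v : S.𝔸.ι, ∑ P ∈ A.support, (A P : ℝ) ^ 2 * kappa S U v P := by
  unfold K2 kapglob
  rw [finsum_sum_mul A.support (fun P => (A P : ℝ) ^ 2) (fun v P => kappa S U v P)
    (fun P _ => finite_kappa S U P)]

theorem famH_eq_finsum (S : HSetup N) {n : ℕ} (ξ : Fin (n + 1) → FN N) (A : DivN N)
    (h : NoBase ξ A) :
    famH S ξ A = ∑ᶠ v : S.𝔸.ι, ∑ P ∈ A.support, (A P : ℝ) * famloc S v ξ P := by
  unfold famH famglob
  rw [finsum_sum_mul A.support (fun P => (A P : ℝ)) (fun v P => famloc S v ξ P)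
    (fun P hP => finite_famloc S ξ P (h P hP))]

/-- the canonical divisor of a rational class is admissible -/
theorem canonAdm (S : HSetup N) : CanonAdm S := fun _ _ _ hA =>
  ⟨hA.nonneg, (Move.IsCanon.galStable S hA).1, hA.base, hA.degree_eq⟩

end Fermat.Agent.S17.Pos
end
end MergeWrap_S17_H_Pos_Fin
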