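import Mathlib
import Fermat.Agent.MU.S17.H.Pos.Fin
import Fermat.Agent.MU.S17.H.ImmCoord
import Fermat.Agent.MU.S17.H.Pos.AdjFin
import Fermat.Agent.MU.S17.H.ImmSec
import Fermat.Agent.MU.S17.H.GaussMore
import Fermat.Agent.S17.H.NST
import Fermat.Agent.MU.S17.H.Curve
import Fermat.Agent.MU.S17.H.ImmCurve
import Fermat.Agent.MU.S17.H.L7.PolyRep
import Fermat.Agent.MU.S17.H.Gauss
import Fermat.Agent.MU.S17.H.WF1
import Fermat.Agent.MU.S17.H.Closed
import Fermat.Agent.S17.H.ClosedDVR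
import Fermat.Agent.MU.S17.H.Pos.WeilAll
import Fermat.Agent.MU.S17.H.Pos.PosGlob
import Fermat.Agent.MU.S17.H.Pos.OneProp
import Fermat.Agent.MU.S17.H.Pairing.Final

section MergeWrap_S17_H_Pos_DetGlobal -- from S17/H/Pos/DetGlobal.lean

set_option autoImplicit false

/-!
# S17, package H, seat GB-DETGLOB: `DetThm` from `JetData` and `DetData`

Sum the local determinant bound `JetData.bound` over all places `v` and over the members `ξ` of
the Galois-stable datum `X`: the product `∏_{ξ ∈ X} Δ(ξ, A)²` is a nonzero Galois-fixed number,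
so `Σ_v Σ_ξ log |Δ(ξ,A)²|_v = 0` (product formula on `ℚ`).
-/

noncomputable section

open AlgebraicCurve ModularCurve Fermat.Agent.RR

namespace Fermat.Agent.S17.Pos

variable {N : ℕ} [NeZero N]

/-- the product of the jet determinants over a Galois-stable datum is Galois-fixed -/
theorem prod_jetSq_fixed (S : HSetup N) (U : Unif S) (J : JetData S U) {n : ℕ}
    (X : Finset (Fin (n + 1) → FN N))
    (hX : ∀ (σ : GQ), ∀ ξ ∈ X, (fun i => Pts.galFun N σ (ξ i)) ∈ X)
    {A : DivN N} (hA : IsAdm S A (n + 1)) (σ : GQ) :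
    σ (∏ ξ ∈ X, J.jetSq n ξ A) = ∏ ξ ∈ X, J.jetSq n ξ A := by
  classical
  rw [map_prod]
  have hfac : ∀ ξ ∈ X, σ (J.jetSq n ξ A) = J.jetSq n (fun i => Pts.galFun N σ (ξ i)) A := by
    intro ξ _
    rw [J.galois σ n ξ A hA.nonneg hA.degree_eq hA.base, hA.galStable σ]
  rw [Finset.prod_congr rfl hfac]
  refine Finset.prod_bij (fun ξ _ => fun i => Pts.galFun N σ (ξ i)) (fun ξ hξ => hX σ ξ hξ)
    ?_ ?_ (fun ξ _ => rfl)
  · intro ξ₁ _ ξ₂ _ h12
    funext i
    have := congrFun h12 i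
    have h3 := congrArg (Pts.galFun N σ⁻¹) this
    rwa [← Pts.galFun_mul, ← Pts.galFun_mul, inv_mul_cancel, Pts.galFun_one, Pts.galFun_one] at h3
  · intro ξ hξ
    refine ⟨fun i => Pts.galFun N σ⁻¹ (ξ i), hX σ⁻¹ ξ hξ, ?_⟩
    funext i
    show Pts.galFun N σ (Pts.galFun N σ⁻¹ (ξ i)) = ξ i
    rw [← Pts.galFun_mul, mul_inv_cancel, Pts.galFun_one]

/-- the global determinant bound for one member `ξ` of a datum -/
theorem jet_global (S : HSetup N) (U : Unif S) (J : JetData S U) {n : ℕ}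
    (ξ : Fin (n + 1) → FN N) (γ : MConst S.𝔸) {A : DivN N} (hA : IsAdm S A (n + 1))
    (hnb : NoBase ξ A) (hne : J.jetSq n ξ A ≠ 0)
    (hb : ∀ v : S.𝔸.ι, Real.log (S.𝔸.abv v (J.jetSq n ξ A))
        + ∑ P ∈ A.support, ∑ Q ∈ A.support, (A P : ℝ) * (A Q : ℝ) * gloc S.𝔸 v S.φ P Q
        - ∑ P ∈ A.support, ((A P : ℝ) ^ 2 - (A P : ℝ)) * kappa S U v P
      ≤ 2 * ∑ P ∈ A.support, (A P : ℝ) * famloc S v ξ P + γ v) :
    (∑ᶠ v : S.𝔸.ι, Real.log (S.𝔸.abv v (J.jetSq n ξ A)))
      + iPair S A A - (K2 S U A - K1 S U A) ≤ 2 * famH S ξ A + γ.total := by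
  classical
  have f1 := finite_log_abv S.𝔸 hne
  have f2 : (Function.support fun v : S.𝔸.ι =>
      ∑ P ∈ A.support, ∑ Q ∈ A.support, (A P : ℝ) * (A Q : ℝ) * gloc S.𝔸 v S.φ P Q).Finite := by
    refine (Set.Finite.biUnion A.support.finite_toSet (fun P _ =>
      Set.Finite.biUnion A.support.finite_toSet (fun Q _ => Pairing.glocFinite S P Q))).subset ?_
    intro v hv
    simp only [Function.mem_support, ne_eq] at hv
    obtain ⟨P, hP, hne1⟩ := Finset.exists_ne_zero_of_sum_ne_zero hv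
    obtain ⟨Q, hQ, hne2⟩ := Finset.exists_ne_zero_of_sum_ne_zero hne1
    simp only [Set.mem_iUnion, Set.mem_ofPred_eq, ne_eq, Finset.mem_coe]
    refine ⟨P, hP, Q, hQ, ?_⟩
    intro h0
    rw [h0, mul_zero] at hne2
    exact hne2 rfl
  have f3 := finite_support_sum_mul A.support (fun P => (A P : ℝ) ^ 2 - (A P : ℝ))
    (fun (v : S.𝔸.ι) P => kappa S U v P) (fun P _ => finite_kappa S U P)
  have f4 := finite_support_sum_mul A.support (fun P => (A P : ℝ))
    (fun (v : S.𝔸.ι) P => famloc S v ξ P) (fun P hP => finite_famloc S ξ P (hnb P hP))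
  have f4' : (Function.support fun v : S.𝔸.ι =>
      2 * ∑ P ∈ A.support, (A P : ℝ) * famloc S v ξ P).Finite := by
    refine f4.subset ?_
    intro v hv
    simp only [Function.mem_support, ne_eq, mul_eq_zero, not_or] at hv ⊢
    exact hv.2
  have f5 : (Function.support fun v : S.𝔸.ι => γ v).Finite := γ.finite
  have f12 : (Function.support fun v : S.𝔸.ι => Real.log (S.𝔸.abv v (J.jetSq n ξ A))
        + ∑ P ∈ A.support, ∑ Q ∈ A.support, (A P : ℝ) * (A Q : ℝ) * gloc S.𝔸 v S.φ P Q).Finite :=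
    (f1.union f2).subset (Function.support_add _ _)
  have hle := finsum_le_finsum' (f := fun v : S.𝔸.ι => Real.log (S.𝔸.abv v (J.jetSq n ξ A))
        + ∑ P ∈ A.support, ∑ Q ∈ A.support, (A P : ℝ) * (A Q : ℝ) * gloc S.𝔸 v S.φ P Q
        - ∑ P ∈ A.support, ((A P : ℝ) ^ 2 - (A P : ℝ)) * kappa S U v P)
    (g := fun v : S.𝔸.ι => 2 * ∑ P ∈ A.support, (A P : ℝ) * famloc S v ξ P + γ v)
    ((f12.union f3).subset (Function.support_sub _ _))
    ((f4'.union f5).subset (Function.support_add _ _)) hb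
  rw [finsum_sub_distrib f12 f3, finsum_add_distrib f1 f2, finsum_add_distrib f4' f5,
    ← mul_finsum] at hle
  have e1 : ∑ᶠ v : S.𝔸.ι, ∑ P ∈ A.support, ∑ Q ∈ A.support,
      (A P : ℝ) * (A Q : ℝ) * gloc S.𝔸 v S.φ P Q = iPair S A A := rfl
  have e2 : ∑ᶠ v : S.𝔸.ι, ∑ P ∈ A.support, ((A P : ℝ) ^ 2 - (A P : ℝ)) * kappa S U v P
      = K2 S U A - K1 S U A := by
    rw [finsum_sum_mul A.support (fun P => (A P : ℝ) ^ 2 - (A P : ℝ))
      (fun (v : S.𝔸.ι) P => kappa S U v P) (fun P _ => finite_kappa S U P)]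
    unfold K2 K1 kapglob
    rw [← Finset.sum_sub_distrib]
    refine Finset.sum_congr rfl fun P _ => ?_
    ring
  have e3 := famH_eq_finsum S ξ A hnb
  rw [e1, e2, ← e3] at hle
  exact hle

/-- **Seat DETGLOB.** -/
theorem detThm_of (S : HSetup N) (U : Unif S) (J : JetData S U) (hD : DetData S) :
    DetThm S U := by
  classical
  obtain ⟨𝓛, hdat, hex⟩ := hD
  -- the constants of the local bounds
  have hγ : ∀ (Y : Σ n : ℕ, Finset (Fin (n + 1) → FN N)) (ξ : Fin (Y.1 + 1) → FN N),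
      ∃ γ : MConst S.𝔸, Y ∈ 𝓛 → ξ ∈ Y.2 →
        ∀ (v : S.𝔸.ι) (A : DivN N), 0 ≤ A →
        Divisor.degree A = ((Y.1 + 1 : ℕ) : ℤ) → A S.P₀ = 0 → NoBase ξ A → Inj S ξ A →
        Real.log (S.𝔸.abv v (J.jetSq Y.1 ξ A))
          + ∑ P ∈ A.support, ∑ Q ∈ A.support, (A P : ℝ) * (A Q : ℝ) * gloc S.𝔸 v S.φ P Q
          - ∑ P ∈ A.support, ((A P : ℝ) ^ 2 - (A P : ℝ)) * kappa S U v P
        ≤ 2 * ∑ P ∈ A.support, (A P : ℝ) * famloc S v ξ P + γ v := by
    intro Y ξ
    by_cases hY : Y ∈ 𝓛 ∧ ξ ∈ Y.2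
    · obtain ⟨γ, hγ⟩ := J.bound Y.1 ξ ((hdat Y hY.1).1.mem ξ hY.2) ((hdat Y hY.1).2 ξ hY.2)
      exact ⟨γ, fun _ _ => hγ⟩
    · exact ⟨0, fun h1 h2 => absurd ⟨h1, h2⟩ hY⟩
  choose γ hγ using hγ
  set C : ℝ := ∑ Y ∈ 𝓛, ∑ ξ ∈ Y.2, (γ Y ξ).total with hC
  refine ⟨𝓛, C, fun Y hY => (hdat Y hY).1, ?_⟩
  intro x A n hA
  obtain ⟨X, hX, hgood⟩ := hex x A n hA
  refine ⟨X, hX, fun ξ hξ => (hgood ξ hξ).1, ?_⟩
  have hadm := canonAdm S x A (n + 1) hA
  have hdatX := hdat ⟨n, X⟩ hX
  have hne : ∀ ξ ∈ X, J.jetSq n ξ A ≠ 0 := fun ξ hξ =>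
    J.ne_zero n ξ A (hdatX.1.mem ξ hξ) (hdatX.2 ξ hξ) hadm.nonneg hadm.degree_eq hadm.base
      (hgood ξ hξ).2
  have hglob : ∀ ξ ∈ X, (∑ᶠ v : S.𝔸.ι, Real.log (S.𝔸.abv v (J.jetSq n ξ A)))
      + iPair S A A - (K2 S U A - K1 S U A) ≤ 2 * famH S ξ A + (γ ⟨n, X⟩ ξ).total := by
    intro ξ hξ
    exact jet_global S U J ξ (γ ⟨n, X⟩ ξ) hadm (hgood ξ hξ).1 (hne ξ hξ)
      (fun v => hγ ⟨n, X⟩ ξ hX hξ v A hadm.nonneg hadm.degree_eq hadm.base
        (hgood ξ hξ).1 (hgood ξ hξ).2)
  -- the product formula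
  have hprod : ∑ ξ ∈ X, ∑ᶠ v : S.𝔸.ι, Real.log (S.𝔸.abv v (J.jetSq n ξ A)) = 0 := by
    rw [← finsum_sum_comm X (fun (v : S.𝔸.ι) ξ => Real.log (S.𝔸.abv v (J.jetSq n ξ A)))
      (fun ξ hξ => finite_log_abv S.𝔸 (hne ξ hξ))]
    have hP0 : ∏ ξ ∈ X, J.jetSq n ξ A ≠ 0 := Finset.prod_ne_zero_iff.mpr hne
    rw [← finsum_log_abv_eq_zero S.𝔸 hP0 (prod_jetSq_fixed S U J X hdatX.1.galStable hadm)]
    refine finsum_congr fun v => ?_
    rw [map_prod, Real.log_prod]
    intro ξ hξ
    exact (S.𝔸.abv v).ne_zero (hne ξ hξ)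
  -- sum over `ξ ∈ X`
  have hsum := Finset.sum_le_sum hglob
  rw [Finset.sum_sub_distrib, Finset.sum_add_distrib, hprod, zero_add, Finset.sum_add_distrib,
    Finset.sum_const, Finset.sum_const, ← Finset.mul_sum] at hsum
  have hcard : (0 : ℝ) < X.card := by exact_mod_cast Finset.card_pos.mpr hdatX.1.nonempty
  have hcard1 : (1 : ℝ) ≤ X.card := by exact_mod_cast Finset.card_pos.mpr hdatX.1.nonempty
  have hCX : ∑ ξ ∈ X, (γ ⟨n, X⟩ ξ).total ≤ C := by
    have h1 : ∑ ξ ∈ X, (γ ⟨n, X⟩ ξ).total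
        = (fun Y : (Σ n : ℕ, Finset (Fin (n + 1) → FN N)) => ∑ ξ ∈ Y.2, (γ Y ξ).total) ⟨n, X⟩ :=
      rfl
    rw [h1, hC]
    exact Finset.single_le_sum
      (f := fun Y : (Σ n : ℕ, Finset (Fin (n + 1) → FN N)) => ∑ ξ ∈ Y.2, (γ Y ξ).total)
      (fun Y _ => Finset.sum_nonneg fun ξ _ => (γ Y ξ).total_nonneg) hX
  have hCX0 : 0 ≤ ∑ ξ ∈ X, (γ ⟨n, X⟩ ξ).total :=
    Finset.sum_nonneg fun ξ _ => (γ ⟨n, X⟩ ξ).total_nonneg
  simp only [nsmul_eq_mul] at hsum
  unfold avgH
  have key : iPair S A A - (K2 S U A - K1 S U A)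
      ≤ (2 * ∑ ξ ∈ X, famH S ξ A + ∑ ξ ∈ X, (γ ⟨n, X⟩ ξ).total) / X.card := by
    rw [le_div_iff₀ hcard]
    linarith
  have h2 : (∑ ξ ∈ X, (γ ⟨n, X⟩ ξ).total) / X.card ≤ C :=
    (div_le_self hCX0 hcard1).trans hCX
  have h3 : (2 * ∑ ξ ∈ X, famH S ξ A + ∑ ξ ∈ X, (γ ⟨n, X⟩ ξ).total) / X.card
      = 2 * (1 / (X.card : ℝ) * ∑ ξ ∈ X, famH S ξ A)
        + (∑ ξ ∈ X, (γ ⟨n, X⟩ ξ).total) / X.card := by
    field_simp
  rw [h3] at key
  linarith

end Fermat.Agent.S17.Pos
end
end MergeWrap_S17_H_Pos_DetGlobal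

section MergeWrap_S17_H_Pos_Unif -- from S17/H/Pos/Unif.lean

set_option autoImplicit false

/-!
# S17, package H, seat GB-UNIF: Galois-equivariant uniformizers

`nonempty_unif S : Nonempty (Unif S)`.  For `P ≠ P₀` the uniformizer is `φ_a - φ_a(P)` with `a` the
LEAST index such that this function has a simple zero at `P` (L3); this choice is Galois-equivariant
because `φ` is Galois-fixed.  At `P₀`: `(φ_a - c φ_{a₀}) / φ_{a₀}`, `a₀` the pivot, which is fixed.
-/

noncomputable section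

open AlgebraicCurve ModularCurve Fermat.Agent.RR

namespace Fermat.Agent.S17.Pos

variable {N : ℕ} [NeZero N]

/-- the candidate `φ_a - φ_a(P)` -/
def ucand (S : HSetup N) (P : PtN N) (a : Fin (S.r + 1)) : FN N :=
  S.φ a - algebraMap Qbar (FN N) (val P (S.φ a))

theorem galFun_sub (σ : GQ) (f g : FN N) :
    Pts.galFun N σ (f - g) = Pts.galFun N σ f - Pts.galFun N σ g := by
  unfold Pts.galFun
  exact smul_sub _ f g

theorem galFun_mul' (σ : GQ) (f g : FN N) :
    Pts.galFun N σ (f * g) = Pts.galFun N σ f * Pts.galFun N σ g := by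
  unfold Pts.galFun
  exact smul_mul' _ f g

theorem galFun_div (σ : GQ) (f g : FN N) :
    Pts.galFun N σ (f / g) = Pts.galFun N σ f / Pts.galFun N σ g := by
  unfold Pts.galFun
  exact smul_div₀' _ f g

theorem val_galPlace_fixed (σ : GQ) (P : PtN N) {f : FN N} (hf : Pts.galFun N σ f = f) :
    val (Pts.galPlace N σ P) f = σ (val P f) := by
  have := Pts.evBar_galois N σ P f
  rw [hf] at this
  exact this

theorem galFun_ucand (S : HSetup N) (σ : GQ) (P : PtN N) (a : Fin (S.r + 1)) :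
    Pts.galFun N σ (ucand S P a) = ucand S (Pts.galPlace N σ P) a := by
  unfold ucand
  rw [galFun_sub, S.φ_fixed σ a, Pts.galFun_algebraMap, val_galPlace_fixed σ P (S.φ_fixed σ a)]

theorem ord_ucand_galPlace (S : HSetup N) (σ : GQ) (P : PtN N) (a : Fin (S.r + 1)) :
    (Pts.galPlace N σ P).ord (ucand S (Pts.galPlace N σ P) a) = P.ord (ucand S P a) := by
  rw [← galFun_ucand, Pts.ord_galPlace_galFun]

/-- L3: some candidate is a uniformizer at `P ≠ P₀` -/
theorem exists_ucand (S : HSetup N) {P : PtN N} (hP : P ≠ S.P₀) :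
    ∃ a, P.ord (ucand S P a) = 1 := by
  classical
  have h := Pairing.hRR N
  have hdeg : 2 * (genusFF Qbar (FN N) : ℤ) + 1 ≤ Divisor.degree (Finsupp.single S.P₀ (S.e : ℤ)) := by
    rw [imm_degree_single h]
    exact_mod_cast e_large' S
  have h0 : P.ord (S.φ 0) = -(Finsupp.single S.P₀ (S.e : ℤ)) P := by
    rw [S.isEmbBasis.zero_eq_one, Finsupp.single_apply, if_neg (Ne.symm hP), neg_zero]
    exact P.ord_one
  obtain ⟨a, -, ha⟩ := imm_exists_simple_coord h (Finsupp.single S.P₀ (S.e : ℤ)) P hdeg S.φ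
    S.isEmbBasis.span_eq' 0 (S.isEmbBasis.ne_zero 0) h0
  refine ⟨a, ?_⟩
  rw [S.isEmbBasis.zero_eq_one, div_one, div_one, Algebra.smul_def, mul_one] at ha
  exact ha

/-- the least index of a uniformizing candidate (junk `0` if there is none) -/
def uidx (S : HSetup N) (P : PtN N) : Fin (S.r + 1) :=
  open Classical in
  if h : (Finset.univ.filter fun a => P.ord (ucand S P a) = 1).Nonempty then
    (Finset.univ.filter fun a => P.ord (ucand S P a) = 1).min' h
  else 0

theorem ord_uidx (S : HSetup N) {P : PtN N} (hP : P ≠ S.P₀) :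
    P.ord (ucand S P (uidx S P)) = 1 := by
  classical
  obtain ⟨a, ha⟩ := exists_ucand S hP
  have hne : (Finset.univ.filter fun a => P.ord (ucand S P a) = 1).Nonempty :=
    ⟨a, by simp [ha]⟩
  unfold uidx
  rw [dif_pos hne]
  have := Finset.min'_mem _ hne
  simpa using this

theorem uidx_galPlace (S : HSetup N) (σ : GQ) (P : PtN N) :
    uidx S (Pts.galPlace N σ P) = uidx S P := by
  classical
  have hfil : (Finset.univ.filter fun a =>
      (Pts.galPlace N σ P).ord (ucand S (Pts.galPlace N σ P) a) = 1)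
      = Finset.univ.filter fun a => P.ord (ucand S P a) = 1 := by
    refine Finset.filter_congr fun a _ => ?_
    rw [ord_ucand_galPlace]
  unfold uidx
  simp only [hfil]

/-- a Galois-fixed uniformizer at `P₀` -/
theorem exists_unif_base (S : HSetup N) :
    ∃ π₀ : FN N, S.P₀.ord π₀ = 1 ∧ ∀ σ : GQ, Pts.galFun N σ π₀ = π₀ := by
  classical
  have h := Pairing.hRR N
  have hdeg : 2 * (genusFF Qbar (FN N) : ℤ) + 1 ≤ Divisor.degree (Finsupp.single S.P₀ (S.e : ℤ)) := by
    rw [imm_degree_single h]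
    exact_mod_cast e_large' S
  have he' : 2 * genusFF Qbar (FN N) ≤ S.e := by
    have := e_large' S
    omega
  set a0 := pivot S.φ S.P₀ with ha0
  obtain ⟨a, -, ha⟩ := imm_exists_simple_coord h (Finsupp.single S.P₀ (S.e : ℤ)) S.P₀ hdeg S.φ
    S.isEmbBasis.span_eq' a0 (S.isEmbBasis.ne_zero a0) (S.isEmbBasis.ord_pivot h he' S.P₀)
  refine ⟨_, ha, fun σ => ?_⟩
  have hq : Pts.galFun N σ (S.φ a / S.φ a0) = S.φ a / S.φ a0 := by
    rw [galFun_div, S.φ_fixed, S.φ_fixed]
  have hc : σ (Pts.ev S.P₀ (S.φ a / S.φ a0)) = Pts.ev S.P₀ (S.φ a / S.φ a0) := by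
    have := val_galPlace_fixed σ S.P₀ hq
    rw [S.P₀_fixed σ] at this
    exact this.symm
  rw [galFun_div, galFun_sub, Algebra.smul_def, galFun_mul', Pts.galFun_algebraMap, hc,
    S.φ_fixed, S.φ_fixed]

/-- **Seat UNIF.** -/
theorem nonempty_unif (S : HSetup N) : Nonempty (Unif S) := by
  classical
  obtain ⟨π₀, hπ₀, hfix⟩ := exists_unif_base S
  have hne : ∀ (σ : GQ) (P : PtN N), P ≠ S.P₀ → Pts.galPlace N σ P ≠ S.P₀ := by
    intro σ P hP hcon
    apply hP
    have h1 := congrArg (Pts.galPlace N σ⁻¹) hcon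
    rwa [← Pts.galPlace_mul, inv_mul_cancel, Pts.galPlace_one, S.P₀_fixed] at h1
  refine ⟨⟨fun P => if P = S.P₀ then π₀ else ucand S P (uidx S P), ?_, ?_, ?_⟩⟩
  · intro P
    by_cases hP : P = S.P₀
    · simp only [if_pos hP]
      rw [hP]
      exact hπ₀
    · simp only [if_neg hP]
      exact ord_uidx S hP
  · intro σ P
    by_cases hP : P = S.P₀
    · subst hP
      simp only [if_true, S.P₀_fixed σ]
      exact hfix σ
    · simp only [if_neg hP, if_neg (hne σ P hP)]
      rw [galFun_ucand, uidx_galPlace]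
  · intro P hP
    simp only [if_neg hP]
    exact ⟨uidx S P, rfl⟩

end Fermat.Agent.S17.Pos
end
end MergeWrap_S17_H_Pos_Unif

section MergeWrap_S17_H_Pos_AdjCore -- from S17/H/Pos/AdjCore.lean

set_option autoImplicit false
set_option linter.unusedSectionVars false

/-!
# S17, package H, seat GB-ADJ, part 2: the adjunction identity

`adj_core`: for Galois-stable representatives `a`, `b` of the same class with disjoint supports
(`dsize a + dsize b ≤ 12 s`):

`| Σ_Q a(Q)² κ(Q) + I(a,b) - I(a,a) | ≤ 2 · Σ_v γ_v · dsize a`.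

Proof: `b - a = div u`, `u = f₁ / f₂` with `f₁, f₂ ∈ V₁`; `LocalQuotLC` at the points `Q` of `a`
with the uniformizers `π_Q` of `U` (`ord_Q u = - a(Q)`), weights `a(Q)` (the norms cancel since
`deg a = 0`), sum over `v`, and the product formula with leading coefficients.
-/

noncomputable section

open AlgebraicCurve ModularCurve Fermat.Agent.RR Fermat.Agent.S17.Pairing

namespace Fermat.Agent.S17.Pos

variable {N : ℕ} [NeZero N]

theorem adj_finite_support_sum_kappa (S : HSetup N) (U : Unif S) (a : DivN N) :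
    (Function.support fun v : S.𝔸.ι =>
      ∑ Q ∈ a.support, (a Q : ℝ) ^ 2 * kappa S U v Q).Finite := by
  classical
  have hfin : (⋃ Q ∈ a.support, {v : S.𝔸.ι | kappa S U v Q ≠ 0}).Finite :=
    Set.Finite.biUnion a.support.finite_toSet fun Q _ => adj_finite_kappa S U Q
  refine hfin.subset ?_
  intro v hv
  rw [Function.mem_support] at hv
  obtain ⟨Q, hQ, hne⟩ := Finset.exists_ne_zero_of_sum_ne_zero hv
  simp only [Set.mem_iUnion, Set.mem_ofPred_eq]
  refine ⟨Q, hQ, ?_⟩
  intro h0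
  apply hne
  rw [h0, mul_zero]

theorem adj_finsum_sum_kappa (S : HSetup N) (U : Unif S) (a : DivN N) :
    ∑ᶠ v : S.𝔸.ι, ∑ Q ∈ a.support, (a Q : ℝ) ^ 2 * kappa S U v Q
      = ∑ Q ∈ a.support, (a Q : ℝ) ^ 2 * kapglob S U Q := by
  have hfin : ∀ Q, (Function.support fun v : S.𝔸.ι => (a Q : ℝ) ^ 2 * kappa S U v Q).Finite := by
    intro Q
    refine (adj_finite_kappa S U Q).subset ?_
    intro v hv
    rw [Function.mem_support] at hv
    simp only [Set.mem_ofPred_eq, ne_eq]
    intro h0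
    apply hv
    rw [h0, mul_zero]
  rw [finsum_sum_comm _ _ (fun Q _ => hfin Q)]
  refine Finset.sum_congr rfl fun Q _ => ?_
  unfold kapglob
  rw [mul_finsum]

theorem adj_finite_support_sum_lcoef (S : HSetup N) (π : PtN N → FN N) (a : DivN N) (u : FN N) :
    (Function.support fun v : S.𝔸.ι =>
      ∑ Q ∈ a.support, (a Q : ℝ) * Real.log (S.𝔸.abv v (lcoef Q (π Q) u))).Finite := by
  classical
  have hfin : (⋃ Q ∈ a.support,
      {v : S.𝔸.ι | Real.log (S.𝔸.abv v (lcoef Q (π Q) u)) ≠ 0}).Finite :=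
    Set.Finite.biUnion a.support.finite_toSet fun Q _ => finite_log_abv_ne_zero S.𝔸 _
  refine hfin.subset ?_
  intro v hv
  rw [Function.mem_support] at hv
  obtain ⟨Q, hQ, hne⟩ := Finset.exists_ne_zero_of_sum_ne_zero hv
  simp only [Set.mem_iUnion, Set.mem_ofPred_eq]
  refine ⟨Q, hQ, ?_⟩
  intro h0
  apply hne
  rw [h0, mul_zero]

/-- **the adjunction identity** -/
theorem adj_core (S : HSetup N) (U : Unif S) {d : ℕ}
    (bas : Module.Basis (Fin (d + 1)) Qbar (secSpace S.P₀ S.e 1)) {γ : MConst S.𝔸}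
    (hγ : LocalQuotLC S bas γ) {x : JZero N} {a b : DivN N} (hxa : Move.Rep a x)
    (hxb : Move.Rep b x) (ha : GalStable N a) (hb : GalStable N b)
    (hsize : dsize a + dsize b ≤ 12 * S.s) (hdisj : Disjoint a.support b.support) :
    |∑ Q ∈ a.support, (a Q : ℝ) ^ 2 * kapglob S U Q + iPair S a b - iPair S a a|
      ≤ 2 * γ.total * dsize a := by
  classical
  have h := hRR N
  obtain ⟨u, hu0, hu⟩ := exists_divOf_sub hxb hxa
  have hsz : dsize (divOf h u) ≤ 12 * S.s := by
    rw [← hu]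
    have := dsize_sub_le' b a
    omega
  obtain ⟨f₁, f₂, hf₁, hf₁0, hf₂, hf₂0, hq⟩ := exists_sections S u hu0 hsz
  have hD : divOf h f₁ - divOf h f₂ = b - a := by
    rw [← divOf_div f₁ f₂ hf₁0 hf₂0, hq, hu]
  have hdeg : Divisor.degree a = 0 := hxa.degree_eq
  have hstab : GalStable N (divOf h u) := by
    rw [← hu]
    exact galStable_sub hb ha
  have hord : ∀ Q ∈ a.support, (Q.ord u : ℝ) = - (a Q : ℝ) := by
    intro Q hQ
    have hbQ : b Q = 0 := by
      have := Finset.disjoint_left.mp hdisj hQ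
      rwa [Finsupp.mem_support_iff, not_not] at this
    have h1 : Q.ord u = (b - a) Q := by rw [hu, divOf_apply]
    rw [h1, Finsupp.sub_apply, hbQ]
    push_cast
    ring
  have hsum0 : ∑ Q ∈ a.support, (a Q : ℝ) = 0 := by
    have := degree_eq_sum h a
    rw [hdeg] at this
    have h2 : ((∑ Q ∈ a.support, a Q : ℤ) : ℝ) = 0 := by
      rw [← this]
      norm_cast
    push_cast at h2
    exact h2
  set κ : S.𝔸.ι → ℝ := fun v =>
    Real.log (cnorm S.𝔸 v bas f₁) - Real.log (cnorm S.𝔸 v bas f₂) with hκ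
  set X : S.𝔸.ι → ℝ := fun v => ∑ Q ∈ a.support,
    (a Q : ℝ) * (Real.log (S.𝔸.abv v (lcoef Q (U.π Q) u)) + (a Q : ℝ) * kappa S U v Q
      + glin S v Q (b - a)) with hX
  have hloc : ∀ v, |X v| ≤ 2 * γ v * dsize a := by
    intro v
    have e1 : X v = ∑ Q ∈ a.support, (a Q : ℝ) *
        (Real.log (S.𝔸.abv v (lcoef Q (U.π Q) u)) - κ v + (a Q : ℝ) * kappa S U v Q
          + glin S v Q (b - a)) := by
      have : ∑ Q ∈ a.support, (a Q : ℝ) *
          (Real.log (S.𝔸.abv v (lcoef Q (U.π Q) u)) - κ v + (a Q : ℝ) * kappa S U v Q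
            + glin S v Q (b - a))
          = X v - (∑ Q ∈ a.support, (a Q : ℝ)) * κ v := by
        rw [hX, Finset.sum_mul, ← Finset.sum_sub_distrib]
        refine Finset.sum_congr rfl fun Q _ => ?_
        ring
      rw [this, hsum0, zero_mul, sub_zero]
    rw [e1]
    refine (Finset.abs_sum_le_sum_abs _ _).trans ?_
    have e2 : (2 * γ v * dsize a : ℝ) = ∑ Q ∈ a.support, |(a Q : ℝ)| * (2 * γ v) := by
      rw [← Finset.sum_mul]
      unfold dsize
      push_cast
      rw [mul_comm]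
      congr 1
      refine Finset.sum_congr rfl fun Q _ => ?_
      rw [Nat.cast_natAbs, Int.cast_abs]
    rw [e2]
    refine Finset.sum_le_sum fun Q hQ => ?_
    rw [abs_mul]
    refine mul_le_mul_of_nonneg_left ?_ (abs_nonneg _)
    have := hγ v f₁ f₂ hf₁ hf₁0 hf₂ hf₂0 Q (U.π Q) (U.ord_eq Q)
    rw [hq, hD, hord Q hQ] at this
    have e3 : Real.log (S.𝔸.abv v (lcoef Q (U.π Q) u)) - κ v + (a Q : ℝ) * kappa S U v Q
        + glin S v Q (b - a)
        = Real.log (S.𝔸.abv v (lcoef Q (U.π Q) u))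
          - (Real.log (cnorm S.𝔸 v bas f₁) - Real.log (cnorm S.𝔸 v bas f₂))
          - -(a Q : ℝ) * Real.log (theta S.𝔸 v S.φ Q (U.π Q)) + glin S v Q (b - a) := by
      rw [hκ]
      unfold kappa
      ring
    rw [e3]
    exact this
  have hXsplit : ∑ᶠ v, X v
      = ∑ Q ∈ a.support, (a Q : ℝ) ^ 2 * kapglob S U Q + iPair S a (b - a) := by
    have e1 : X = fun v =>
        ((∑ Q ∈ a.support, (a Q : ℝ) * Real.log (S.𝔸.abv v (lcoef Q (U.π Q) u)))
          + ∑ Q ∈ a.support, (a Q : ℝ) ^ 2 * kappa S U v Q)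
        + ∑ Q ∈ a.support, (a Q : ℝ) * glin S v Q (b - a) := by
      funext v
      rw [hX, ← Finset.sum_add_distrib, ← Finset.sum_add_distrib]
      refine Finset.sum_congr rfl fun Q _ => ?_
      ring
    have hP := sum_log_lcoef_eq_zero S U.π u hu0 a ha hdeg hstab (fun Q _ => U.ord_eq Q)
      (fun σ Q _ => U.equivariant σ Q)
    have f1 := adj_finite_support_sum_lcoef S U.π a u
    have f2 := adj_finite_support_sum_kappa S U a
    have f3 := finite_support_sum_glin S a (b - a)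
    rw [e1, finsum_add_distrib ((f1.union f2).subset (Function.support_add _ _)) f3,
      finsum_add_distrib f1 f2, hP, zero_add, adj_finsum_sum_kappa, iPair_eq_finsum_glin]
  have hY : (Function.support fun v : S.𝔸.ι => 2 * γ v * (dsize a : ℝ)).Finite := by
    refine γ.finite.subset ?_
    intro v hv
    rw [Function.mem_support] at hv
    simp only [Set.mem_ofPred_eq, ne_eq]
    intro h0
    apply hv
    show 2 * γ.c v * (dsize a : ℝ) = 0
    rw [h0]
    ring
  have hfinal := abs_finsum_le_finsum X (fun v => 2 * γ v * (dsize a : ℝ)) hloc hY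
  rw [hXsplit, iPair_sub_right] at hfinal
  have e4 : ∑ Q ∈ a.support, (a Q : ℝ) ^ 2 * kapglob S U Q + iPair S a b - iPair S a a
      = ∑ Q ∈ a.support, (a Q : ℝ) ^ 2 * kapglob S U Q + (iPair S a b - iPair S a a) := by ring
  rw [e4]
  refine hfinal.trans (le_of_eq ?_)
  have : (fun v : S.𝔸.ι => 2 * γ v * (dsize a : ℝ))
      = fun v => (2 * (dsize a : ℝ)) * γ v := by
    funext v
    ring
  rw [this, ← mul_finsum]
  unfold MConst.total
  ring

end Fermat.Agent.S17.Pos
end
end MergeWrap_S17_H_Pos_AdjCore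

section MergeWrap_S17_H_Pos_Adj -- from S17/H/Pos/Adj.lean

set_option autoImplicit false
set_option linter.unusedSectionVars false

/-!
# S17, package H, seat GB-ADJ: the adjunction inequality

`adjThm S U bas hLD : AdjThm S U`: for the canonical divisor `A` of `x` (degree `d ≤ g`),
`a = A - d P₀` and `b = A' - Z` (a movable representative avoiding `supp A ∪ {P₀}`):

`- I(a,b) ≥ 2 d n(A) - I(A,A) + K₂(A) - C`.

From `adj_core` (`- I(a,b) = Σ_Q a(Q)² κ(Q) - I(a,a) + O(1)`), the expansion of `I(a,a)` and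
`I(A, P₀) = n(A) + O(1)` (`adj_global_base`).
-/

noncomputable section

open AlgebraicCurve ModularCurve Fermat.Agent.RR Fermat.Agent.S17.Pairing

namespace Fermat.Agent.S17.Pos

variable {N : ℕ} [NeZero N]

/-! ### expansions -/

theorem adj_galStable_single (S : HSetup N) (n : ℤ) :
    GalStable N (Finsupp.single S.P₀ n : DivN N) := by
  intro σ
  unfold galDiv
  rw [SemilinearAut.smul_single]
  congr 1
  exact S.P₀_fixed σ

/-- `n(A) = (1/e) Σ_P A(P) lamglob(P)` -/
theorem adj_nHeight_eq (S : HSetup N) (A : DivN N) :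
    nHeight S A = (1 / (S.e : ℝ)) * ∑ P ∈ A.support, (A P : ℝ) * lamglob S P := by
  unfold nHeight
  congr 1
  have hfin : ∀ P, (Function.support fun v : S.𝔸.ι => (A P : ℝ) * lamloc S.𝔸 v S.φ P).Finite := by
    intro P
    refine (adj_finite_lamloc S P).subset ?_
    intro v hv
    rw [Function.mem_support] at hv
    simp only [Set.mem_ofPred_eq, ne_eq]
    intro h0
    apply hv
    rw [h0, mul_zero]
  rw [finsum_sum_comm _ _ (fun P _ => hfin P)]
  refine Finset.sum_congr rfl fun P _ => ?_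
  unfold lamglob
  rw [mul_finsum]

/-- `I(A, n P₀) = n Σ_P A(P) g(P,P₀)` -/
theorem adj_iPair_single (S : HSetup N) (A : DivN N) (n : ℤ) :
    iPair S A (Finsupp.single S.P₀ n)
      = (n : ℝ) * ∑ P ∈ A.support, (A P : ℝ) * gglob S P S.P₀ := by
  classical
  rw [iPair_eq_sum_of_subset S A (Finsupp.single S.P₀ n) (Finset.Subset.refl _)
    (Finsupp.support_single_subset), Finset.mul_sum]
  refine Finset.sum_congr rfl fun P _ => ?_
  rw [Finset.sum_singleton, Finsupp.single_eq_same]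
  ring

theorem adj_iPair_single_single (S : HSetup N) (n m : ℤ) :
    iPair S (Finsupp.single S.P₀ n) (Finsupp.single S.P₀ m) = 0 := by
  classical
  rw [iPair_eq_sum_of_subset S _ _ Finsupp.support_single_subset Finsupp.support_single_subset,
    Finset.sum_singleton, Finset.sum_singleton, gglob_self, mul_zero]

/-- `I(a,a)` for `a = A - d P₀` -/
theorem adj_iPair_self (S : HSetup N) (A : DivN N) (n : ℤ) :
    iPair S (A - Finsupp.single S.P₀ n) (A - Finsupp.single S.P₀ n)
      = iPair S A A - 2 * iPair S A (Finsupp.single S.P₀ n) := by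
  rw [iPair_sub_left, iPair_sub_right, iPair_sub_right, adj_iPair_single_single,
    iPair_symm S (Finsupp.single S.P₀ n) A]
  ring

/-- `Σ_Q a(Q)² κ(Q) = K₂(A) + d² κ(P₀)` for `a = A - d P₀`, `P₀ ∉ A` -/
theorem adj_sum_sq_kapglob (S : HSetup N) (U : Unif S) (A : DivN N) (hbase : A S.P₀ = 0)
    (n : ℤ) :
    ∑ Q ∈ (A - Finsupp.single S.P₀ n).support,
        (((A - Finsupp.single S.P₀ n) Q : ℤ) : ℝ) ^ 2 * kapglob S U Q
      = K2 S U A + (n : ℝ) ^ 2 * kapglob S U S.P₀ := by
  classical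
  have hP₀ : S.P₀ ∉ A.support := by
    rw [Finsupp.mem_support_iff, not_not]
    exact hbase
  have hsub : (A - Finsupp.single S.P₀ n).support ⊆ insert S.P₀ A.support := by
    intro Q hQ
    rw [Finsupp.mem_support_iff, Finsupp.sub_apply] at hQ
    rw [Finset.mem_insert, Finsupp.mem_support_iff]
    by_contra hcon
    rw [not_or, not_not] at hcon
    rw [hcon.2, Finsupp.single_apply, if_neg (Ne.symm hcon.1)] at hQ
    exact hQ rfl
  rw [Finset.sum_subset hsub (fun Q _ hQ => by
    rw [Finsupp.notMem_support_iff.mp hQ]; simp), Finset.sum_insert hP₀]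
  unfold K2
  rw [add_comm]
  congr 1
  · refine Finset.sum_congr rfl fun Q hQ => ?_
    have hne : Q ≠ S.P₀ := fun h => hP₀ (h ▸ hQ)
    rw [Finsupp.sub_apply, Finsupp.single_apply, if_neg (Ne.symm hne), sub_zero]
  · rw [Finsupp.sub_apply, hbase, Finsupp.single_eq_same]
    push_cast
    ring

/-- `Σ_P A(P) = d` -/
theorem adj_sum_eq_degree (A : DivN N) (d : ℕ) (hdeg : Divisor.degree A = d) :
    ∑ P ∈ A.support, (A P : ℝ) = d := by
  have := degree_eq_sum (hRR N) A
  rw [hdeg] at this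
  have h2 : ((∑ Q ∈ A.support, A Q : ℤ) : ℝ) = ((d : ℤ) : ℝ) := by rw [← this]
  push_cast at h2
  exact h2

/-- `|I(A, d P₀) - d n(A)| ≤ d² B` -/
theorem adj_iPair_single_sub (S : HSetup N) {B : ℝ}
    (hB : ∀ P : PtN N, P ≠ S.P₀ → |gglob S P S.P₀ - (1 / (S.e : ℝ)) * lamglob S P| ≤ B)
    (A : DivN N) (hA : 0 ≤ A) (hbase : A S.P₀ = 0) (d : ℕ) (hdeg : Divisor.degree A = d) :
    |iPair S A (Finsupp.single S.P₀ (d : ℤ)) - d * nHeight S A| ≤ (d : ℝ) ^ 2 * B := by
  have hA' : ∀ P, (0 : ℝ) ≤ (A P : ℝ) := fun P => by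
    exact_mod_cast Finsupp.le_def.mp hA P
  have e1 : iPair S A (Finsupp.single S.P₀ (d : ℤ)) - d * nHeight S A
      = (d : ℝ) * ∑ P ∈ A.support,
          (A P : ℝ) * (gglob S P S.P₀ - (1 / (S.e : ℝ)) * lamglob S P) := by
    rw [adj_iPair_single, adj_nHeight_eq, Finset.mul_sum, Finset.mul_sum, Finset.mul_sum,
      Finset.mul_sum, ← Finset.sum_sub_distrib]
    refine Finset.sum_congr rfl fun P _ => ?_
    push_cast
    ring
  rw [e1, abs_mul, abs_of_nonneg (Nat.cast_nonneg d), pow_two, mul_assoc]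
  refine mul_le_mul_of_nonneg_left ?_ (Nat.cast_nonneg d)
  refine (Finset.abs_sum_le_sum_abs _ _).trans ?_
  rw [← adj_sum_eq_degree A d hdeg, Finset.sum_mul]
  refine Finset.sum_le_sum fun P hP => ?_
  rw [abs_mul, abs_of_nonneg (hA' P)]
  refine mul_le_mul_of_nonneg_left (hB P ?_) (hA' P)
  rintro rfl
  exact (Finsupp.mem_support_iff.mp hP) hbase

/-! ### the theorem -/

/-- **Seat GB-ADJ.** -/
theorem adjThm (S : HSetup N) (U : Unif S) {d : ℕ}
    (bas : Module.Basis (Fin (d + 1)) Qbar (secSpace S.P₀ S.e 1))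
    (hLD : LocalDecomp S.𝔸 (hRR N) S.P₀ S.e S.φ 1 bas) : AdjThm S U := by
  classical
  obtain ⟨γ₂, hγ₂⟩ := exists_localQuotLC S bas hLD
  obtain ⟨γ₁, hγ₁⟩ := hLD
  have he0 : (0 : ℝ) < (S.e : ℝ) := by
    have := S.e_large
    have : 0 < S.e := by omega
    exact_mod_cast this
  set g : ℝ := (genusFF Qbar (FN N) : ℝ) with hg
  have hg0 : 0 ≤ g := Nat.cast_nonneg _
  set B : ℝ := (|adjC1 S bas| + γ₁.total) / (S.e : ℝ) with hBdef
  have hB0 : 0 ≤ B := div_nonneg (add_nonneg (abs_nonneg _) γ₁.total_nonneg) he0.le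
  have hB : ∀ P : PtN N, P ≠ S.P₀ →
      |gglob S P S.P₀ - (1 / (S.e : ℝ)) * lamglob S P| ≤ B := by
    intro P hP
    have h1 := abs_le.mp (adj_global_base S bas hγ₁ hP)
    have h2 := abs_le.mp (le_refl |adjC1 S bas|)
    have e1 : gglob S P S.P₀ - (1 / (S.e : ℝ)) * lamglob S P
        = ((S.e : ℝ) * gglob S P S.P₀ - lamglob S P) / (S.e : ℝ) := by
      field_simp
    rw [e1, hBdef, abs_div, abs_of_pos he0]
    refine div_le_div_of_nonneg_right ?_ he0.le
    rw [abs_le]
    constructor <;> linarith [h1.1, h1.2, neg_abs_le (adjC1 S bas), le_abs_self (adjC1 S bas)]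
  refine ⟨g ^ 2 * |kapglob S U S.P₀| + 2 * g ^ 2 * B + 4 * g * γ₂.total, ?_⟩
  intro x A d hA
  obtain ⟨hAstab, hdg⟩ := Move.IsCanon.galStable S hA
  have hdg' : (d : ℝ) ≤ g := by
    rw [hg]
    exact_mod_cast hdg
  have hd0 : (0 : ℝ) ≤ (d : ℝ) := Nat.cast_nonneg d
  -- the representative `a = A - d P₀`
  have hsP0 : (0 : DivN N) ≤ Finsupp.single S.P₀ (d : ℤ) := by
    rw [Finsupp.le_def]
    intro P
    rw [Finsupp.single_apply]
    split_ifs
    · exact Int.natCast_nonneg d
    · exact le_refl _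
  have hsize_a : dsize (A - Finsupp.single S.P₀ (d : ℤ)) ≤ 2 * d := by
    have h1 := Move.dsize_sub_le (N := N) hA.nonneg hsP0
    rw [hA.degree_eq, Divisor.degree_single, (hRR N).deg_one] at h1
    simp only [Nat.cast_one, mul_one] at h1
    have : (dsize (A - Finsupp.single S.P₀ (d : ℤ)) : ℤ) ≤ ((2 * d : ℕ) : ℤ) := by
      push_cast
      linarith
    exact_mod_cast this
  have ha : IsRep S (x : JZero N) (A - Finsupp.single S.P₀ (d : ℤ)) := by
    refine ⟨galStable_sub hAstab (adj_galStable_single S d), ?_, hA.mem, hA.mk_eq⟩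
    unfold HSetup.s
    omega
  -- the representative `b`
  obtain ⟨A', Z, -, -, -, -, -, -, hA'T, hZT, -, hb⟩ :=
    Move.exists_isRep_pair S x (A.support ∪ {S.P₀})
  have hdisj : Disjoint (A - Finsupp.single S.P₀ (d : ℤ)).support (A' - Z).support := by
    rw [Finset.disjoint_left]
    intro Q hQa hQb
    have hQT : Q ∈ A.support ∪ {S.P₀} := by
      rw [Finsupp.mem_support_iff, Finsupp.sub_apply] at hQa
      rw [Finset.mem_union, Finset.mem_singleton, Finsupp.mem_support_iff]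
      by_contra hcon
      rw [not_or, not_not] at hcon
      rw [hcon.1, Finsupp.single_apply, if_neg (Ne.symm hcon.2)] at hQa
      exact hQa rfl
    rw [Finsupp.mem_support_iff, Finsupp.sub_apply, hA'T Q hQT, hZT Q hQT] at hQb
    exact hQb rfl
  refine ⟨A - Finsupp.single S.P₀ (d : ℤ), A' - Z, ha, hb, hdisj, ?_⟩
  -- the adjunction identity
  have hsz : dsize (A - Finsupp.single S.P₀ (d : ℤ)) + dsize (A' - Z) ≤ 12 * S.s := by
    have h1 := ha.size_le
    have h2 := hb.size_le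
    omega
  have hcore := abs_le.mp (adj_core S U bas hγ₂ (isRep_rep ha) (isRep_rep hb) ha.galStable
    hb.galStable hsz hdisj)
  rw [adj_sum_sq_kapglob S U A hA.base, adj_iPair_self] at hcore
  have hI := abs_le.mp (adj_iPair_single_sub S hB A hA.nonneg hA.base d hA.degree_eq)
  have hk := neg_abs_le (kapglob S U S.P₀)
  have hds : (dsize (A - Finsupp.single S.P₀ (d : ℤ)) : ℝ) ≤ 2 * d := by exact_mod_cast hsize_a
  have hγ0 := γ₂.total_nonneg
  -- numerical bounds using `d ≤ g`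
  have b1 : (d : ℝ) ^ 2 ≤ g ^ 2 := pow_le_pow_left₀ hd0 hdg' 2
  have b2 : (d : ℝ) ^ 2 * |kapglob S U S.P₀| ≤ g ^ 2 * |kapglob S U S.P₀| :=
    mul_le_mul_of_nonneg_right b1 (abs_nonneg _)
  have b3 : (d : ℝ) ^ 2 * B ≤ g ^ 2 * B := mul_le_mul_of_nonneg_right b1 hB0
  have b4 : 2 * γ₂.total * (dsize (A - Finsupp.single S.P₀ (d : ℤ)) : ℝ)
      ≤ 4 * g * γ₂.total := by
    have : 2 * γ₂.total * (dsize (A - Finsupp.single S.P₀ (d : ℤ)) : ℝ)
        ≤ 2 * γ₂.total * (2 * g) :=
      mul_le_mul_of_nonneg_left (hds.trans (by linarith)) (by positivity)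
    linarith
  have b5 : -((d : ℝ) ^ 2 * |kapglob S U S.P₀|) ≤ (d : ℝ) ^ 2 * kapglob S U S.P₀ := by
    have := mul_le_mul_of_nonneg_left hk (sq_nonneg (d : ℝ))
    linarith
  push_cast at hcore
  linarith [hcore.1, hcore.2, hI.1, hI.2]

end Fermat.Agent.S17.Pos
end
end MergeWrap_S17_H_Pos_Adj

section MergeWrap_S17_H_LCge -- from S17/H/LCge.lean

set_option autoImplicit false
set_option linter.unusedSectionVars false
set_option linter.style.longLine false

/-!
# S17, package H, seat L6 (LC ≥): the lower half of the local decomposition theorem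

For `f ∈ V_j = L(j e P₀)`, `f ≠ 0`, a place `P`, `m = Z_f(P)`, `π` a uniformizer at `P`:

`log |lead_P f|_v - j log ‖coord P‖_v ≥ log ‖f‖_v + m log θ_v(P;π) - Σ_{c ≠ P} Z_f(c) g_v(P,c) - γ_v`.

Proof (blueprint L6): for each zero `c` of `f` choose a linear form `l_c = c_b φ_a - c_a φ_b`
through `c` (with `|l_c(P)|_v` maximal, resp. with maximal leading coefficient if `c = P`);
`G = ∏ l_c^{Z_f(c)} ∈ V_{je}` vanishes on `Z_f`, so `G = f k₁` with `k₁ ∈ V_{je-j}` and `k₁(P) ≠ 0`.
Evaluate at `P`, use GAUSS (`‖f‖ ‖k₁‖ ≤ C ‖G‖ ≤ C' ∏ ‖l_c‖`) and `|k₁|_v(P) ≤ C ‖k₁‖_v`.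

Main result: `localDecompGe`.
-/

noncomputable section

open AlgebraicCurve Fermat.Agent.RR

namespace Fermat.Agent.S17

variable {F : Type*} [Field F] [Algebra Qbar F]

/-! ### Part 0: sections of `V_j = L(j e P₀)` -/

section sections

variable {P₀ : Place Qbar F} {e : ℕ}

theorem lcg_mem_secSpace_iff {j : ℕ} {f : F} (hf : f ≠ 0) :
    f ∈ secSpace P₀ e j ↔ ∀ P : Place Qbar F,
      -(Finsupp.single P₀ ((j * e : ℕ) : ℤ)) P ≤ P.ord f := by
  unfold secSpace
  rw [mem_riemannRochSpace_iff]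
  exact forall_congr' fun P => by simp [hf]

theorem lcg_one_mem (j : ℕ) : (1 : F) ∈ secSpace P₀ e j := by
  classical
  rw [lcg_mem_secSpace_iff one_ne_zero]
  intro P
  rw [Place.ord_one, Finsupp.single_apply]
  split_ifs
  · simp only [Nat.cast_mul, Left.neg_nonpos_iff]
    positivity
  · simp

theorem lcg_degree_zdiv (h : IsRRField Qbar F) (j : ℕ) (f : F) :
    Divisor.degree (zdiv h P₀ e j f) = ((j * e : ℕ) : ℤ) := by
  unfold zdiv
  rw [map_add, degree_divOf, zero_add, degree_single_one h]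

/-- The order of the normalised function `f / φ_{a₀}^j` at `P` is `Z_f(P)`. -/
theorem lcg_ord_div_pivot_pow (h : IsRRField Qbar F) {r : ℕ} {φ : Fin (r + 1) → F}
    (hφ : IsEmbBasis P₀ e φ)
    (he : 2 * genusFF Qbar F ≤ e) (j : ℕ) {f : F} (hf0 : f ≠ 0) (P : Place Qbar F) :
    P.ord (f / φ (pivot φ P) ^ j) = zdiv h P₀ e j f P := by
  classical
  have hp := hφ.ord_pivot h he P
  have hne : φ (pivot φ P) ^ j ≠ 0 := pow_ne_zero _ (hφ.ne_zero _)
  rw [zdiv_apply, div_eq_mul_inv, P.ord_mul hf0 (inv_ne_zero hne), P.ord_inv,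
    ← zpow_natCast, P.ord_zpow, hp]
  rw [Finsupp.single_apply, Finsupp.single_apply]
  split_ifs
  · push_cast; ring
  · simp

end sections

/-! ### Part 1: linear forms through a point -/

section linforms

variable {P₀ : Place Qbar F} {e r : ℕ} {φ : Fin (r + 1) → F}

/-- the linear form `x_b φ_a - x_a φ_b`, `x = coord c`, which vanishes at `c` -/
def lcgLin (φ : Fin (r + 1) → F) (c : Place Qbar F) (a b : Fin (r + 1)) : F :=
  algebraMap Qbar F (coord φ c b) * φ a - algebraMap Qbar F (coord φ c a) * φ b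

theorem lcg_phi_mem (hφ : IsEmbBasis P₀ e φ) (a : Fin (r + 1)) : φ a ∈ secSpace P₀ e 1 := by
  rw [← hφ.span_eq]
  exact Submodule.subset_span ⟨a, rfl⟩

theorem lcgLin_mem (hφ : IsEmbBasis P₀ e φ) (c : Place Qbar F) (a b : Fin (r + 1)) :
    lcgLin φ c a b ∈ secSpace P₀ e 1 := by
  unfold lcgLin
  rw [← Algebra.smul_def, ← Algebra.smul_def]
  exact Submodule.sub_mem _ (Submodule.smul_mem _ _ (lcg_phi_mem hφ a))
    (Submodule.smul_mem _ _ (lcg_phi_mem hφ b))

theorem lcg_ord_smul_nonneg (P : Place Qbar F) (x : Qbar) {u : F} (hu : 0 ≤ P.ord u) :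
    0 ≤ P.ord (x • u) := by
  rw [Algebra.smul_def]
  rcases eq_or_ne x 0 with h0 | h0
  · rw [h0, map_zero, zero_mul, Place.ord_zero]
  rcases eq_or_ne u 0 with h1 | h1
  · rw [h1, mul_zero, Place.ord_zero]
  · rw [P.ord_mul ((map_ne_zero _).2 h0) h1, Fermat.Agent.S24Res.ord_algebraMap]
    linarith

/-- the value at `P` of the linear form through `c` is a `2 × 2` minor of the coordinates -/
theorem lcg_val_lin (h : IsRRField Qbar F) (hφ : IsEmbBasis P₀ e φ) (P c : Place Qbar F)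
    (a b : Fin (r + 1)) :
    val P (lcgLin φ c a b / φ (pivot φ P)) =
      coord φ P a * coord φ c b - coord φ P b * coord φ c a := by
  unfold lcgLin val
  rw [sub_div, mul_div_assoc, mul_div_assoc, ← Algebra.smul_def, ← Algebra.smul_def]
  have ha := hφ.ord_div_pivot_nonneg P a
  have hb := hφ.ord_div_pivot_nonneg P b
  have hsa := lcg_ord_smul_nonneg P (coord φ c b) ha
  have hsb := lcg_ord_smul_nonneg P (coord φ c a) hb
  rw [Pts.ev_sub h P hsa hsb, Pts.ev_smul_const h P _ ha, Pts.ev_smul_const h P _ hb]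
  unfold coord val
  ring

/-- a nonzero linear form through `c` vanishes at `c` (as a section of `V_1`) -/
theorem lcg_zdiv_lin_pos (h : IsRRField Qbar F) (hφ : IsEmbBasis P₀ e φ)
    (he : 2 * genusFF Qbar F ≤ e)
    (c : Place Qbar F) (a b : Fin (r + 1)) (hne : lcgLin φ c a b ≠ 0) :
    1 ≤ zdiv h P₀ e 1 (lcgLin φ c a b) c := by
  have h1 := lcg_ord_div_pivot_pow h hφ he 1 hne c
  rw [pow_one] at h1
  have h2 := lcg_val_lin h hφ c c a b
  have h3 : val c (lcgLin φ c a b / φ (pivot φ c)) = 0 := by rw [h2]; ring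
  have hmem := lcgLin_mem hφ c a b
  have h0 : 0 ≤ c.ord (lcgLin φ c a b / φ (pivot φ c)) := by
    rw [h1]
    exact zdiv_nonneg h P₀ e 1 hmem hne c
  have h4 := (Pts.ev_eq_zero_iff h c (div_ne_zero hne (hφ.ne_zero _)) h0).1 h3
  rw [h1] at h4
  omega

end linforms

/-! ### Part 2: bases and the Gauss chain for products of linear forms -/

section chain

variable {P₀ : Place Qbar F} {e r : ℕ} {φ : Fin (r + 1) → F}

/-- every `V_n` has a basis indexed by some `Fin (d + 1)` -/
theorem lcg_exists_basis (h : IsRRField Qbar F) (P₀ : Place Qbar F) (e n : ℕ) :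
    ∃ d : ℕ, Nonempty (Module.Basis (Fin (d + 1)) Qbar (secSpace P₀ e n)) := by
  have hfin : Module.Finite Qbar (secSpace P₀ e n) := by
    unfold secSpace
    exact finite_riemannRochSpace h _
  have hnt : Nontrivial (secSpace P₀ e n) :=
    ⟨⟨⟨1, lcg_one_mem n⟩, 0, fun h0 => one_ne_zero (congrArg Subtype.val h0)⟩⟩
  have hpos : 0 < Module.finrank Qbar (secSpace P₀ e n) := Module.finrank_pos
  refine ⟨Module.finrank Qbar (secSpace P₀ e n) - 1, ⟨?_⟩⟩
  exact (Module.finBasis Qbar (secSpace P₀ e n)).reindex (finCongr (by omega))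

/-- the basis of `V_1` given by `φ` -/
def lcgBasis (hφ : IsEmbBasis P₀ e φ) : Module.Basis (Fin (r + 1)) Qbar (secSpace P₀ e 1) :=
  (Module.Basis.span hφ.linearIndependent).map (LinearEquiv.ofEq _ _ hφ.span_eq)

theorem lcgBasis_apply (hφ : IsEmbBasis P₀ e φ) (a : Fin (r + 1)) :
    ((lcgBasis hφ a : secSpace P₀ e 1) : F) = φ a := by
  unfold lcgBasis
  rw [Module.Basis.map_apply]
  simp [Module.Basis.span_apply]

theorem lcgLin_repr (hφ : IsEmbBasis P₀ e φ) (c : Place Qbar F) (a b i : Fin (r + 1)) :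
    (lcgBasis hφ).repr ⟨lcgLin φ c a b, lcgLin_mem hφ c a b⟩ i =
      coord φ c b * (if a = i then 1 else 0) - coord φ c a * (if b = i then 1 else 0) := by
  classical
  have hx : (⟨lcgLin φ c a b, lcgLin_mem hφ c a b⟩ : secSpace P₀ e 1) =
      coord φ c b • lcgBasis hφ a - coord φ c a • lcgBasis hφ b := by
    apply Subtype.ext
    simp only [Submodule.coe_sub, Submodule.coe_smul, lcgBasis_apply]
    unfold lcgLin
    rw [Algebra.smul_def, Algebra.smul_def]
  rw [hx, map_sub, map_smul, map_smul, Module.Basis.repr_self, Module.Basis.repr_self,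
    Finsupp.sub_apply, Finsupp.smul_apply, Finsupp.smul_apply, Finsupp.single_apply,
    Finsupp.single_apply, smul_eq_mul, smul_eq_mul]

/-- the coefficient norm of a linear form through `c` is at most `‖coord c‖_v` -/
theorem lcg_cnorm_lin_le (𝔸 : AbsSys) (v : 𝔸.ι) (hφ : IsEmbBasis P₀ e φ) (c : Place Qbar F)
    (a b : Fin (r + 1)) :
    cnorm 𝔸 v (lcgBasis hφ) (lcgLin φ c a b) ≤ vnorm 𝔸 v (coord φ c) := by
  rw [gauss_cnorm_of_mem 𝔸 v (lcgBasis hφ) (lcgLin_mem hφ c a b)]
  refine Finset.sup'_le _ _ fun i _ => ?_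
  beta_reduce
  rw [lcgLin_repr]
  by_cases hai : a = i
  · by_cases hbi : b = i
    · rw [if_pos hai, if_pos hbi, hai, hbi, sub_self, map_zero]
      exact vnorm_nonneg 𝔸 v _
    · rw [if_pos hai, if_neg hbi, mul_one, mul_zero, sub_zero]
      exact abv_le_vnorm 𝔸 v _ b
  · by_cases hbi : b = i
    · rw [if_neg hai, if_pos hbi, mul_one, mul_zero, zero_sub, AbsoluteValue.map_neg]
      exact abv_le_vnorm 𝔸 v _ a
    · rw [if_neg hai, if_neg hbi, mul_zero, mul_zero, sub_zero, map_zero]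
      exact vnorm_nonneg 𝔸 v _

theorem lcg_list_prod_mem : ∀ (L : List F), (∀ l ∈ L, l ∈ secSpace P₀ e 1) →
    L.prod ∈ secSpace P₀ e L.length := by
  intro L
  induction L with
  | nil => intro _; simpa using lcg_one_mem (P₀ := P₀) (e := e) 0
  | cons l L ih =>
    intro hL
    rw [List.prod_cons, List.length_cons, Nat.add_comm]
    exact gauss_secSpace_mul_mem P₀ e 1 L.length (hL l (List.mem_cons_self))
      (ih fun x hx => hL x (List.mem_cons_of_mem _ hx))

/-- **Gauss chain**: the coefficient norm of a product of `n + 1` linear forms is at most the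
product of the coefficient norms, up to an `M`-constant. -/
theorem lcg_chain (𝔸 : AbsSys) (h : IsRRField Qbar F) (hφ : IsEmbBasis P₀ e φ) :
    ∀ (n : ℕ) {d : ℕ} (B : Module.Basis (Fin (d + 1)) Qbar (secSpace P₀ e (n + 1))),
      ∃ Γ : MConst 𝔸, ∀ (v : 𝔸.ι) (L : List F), L.length = n + 1 →
        (∀ l ∈ L, l ∈ secSpace P₀ e 1 ∧ l ≠ 0) →
          Real.log (cnorm 𝔸 v B L.prod) ≤
            (L.map fun l => Real.log (cnorm 𝔸 v (lcgBasis hφ) l)).sum + Γ v := by
  intro n
  induction n with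
  | zero =>
    intro d B
    obtain ⟨γ, hγ⟩ := gauss_cnorm_basis_change 𝔸 B (lcgBasis hφ)
    refine ⟨γ, fun v L hlen hL => ?_⟩
    obtain ⟨l, rfl⟩ := List.length_eq_one_iff.mp hlen
    have hl := hL l (List.mem_singleton_self l)
    have := hγ v l hl.1 hl.2
    rw [abs_le] at this
    simp only [List.prod_singleton, List.map_cons, List.map_nil, List.sum_cons, List.sum_nil,
      add_zero]
    linarith [this.2]
  | succ n ih =>
    intro d B
    obtain ⟨d', ⟨B'⟩⟩ := lcg_exists_basis h P₀ e (n + 1)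
    obtain ⟨Γ', hΓ'⟩ := ih B'
    obtain ⟨γ, hγ⟩ := gaussNorm_of_mul 𝔸 (lcgBasis hφ) B' B (fun f hf f' hf' => by
      have := gauss_secSpace_mul_mem P₀ e 1 (n + 1) hf hf'
      rwa [Nat.add_comm] at this)
    refine ⟨Γ' + γ, fun v L hlen hL => ?_⟩
    match L, hlen, hL with
    | [], hlen, _ => simp at hlen
    | l :: L', hlen, hL =>
      have hlen' : L'.length = n + 1 := by simpa using hlen
      have hL' : ∀ x ∈ L', x ∈ secSpace P₀ e 1 ∧ x ≠ 0 :=
        fun x hx => hL x (List.mem_cons_of_mem _ hx)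
      have hl := hL l List.mem_cons_self
      have hmem : L'.prod ∈ secSpace P₀ e (n + 1) := by
        have := lcg_list_prod_mem (P₀ := P₀) (e := e) L' fun x hx => (hL' x hx).1
        rwa [hlen'] at this
      have hne : L'.prod ≠ 0 := by
        rw [Ne, List.prod_eq_zero_iff]
        intro h0
        exact (hL' 0 h0).2 rfl
      have h1 := hΓ' v L' hlen' hL'
      have h2 := hγ v l L'.prod hl.1 hl.2 hmem hne
      rw [abs_le] at h2
      simp only [List.prod_cons, List.map_cons, List.sum_cons, MConst.add_apply]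
      linarith [h2.2]

end chain

/-! ### Part 3: the Gauss chain for products over a finite set, with multiplicities -/

section finsetform

variable {P₀ : Place Qbar F} {e r : ℕ} {φ : Fin (r + 1) → F}

/-- the list of the `l c`, each repeated `n c` times -/
def lcgList {ι : Type*} (S : Finset ι) (l : ι → F) (n : ι → ℕ) : List F :=
  S.toList.flatMap fun c => List.replicate (n c) (l c)

theorem lcgList_prod {ι : Type*} (S : Finset ι) (l : ι → F) (n : ι → ℕ) :
    (lcgList S l n).prod = ∏ c ∈ S, l c ^ n c := by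
  unfold lcgList
  rw [List.flatMap_def, List.prod_flatten, List.map_map, ← Finset.prod_map_toList]
  congr 1
  apply List.map_congr_left
  intro c _
  simp

theorem lcgList_length {ι : Type*} (S : Finset ι) (l : ι → F) (n : ι → ℕ) :
    (lcgList S l n).length = ∑ c ∈ S, n c := by
  unfold lcgList
  rw [List.length_flatMap, ← Finset.sum_map_toList]
  congr 1
  apply List.map_congr_left
  intro c _
  simp

theorem lcgList_sum_map {ι : Type*} (S : Finset ι) (l : ι → F) (n : ι → ℕ) (g : F → ℝ) :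
    ((lcgList S l n).map g).sum = ∑ c ∈ S, (n c : ℝ) * g (l c) := by
  unfold lcgList
  rw [List.map_flatMap, List.flatMap_def, List.sum_flatten, List.map_map,
    ← Finset.sum_map_toList]
  congr 1
  apply List.map_congr_left
  intro c _
  simp

theorem lcgList_mem {ι : Type*} (S : Finset ι) (l : ι → F) (n : ι → ℕ) {x : F}
    (hx : x ∈ lcgList S l n) : ∃ c ∈ S, x = l c := by
  unfold lcgList at hx
  rw [List.mem_flatMap] at hx
  obtain ⟨c, hc, hxc⟩ := hx
  exact ⟨c, Finset.mem_toList.mp hc, (List.mem_replicate.mp hxc).2⟩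

theorem lcg_prod_mem (S : Finset (Place Qbar F)) (l : Place Qbar F → F) (n : Place Qbar F → ℕ)
    (hl : ∀ c ∈ S, l c ∈ secSpace P₀ e 1) :
    ∏ c ∈ S, l c ^ n c ∈ secSpace P₀ e (∑ c ∈ S, n c) := by
  rw [← lcgList_prod, ← lcgList_length S l n]
  refine lcg_list_prod_mem _ fun x hx => ?_
  obtain ⟨c, hc, rfl⟩ := lcgList_mem S l n hx
  exact hl c hc

/-- **Gauss chain**, form with multiplicities. -/
theorem lcg_chain_finset (𝔸 : AbsSys) (h : IsRRField Qbar F) (hφ : IsEmbBasis P₀ e φ)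
    (N : ℕ) (hN : 1 ≤ N) {d : ℕ} (B : Module.Basis (Fin (d + 1)) Qbar (secSpace P₀ e N)) :
    ∃ Γ : MConst 𝔸, ∀ (v : 𝔸.ι) (S : Finset (Place Qbar F)) (l : Place Qbar F → F)
      (n : Place Qbar F → ℕ), ∑ c ∈ S, n c = N → (∀ c ∈ S, l c ∈ secSpace P₀ e 1 ∧ l c ≠ 0) →
        Real.log (cnorm 𝔸 v B (∏ c ∈ S, l c ^ n c)) ≤
          ∑ c ∈ S, (n c : ℝ) * Real.log (cnorm 𝔸 v (lcgBasis hφ) (l c)) + Γ v := by
  obtain ⟨n', rfl⟩ : ∃ n', N = n' + 1 := ⟨N - 1, by omega⟩
  obtain ⟨Γ, hΓ⟩ := lcg_chain 𝔸 h hφ n' B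
  refine ⟨Γ, fun v S l n hsum hl => ?_⟩
  have := hΓ v (lcgList S l n) (by rw [lcgList_length, hsum]) (fun x hx => by
    obtain ⟨c, hc, rfl⟩ := lcgList_mem S l n hx
    exact hl c hc)
  rwa [lcgList_prod, lcgList_sum_map] at this

end finsetform

/-! ### Part 4: orders and values of products -/

section products

theorem lcg_ord_mul_nonneg (P : Place Qbar F) {f g : F} (hf : 0 ≤ P.ord f) (hg : 0 ≤ P.ord g) :
    0 ≤ P.ord (f * g) := by
  rcases eq_or_ne f 0 with h0 | h0
  · rw [h0, zero_mul, Place.ord_zero]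
  rcases eq_or_ne g 0 with h1 | h1
  · rw [h1, mul_zero, Place.ord_zero]
  rw [P.ord_mul h0 h1]
  linarith

theorem lcg_ord_pow_nonneg (P : Place Qbar F) {f : F} (hf : 0 ≤ P.ord f) (n : ℕ) :
    0 ≤ P.ord (f ^ n) := by
  rw [imm_ord_pow]
  positivity

theorem lcg_ord_prod (Q : Place Qbar F) (S : Finset (Place Qbar F)) (u : Place Qbar F → F)
    (n : Place Qbar F → ℕ) (hu : ∀ c ∈ S, u c ≠ 0) :
    Q.ord (∏ c ∈ S, u c ^ n c) = ∑ c ∈ S, (n c : ℤ) * Q.ord (u c) := by
  classical
  induction S using Finset.induction_on with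
  | empty => simp
  | insert a S ha ih =>
    rw [Finset.prod_insert ha, Finset.sum_insert ha]
    have hne1 : u a ^ n a ≠ 0 := pow_ne_zero _ (hu a (Finset.mem_insert_self a S))
    have hne2 : ∏ c ∈ S, u c ^ n c ≠ 0 :=
      Finset.prod_ne_zero_iff.mpr fun c hc => pow_ne_zero _ (hu c (Finset.mem_insert_of_mem hc))
    rw [Q.ord_mul hne1 hne2, imm_ord_pow, ih fun c hc => hu c (Finset.mem_insert_of_mem hc)]

theorem lcg_ev_prod (h : IsRRField Qbar F) (P : Place Qbar F) (S : Finset (Place Qbar F))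
    (u : Place Qbar F → F) (n : Place Qbar F → ℕ) (hu : ∀ c ∈ S, 0 ≤ P.ord (u c)) :
    0 ≤ P.ord (∏ c ∈ S, u c ^ n c) ∧
      val P (∏ c ∈ S, u c ^ n c) = ∏ c ∈ S, val P (u c) ^ n c := by
  classical
  induction S using Finset.induction_on with
  | empty =>
    simp only [Finset.prod_empty]
    exact ⟨by rw [Place.ord_one], Pts.ev_one P⟩
  | insert a S ha ih =>
    rw [Finset.prod_insert ha, Finset.prod_insert ha]
    obtain ⟨ih1, ih2⟩ := ih fun c hc => hu c (Finset.mem_insert_of_mem hc)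
    have h1 := lcg_ord_pow_nonneg P (hu a (Finset.mem_insert_self a S)) (n a)
    refine ⟨lcg_ord_mul_nonneg P h1 ih1, ?_⟩
    unfold val at ih2 ⊢
    rw [Pts.ev_mul h P h1 ih1, Pts.ev_pow h P (hu a (Finset.mem_insert_self a S)), ih2]

end products

/-! ### Part 5: the choice of the linear forms -/

section forms

variable {P₀ : Place Qbar F} {e r : ℕ} {φ : Fin (r + 1) → F}

/-- a linear form through `c ≠ P` whose value at `P` has maximal size -/
theorem lcg_exists_form_ne (𝔸 : AbsSys) (v : 𝔸.ι) (h : IsRRField Qbar F)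
    (hφ : IsEmbBasis P₀ e φ) (he : 2 * genusFF Qbar F + 1 ≤ e) {P c : Place Qbar F}
    (hc : c ≠ P) :
    ∃ a b, lcgLin φ c a b ≠ 0 ∧ P.ord (lcgLin φ c a b / φ (pivot φ P)) = 0 ∧
      𝔸.abv v (val P (lcgLin φ c a b / φ (pivot φ P))) =
        wnorm 𝔸 v (coord φ P) (coord φ c) := by
  have he' : 2 * genusFF Qbar F ≤ e := by omega
  obtain ⟨p, -, hp⟩ := Finset.exists_mem_eq_sup' Finset.univ_nonempty
    fun p : Fin (r + 1) × Fin (r + 1) =>
      𝔸.abv v (coord φ P p.1 * coord φ c p.2 - coord φ P p.2 * coord φ c p.1)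
  have hw : wnorm 𝔸 v (coord φ P) (coord φ c) =
      𝔸.abv v (coord φ P p.1 * coord φ c p.2 - coord φ P p.2 * coord φ c p.1) := hp
  have hpos := hφ.wnorm_coord_pos 𝔸 v h he (Ne.symm hc)
  have hval := lcg_val_lin h hφ P c p.1 p.2
  have habs : 𝔸.abv v (val P (lcgLin φ c p.1 p.2 / φ (pivot φ P))) =
      wnorm 𝔸 v (coord φ P) (coord φ c) := by rw [hval, hw]
  have hvne : val P (lcgLin φ c p.1 p.2 / φ (pivot φ P)) ≠ 0 := by
    intro h0
    rw [h0, map_zero] at habs
    exact absurd habs hpos.ne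
  have hne : lcgLin φ c p.1 p.2 ≠ 0 := by
    intro h0
    apply hvne
    rw [h0, zero_div]
    exact Pts.ev_zero P
  refine ⟨p.1, p.2, hne, ?_, habs⟩
  have h1 := lcg_ord_div_pivot_pow h hφ he' 1 hne P
  rw [pow_one] at h1
  have h2 := zdiv_nonneg h P₀ e 1 (lcgLin_mem hφ c p.1 p.2) hne P
  have h3 : 0 ≤ P.ord (lcgLin φ c p.1 p.2 / φ (pivot φ P)) := by rw [h1]; exact h2
  by_contra hcon
  have h4 : 0 < P.ord (lcgLin φ c p.1 p.2 / φ (pivot φ P)) := lt_of_le_of_ne h3 (Ne.symm hcon)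
  exact hvne ((Pts.ev_eq_zero_iff h P (div_ne_zero hne (hφ.ne_zero _)) h3).2 h4)

/-- a linear form through `P` whose leading coefficient at `P` has maximal size -/
theorem lcg_exists_form_eq (𝔸 : AbsSys) (v : 𝔸.ι) (h : IsRRField Qbar F)
    (hφ : IsEmbBasis P₀ e φ) (he : 2 * genusFF Qbar F + 1 ≤ e) (P : Place Qbar F) {π : F}
    (hπ : P.ord π = 1) :
    ∃ a b, lcgLin φ P a b ≠ 0 ∧ P.ord (lcgLin φ P a b / (φ (pivot φ P) * π)) = 0 ∧
      𝔸.abv v (val P (lcgLin φ P a b / (φ (pivot φ P) * π))) =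
        theta 𝔸 v φ P π * vnorm 𝔸 v (coord φ P) ^ 2 := by
  have he' : 2 * genusFF Qbar F ≤ e := by omega
  have hπ0 : π ≠ 0 := by
    rintro rfl
    rw [P.ord_zero] at hπ
    exact zero_ne_one hπ
  obtain ⟨p, -, hp⟩ := Finset.exists_mem_eq_sup' Finset.univ_nonempty
    fun p : Fin (r + 1) × Fin (r + 1) =>
      𝔸.abv v (val P ((algebraMap Qbar F (coord φ P p.2) * φ p.1
        - algebraMap Qbar F (coord φ P p.1) * φ p.2) / (φ (pivot φ P) * π)))
  have hnorm := hφ.vnorm_coord_pos 𝔸 v P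
  have hθ : theta 𝔸 v φ P π * vnorm 𝔸 v (coord φ P) ^ 2 =
      𝔸.abv v (val P (lcgLin φ P p.1 p.2 / (φ (pivot φ P) * π))) := by
    unfold theta
    rw [div_mul_cancel₀ _ (pow_pos hnorm 2).ne']
    exact hp
  have hpos : 0 < theta 𝔸 v φ P π * vnorm 𝔸 v (coord φ P) ^ 2 :=
    mul_pos (hφ.theta_pos 𝔸 v h he P hπ) (pow_pos hnorm 2)
  have hvne : val P (lcgLin φ P p.1 p.2 / (φ (pivot φ P) * π)) ≠ 0 := by
    intro h0
    rw [hθ, h0, map_zero] at hpos
    exact lt_irrefl _ hpos
  have hne : lcgLin φ P p.1 p.2 ≠ 0 := by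
    intro h0
    apply hvne
    rw [h0, zero_div]
    exact Pts.ev_zero P
  refine ⟨p.1, p.2, hne, ?_, hθ.symm⟩
  have h1 := lcg_ord_div_pivot_pow h hφ he' 1 hne P
  rw [pow_one] at h1
  have h2 := lcg_zdiv_lin_pos h hφ he' P p.1 p.2 hne
  have hdne : lcgLin φ P p.1 p.2 / (φ (pivot φ P) * π) ≠ 0 :=
    div_ne_zero hne (mul_ne_zero (hφ.ne_zero _) hπ0)
  have h3 : P.ord (lcgLin φ P p.1 p.2 / (φ (pivot φ P) * π)) =
      zdiv h P₀ e 1 (lcgLin φ P p.1 p.2) P - 1 := by
    rw [← div_div, imm_ord_div P (div_ne_zero hne (hφ.ne_zero _)) hπ0, h1, hπ]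
  have h4 : 0 ≤ P.ord (lcgLin φ P p.1 p.2 / (φ (pivot φ P) * π)) := by rw [h3]; omega
  by_contra hcon
  have h5 : 0 < P.ord (lcgLin φ P p.1 p.2 / (φ (pivot φ P) * π)) :=
    lt_of_le_of_ne h4 (Ne.symm hcon)
  exact hvne ((Pts.ev_eq_zero_iff h P hdne h4).2 h5)

open Classical in
/-- the family of linear forms used in the proof of `localDecompGe` -/
theorem lcg_exists_forms (𝔸 : AbsSys) (v : 𝔸.ι) (h : IsRRField Qbar F)
    (hφ : IsEmbBasis P₀ e φ) (he : 2 * genusFF Qbar F + 1 ≤ e) (P : Place Qbar F) {π : F}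
    (hπ : P.ord π = 1) :
    ∃ l : Place Qbar F → F, ∀ c,
      (l c ∈ secSpace P₀ e 1 ∧ l c ≠ 0) ∧
      cnorm 𝔸 v (lcgBasis hφ) (l c) ≤ vnorm 𝔸 v (coord φ c) ∧
      1 ≤ zdiv h P₀ e 1 (l c) c ∧
      P.ord (l c / (if c = P then φ (pivot φ P) * π else φ (pivot φ P))) = 0 ∧
      𝔸.abv v (val P (l c / (if c = P then φ (pivot φ P) * π else φ (pivot φ P)))) =
        (if c = P then theta 𝔸 v φ P π * vnorm 𝔸 v (coord φ P) ^ 2
          else wnorm 𝔸 v (coord φ P) (coord φ c)) := by
  have he' : 2 * genusFF Qbar F ≤ e := by omega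
  have key : ∀ c : Place Qbar F, ∃ x : F,
      (x ∈ secSpace P₀ e 1 ∧ x ≠ 0) ∧
      cnorm 𝔸 v (lcgBasis hφ) x ≤ vnorm 𝔸 v (coord φ c) ∧
      1 ≤ zdiv h P₀ e 1 x c ∧
      P.ord (x / (if c = P then φ (pivot φ P) * π else φ (pivot φ P))) = 0 ∧
      𝔸.abv v (val P (x / (if c = P then φ (pivot φ P) * π else φ (pivot φ P)))) =
        (if c = P then theta 𝔸 v φ P π * vnorm 𝔸 v (coord φ P) ^ 2
          else wnorm 𝔸 v (coord φ P) (coord φ c)) := by
    intro c
    by_cases hc : c = P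
    · subst hc
      obtain ⟨a, b, hne, hord, habs⟩ := lcg_exists_form_eq 𝔸 v h hφ he c hπ
      refine ⟨lcgLin φ c a b, ⟨lcgLin_mem hφ c a b, hne⟩, lcg_cnorm_lin_le 𝔸 v hφ c a b,
        lcg_zdiv_lin_pos h hφ he' c a b hne, ?_, ?_⟩
      · rw [if_pos rfl]; exact hord
      · rw [if_pos rfl, if_pos rfl]; exact habs
    · obtain ⟨a, b, hne, hord, habs⟩ := lcg_exists_form_ne 𝔸 v h hφ he hc
      refine ⟨lcgLin φ c a b, ⟨lcgLin_mem hφ c a b, hne⟩, lcg_cnorm_lin_le 𝔸 v hφ c a b,
        lcg_zdiv_lin_pos h hφ he' c a b hne, ?_, ?_⟩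
      · rw [if_neg hc]; exact hord
      · rw [if_neg hc, if_neg hc]; exact habs
  choose l hl using key
  exact ⟨l, hl⟩

end forms

/-! ### Part 6: the quotient `k₁ = ∏ l_c^{n_c} / f` -/

section quotient

variable {P₀ : Place Qbar F} {e r : ℕ} {φ : Fin (r + 1) → F}

/-- the product of the linear forms through the zeros of `f` is divisible by `f` -/
theorem lcg_quot_mem (h : IsRRField Qbar F) {j : ℕ} {f : F}
    (hf0 : f ≠ 0) (l : Place Qbar F → F)
    (hl : ∀ c, (l c ∈ secSpace P₀ e 1 ∧ l c ≠ 0) ∧ 1 ≤ zdiv h P₀ e 1 (l c) c)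
    (n : Place Qbar F → ℕ) (hn : ∀ c, (n c : ℤ) = zdiv h P₀ e j f c) (N K : ℕ)
    (hN : ∑ c ∈ (zdiv h P₀ e j f).support, n c = N) (hK : K + j = N) :
    (∏ c ∈ (zdiv h P₀ e j f).support, l c ^ n c) / f ∈ secSpace P₀ e K := by
  classical
  have hGne : ∏ c ∈ (zdiv h P₀ e j f).support, l c ^ n c ≠ 0 :=
    Finset.prod_ne_zero_iff.mpr fun c _ => pow_ne_zero _ (hl c).1.2
  rw [lcg_mem_secSpace_iff (div_ne_zero hGne hf0)]
  intro Q
  rw [imm_ord_div Q hGne hf0, lcg_ord_prod Q _ _ _ (fun c _ => (hl c).1.2), imm_single_mul]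
  set s : ℤ := (Finsupp.single P₀ (e : ℤ)) Q with hs
  -- the zero divisors of the linear forms
  have hz : ∀ c, zdiv h P₀ e 1 (l c) Q = Q.ord (l c) + s := by
    intro c
    rw [zdiv_apply, imm_single_mul]
    push_cast
    ring
  have hznn : ∀ c, 0 ≤ Q.ord (l c) + s := by
    intro c
    rw [← hz c]
    exact zdiv_nonneg h P₀ e 1 (hl c).1.1 (hl c).1.2 Q
  have hterm : ∀ c ∈ (zdiv h P₀ e j f).support, 0 ≤ (n c : ℤ) * (Q.ord (l c) + s) :=
    fun c _ => mul_nonneg (Int.natCast_nonneg _) (hznn c)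
  have hge : zdiv h P₀ e j f Q ≤
      ∑ c ∈ (zdiv h P₀ e j f).support, (n c : ℤ) * (Q.ord (l c) + s) := by
    by_cases hQ : Q ∈ (zdiv h P₀ e j f).support
    · refine le_trans ?_ (Finset.single_le_sum hterm hQ)
      have h1 : 1 ≤ Q.ord (l Q) + s := by rw [← hz Q]; exact (hl Q).2
      have h2 : (0 : ℤ) ≤ n Q := Int.natCast_nonneg _
      rw [← hn Q]
      nlinarith
    · rw [Finsupp.notMem_support_iff.mp hQ]
      exact Finset.sum_nonneg hterm
  have hsumeq : ∑ c ∈ (zdiv h P₀ e j f).support, (n c : ℤ) * (Q.ord (l c) + s) =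
      ∑ c ∈ (zdiv h P₀ e j f).support, (n c : ℤ) * Q.ord (l c) + (N : ℤ) * s := by
    rw [← hN, Nat.cast_sum, Finset.sum_mul, ← Finset.sum_add_distrib]
    exact Finset.sum_congr rfl fun c _ => by ring
  have hzf : zdiv h P₀ e j f Q = Q.ord f + (j : ℤ) * s := by
    rw [zdiv_apply, imm_single_mul]
  have hNK : (N : ℤ) * s = (K : ℤ) * s + (j : ℤ) * s := by
    rw [← hK]
    push_cast
    ring
  rw [hsumeq, hzf, hNK] at hge
  linarith

open Classical in
/-- splitting off the term of `P` from a sum over a finite set of places -/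
theorem lcg_sum_split (S : Finset (Place Qbar F)) (P : Place Qbar F) (g : Place Qbar F → ℝ)
    (hP : P ∉ S → g P = 0) :
    ∑ c ∈ S, g c = ∑ c ∈ S.filter (fun c => c ≠ P), g c + g P := by
  rw [Finset.sum_filter]
  have h1 : ∀ c ∈ S, g c = (if c ≠ P then g c else 0) + (if c = P then g c else 0) := by
    intro c _
    by_cases hc : c = P
    · simp [hc]
    · simp [hc]
  have h2 : ∑ c ∈ S, g c =
      ∑ c ∈ S, ((if c ≠ P then g c else 0) + (if c = P then g c else 0)) :=
    Finset.sum_congr rfl h1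
  rw [Finset.sum_add_distrib, Finset.sum_ite_eq'] at h2
  rw [h2]
  congr 1
  split_ifs with hPS
  · rfl
  · rw [hP hPS]

open Classical in
/-- the product of the denominators -/
theorem lcg_prod_denominators (S : Finset (Place Qbar F)) (P : Place Qbar F) (x π : F)
    (n : Place Qbar F → ℕ) (hP : P ∉ S → n P = 0) :
    ∏ c ∈ S, (if c = P then x * π else x) ^ n c = x ^ (∑ c ∈ S, n c) * π ^ n P := by
  have h1 : ∀ c ∈ S, (if c = P then x * π else x) ^ n c =
      x ^ n c * (if c = P then π ^ n c else 1) := by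
    intro c _
    by_cases hc : c = P
    · simp [hc, mul_pow]
    · simp [hc]
  rw [Finset.prod_congr rfl h1, Finset.prod_mul_distrib, Finset.prod_pow_eq_pow_sum,
    Finset.prod_ite_eq']
  congr 1
  split_ifs with hPS
  · rfl
  · rw [hP hPS, pow_zero]

end quotient

/-! ### Part 7: the theorem -/

section main

variable {P₀ : Place Qbar F} {e r : ℕ} {φ : Fin (r + 1) → F}

/-- **L6 (LC ≥)**: the lower half of the local decomposition theorem. -/
theorem localDecompGe (𝔸 : AbsSys) (h : IsRRField Qbar F) (he : 4 * genusFF Qbar F + 1 ≤ e)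
    (hφ : IsEmbBasis P₀ e φ) {j : ℕ} (hj : 1 ≤ j) {d : ℕ}
    (b : Module.Basis (Fin (d + 1)) Qbar (secSpace P₀ e j)) :
    LocalDecompGe 𝔸 h P₀ e φ j b := by
  classical
  have he1 : 2 * genusFF Qbar F + 1 ≤ e := by omega
  have he2 : 2 * genusFF Qbar F ≤ e := by omega
  have he3 : 3 * genusFF Qbar F ≤ e := by omega
  have hepos : 1 ≤ e := by omega
  obtain ⟨K, hK⟩ : ∃ K, K + j = j * e :=
    ⟨j * e - j, by have : j ≤ j * e := Nat.le_mul_of_pos_right j hepos; omega⟩
  have hN1 : 1 ≤ j * e := Nat.mul_pos hj hepos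
  obtain ⟨dN, ⟨BN⟩⟩ := lcg_exists_basis h P₀ e (j * e)
  obtain ⟨dK, ⟨BK⟩⟩ := lcg_exists_basis h P₀ e K
  obtain ⟨Γ, hΓ⟩ := lcg_chain_finset 𝔸 h hφ (j * e) hN1 BN
  obtain ⟨γ', hγ'⟩ := gaussNorm_of_mul 𝔸 b BK BN (fun f hf f' hf' => by
    have := gauss_secSpace_mul_mem P₀ e j K hf hf'
    rwa [Nat.add_comm, hK] at this)
  obtain ⟨γ'', hγ''⟩ := gauss_log_secSize_zero_le 𝔸 h he3 hφ K BK
  refine ⟨Γ + γ' + γ'', fun v f hf hf0 P π hπ m hm => ?_⟩
  have hπ0 : π ≠ 0 := by
    rintro rfl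
    rw [P.ord_zero] at hπ
    exact zero_ne_one hπ
  have hp0 : φ (pivot φ P) ≠ 0 := hφ.ne_zero _
  -- the zero divisor and the multiplicities
  have hZnn : ∀ c, 0 ≤ zdiv h P₀ e j f c := fun c => zdiv_nonneg h P₀ e j hf hf0 c
  obtain ⟨n, hnZ⟩ : ∃ n : Place Qbar F → ℕ, ∀ c, (n c : ℤ) = zdiv h P₀ e j f c :=
    ⟨fun c => (zdiv h P₀ e j f c).toNat, fun c => Int.toNat_of_nonneg (hZnn c)⟩
  have hnP : n P = m := by
    have := hnZ P
    rw [← hm] at this
    exact_mod_cast this
  have hnS : ∀ c, c ∉ (zdiv h P₀ e j f).support → n c = 0 := by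
    intro c hc
    have := hnZ c
    rw [Finsupp.notMem_support_iff.mp hc] at this
    exact_mod_cast this
  have hsum : ∑ c ∈ (zdiv h P₀ e j f).support, n c = j * e := by
    have h1 := lcg_degree_zdiv (P₀ := P₀) (e := e) h j f
    rw [degree_eq_sum h] at h1
    have h2 : ((∑ c ∈ (zdiv h P₀ e j f).support, n c : ℕ) : ℤ) = ((j * e : ℕ) : ℤ) := by
      rw [← h1, Nat.cast_sum]
      exact Finset.sum_congr rfl fun c _ => hnZ c
    exact_mod_cast h2
  -- the linear forms
  obtain ⟨l, hl⟩ := lcg_exists_forms 𝔸 v h hφ he1 P hπ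
  have hlne : ∀ c, l c ≠ 0 := fun c => (hl c).1.2
  have hGne : ∏ c ∈ (zdiv h P₀ e j f).support, l c ^ n c ≠ 0 :=
    Finset.prod_ne_zero_iff.mpr fun c _ => pow_ne_zero _ (hlne c)
  have hk1mem : (∏ c ∈ (zdiv h P₀ e j f).support, l c ^ n c) / f ∈ secSpace P₀ e K :=
    lcg_quot_mem h hf0 l (fun c => ⟨(hl c).1, (hl c).2.2.1⟩) n hnZ (j * e) K hsum hK
  have hk1ne : (∏ c ∈ (zdiv h P₀ e j f).support, l c ^ n c) / f ≠ 0 := div_ne_zero hGne hf0
  have hfk : f * ((∏ c ∈ (zdiv h P₀ e j f).support, l c ^ n c) / f) =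
      ∏ c ∈ (zdiv h P₀ e j f).support, l c ^ n c := mul_div_cancel₀ _ hf0
  -- the factorisation of the normalised product
  have hwne : ∀ c : Place Qbar F,
      (if c = P then φ (pivot φ P) * π else φ (pivot φ P)) ≠ 0 := by
    intro c
    split_ifs
    · exact mul_ne_zero hp0 hπ0
    · exact hp0
  have hfact : ∏ c ∈ (zdiv h P₀ e j f).support,
        (l c / (if c = P then φ (pivot φ P) * π else φ (pivot φ P))) ^ n c =
      (f / (φ (pivot φ P) ^ j * π ^ m)) *
        (((∏ c ∈ (zdiv h P₀ e j f).support, l c ^ n c) / f) / φ (pivot φ P) ^ K) := by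
    have h1 : ∀ c ∈ (zdiv h P₀ e j f).support,
        (l c / (if c = P then φ (pivot φ P) * π else φ (pivot φ P))) ^ n c =
          l c ^ n c / (if c = P then φ (pivot φ P) * π else φ (pivot φ P)) ^ n c :=
      fun c _ => div_pow _ _ _
    rw [Finset.prod_congr rfl h1, Finset.prod_div_distrib,
      lcg_prod_denominators _ P _ π n (hnS P), hsum, hnP, ← hK, pow_add]
    field_simp
  have hune : ∀ c : Place Qbar F,
      l c / (if c = P then φ (pivot φ P) * π else φ (pivot φ P)) ≠ 0 :=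
    fun c => div_ne_zero (hlne c) (hwne c)
  have hu0 : ∀ c : Place Qbar F,
      P.ord (l c / (if c = P then φ (pivot φ P) * π else φ (pivot φ P))) = 0 :=
    fun c => (hl c).2.2.2.1
  have hordprod : P.ord (∏ c ∈ (zdiv h P₀ e j f).support,
      (l c / (if c = P then φ (pivot φ P) * π else φ (pivot φ P))) ^ n c) = 0 := by
    rw [lcg_ord_prod P _ (fun c => l c / (if c = P then φ (pivot φ P) * π else φ (pivot φ P)))
      n (fun c _ => hune c)]
    exact Finset.sum_eq_zero fun c _ => by rw [hu0 c, mul_zero]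
  have hordf := hφ.ord_lead h he2 j P hπ hf0 m hm
  have hfne' : f / (φ (pivot φ P) ^ j * π ^ m) ≠ 0 :=
    div_ne_zero hf0 (mul_ne_zero (pow_ne_zero _ hp0) (pow_ne_zero _ hπ0))
  have hkne' : ((∏ c ∈ (zdiv h P₀ e j f).support, l c ^ n c) / f) / φ (pivot φ P) ^ K ≠ 0 :=
    div_ne_zero hk1ne (pow_ne_zero _ hp0)
  have hordk : P.ord (((∏ c ∈ (zdiv h P₀ e j f).support, l c ^ n c) / f) /
      φ (pivot φ P) ^ K) = 0 := by
    have := hordprod
    rw [hfact, P.ord_mul hfne' hkne', hordf, zero_add] at this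
    exact this
  -- the values at `P`
  have hval := (lcg_ev_prod h P (zdiv h P₀ e j f).support
    (fun c => l c / (if c = P then φ (pivot φ P) * π else φ (pivot φ P))) n
    (fun c _ => (hu0 c).ge)).2
  beta_reduce at hval
  rw [hfact] at hval
  have hmul : val P ((f / (φ (pivot φ P) ^ j * π ^ m)) *
      (((∏ c ∈ (zdiv h P₀ e j f).support, l c ^ n c) / f) / φ (pivot φ P) ^ K)) =
      val P (f / (φ (pivot φ P) ^ j * π ^ m)) *
        val P (((∏ c ∈ (zdiv h P₀ e j f).support, l c ^ n c) / f) / φ (pivot φ P) ^ K) :=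
    Pts.ev_mul h P hordf.ge hordk.ge
  have hLF : 0 < 𝔸.abv v (val P (f / (φ (pivot φ P) ^ j * π ^ m))) :=
    (𝔸.abv v).pos (Pts.ev_ne_zero_of_ord_eq_zero h P hfne' hordf)
  have hLK : 0 < 𝔸.abv v (val P (((∏ c ∈ (zdiv h P₀ e j f).support, l c ^ n c) / f) /
      φ (pivot φ P) ^ K)) :=
    (𝔸.abv v).pos (Pts.ev_ne_zero_of_ord_eq_zero h P hkne' hordk)
  have hXpos : ∀ c : Place Qbar F, 0 < (if c = P then
      theta 𝔸 v φ P π * vnorm 𝔸 v (coord φ P) ^ 2 else wnorm 𝔸 v (coord φ P) (coord φ c)) := by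
    intro c
    rw [← (hl c).2.2.2.2]
    exact (𝔸.abv v).pos (Pts.ev_ne_zero_of_ord_eq_zero h P (hune c) (hu0 c))
  have habs : ∏ c ∈ (zdiv h P₀ e j f).support, (if c = P then
      theta 𝔸 v φ P π * vnorm 𝔸 v (coord φ P) ^ 2 else wnorm 𝔸 v (coord φ P) (coord φ c)) ^ n c =
      𝔸.abv v (val P (f / (φ (pivot φ P) ^ j * π ^ m))) *
        𝔸.abv v (val P (((∏ c ∈ (zdiv h P₀ e j f).support, l c ^ n c) / f) /
          φ (pivot φ P) ^ K)) := by
    rw [← map_mul, ← hmul, hval, AbsoluteValue.map_prod]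
    refine Finset.prod_congr rfl fun c _ => ?_
    rw [AbsoluteValue.map_pow, (hl c).2.2.2.2]
  have hlog1 : ∑ c ∈ (zdiv h P₀ e j f).support, (n c : ℝ) * Real.log (if c = P then
      theta 𝔸 v φ P π * vnorm 𝔸 v (coord φ P) ^ 2 else wnorm 𝔸 v (coord φ P) (coord φ c)) =
      Real.log (𝔸.abv v (val P (f / (φ (pivot φ P) ^ j * π ^ m)))) +
        Real.log (𝔸.abv v (val P (((∏ c ∈ (zdiv h P₀ e j f).support, l c ^ n c) / f) /
          φ (pivot φ P) ^ K))) := by
    rw [← Real.log_mul hLF.ne' hLK.ne', ← habs,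
      Real.log_prod (fun c _ => (pow_pos (hXpos c) _).ne')]
    exact Finset.sum_congr rfl fun c _ => (Real.log_pow _ _).symm
  -- abbreviations
  have hA := hφ.vnorm_coord_pos 𝔸 v P
  have hθ := hφ.theta_pos 𝔸 v h he1 P hπ
  -- splitting the sums
  have hs1 := lcg_sum_split (zdiv h P₀ e j f).support P (fun c => (n c : ℝ) * Real.log
      (if c = P then theta 𝔸 v φ P π * vnorm 𝔸 v (coord φ P) ^ 2
        else wnorm 𝔸 v (coord φ P) (coord φ c))) (fun hP => by
      rw [hnS P hP, Nat.cast_zero, zero_mul])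
  have hs2 := lcg_sum_split (zdiv h P₀ e j f).support P (fun c => (n c : ℝ) * Real.log
      (vnorm 𝔸 v (coord φ c))) (fun hP => by
      rw [hnS P hP, Nat.cast_zero, zero_mul])
  have hs3 := lcg_sum_split (zdiv h P₀ e j f).support P (fun c => (n c : ℝ)) (fun hP => by
      rw [hnS P hP, Nat.cast_zero])
  beta_reduce at hs1 hs2 hs3
  rw [if_pos rfl, hnP, Real.log_mul hθ.ne' (pow_pos hA 2).ne', Real.log_pow] at hs1
  rw [hnP] at hs2 hs3
  have hs1' : ∑ c ∈ (zdiv h P₀ e j f).support.filter (fun c => c ≠ P), (n c : ℝ) * Real.log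
      (if c = P then theta 𝔸 v φ P π * vnorm 𝔸 v (coord φ P) ^ 2
        else wnorm 𝔸 v (coord φ P) (coord φ c)) =
      ∑ c ∈ (zdiv h P₀ e j f).support.filter (fun c => c ≠ P), (n c : ℝ) *
        Real.log (wnorm 𝔸 v (coord φ P) (coord φ c)) :=
    Finset.sum_congr rfl fun c hc => by rw [if_neg (Finset.mem_filter.mp hc).2]
  rw [hs1'] at hs1
  push_cast at hs1
  -- the sum of the local heights
  have hgsum : gsum 𝔸 v φ P (zdiv h P₀ e j f) =
      Real.log (vnorm 𝔸 v (coord φ P)) *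
        ∑ c ∈ (zdiv h P₀ e j f).support.filter (fun c => c ≠ P), (n c : ℝ)
      + ∑ c ∈ (zdiv h P₀ e j f).support.filter (fun c => c ≠ P), (n c : ℝ) *
          Real.log (vnorm 𝔸 v (coord φ c))
      - ∑ c ∈ (zdiv h P₀ e j f).support.filter (fun c => c ≠ P), (n c : ℝ) *
          Real.log (wnorm 𝔸 v (coord φ P) (coord φ c)) := by
    unfold gsum
    rw [Finset.mul_sum, ← Finset.sum_add_distrib, ← Finset.sum_sub_distrib]
    refine Finset.sum_congr rfl fun c hc => ?_
    have hcP : c ≠ P := (Finset.mem_filter.mp hc).2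
    have hw := hφ.wnorm_coord_pos 𝔸 v h he1 (Ne.symm hcP)
    have hC := hφ.vnorm_coord_pos 𝔸 v c
    have hcast : ((zdiv h P₀ e j f c : ℤ) : ℝ) = (n c : ℝ) := by
      rw [← hnZ c]
      simp
    unfold gloc chord
    rw [hcast, Real.log_div hw.ne' (mul_pos hA hC).ne', Real.log_mul hA.ne' hC.ne']
    ring
  -- the sizes
  have hsecf : Real.log (secSize 𝔸 v φ j P π m f) =
      Real.log (𝔸.abv v (val P (f / (φ (pivot φ P) ^ j * π ^ m)))) -
        j * Real.log (vnorm 𝔸 v (coord φ P)) := by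
    unfold secSize
    rw [Real.log_div hLF.ne' (pow_pos hA j).ne', Real.log_pow]
  have hseck : secSize 𝔸 v φ K P π 0 ((∏ c ∈ (zdiv h P₀ e j f).support, l c ^ n c) / f) =
      𝔸.abv v (val P (((∏ c ∈ (zdiv h P₀ e j f).support, l c ^ n c) / f) /
          φ (pivot φ P) ^ K)) / vnorm 𝔸 v (coord φ P) ^ K := by
    unfold secSize
    rw [pow_zero, mul_one]
  have hseckpos : 0 < secSize 𝔸 v φ K P π 0
      ((∏ c ∈ (zdiv h P₀ e j f).support, l c ^ n c) / f) := by
    rw [hseck]
    exact div_pos hLK (pow_pos hA K)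
  have hE2 := hγ'' v _ hk1mem hk1ne P π hseckpos
  rw [hseck, Real.log_div hLK.ne' (pow_pos hA K).ne', Real.log_pow] at hE2
  have hE3 := hγ' v f _ hf hf0 hk1mem hk1ne
  rw [hfk, abs_le] at hE3
  have hE4 := hΓ v (zdiv h P₀ e j f).support l n hsum (fun c _ => (hl c).1)
  have hE5 : ∑ c ∈ (zdiv h P₀ e j f).support,
      (n c : ℝ) * Real.log (cnorm 𝔸 v (lcgBasis hφ) (l c)) ≤
      ∑ c ∈ (zdiv h P₀ e j f).support, (n c : ℝ) * Real.log (vnorm 𝔸 v (coord φ c)) :=
    Finset.sum_le_sum fun c _ => mul_le_mul_of_nonneg_left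
      (Real.log_le_log (gauss_cnorm_pos 𝔸 v (lcgBasis hφ) (hl c).1.1 (hl c).1.2) (hl c).2.1)
      (Nat.cast_nonneg _)
  -- the multiplicities
  have hcastsum : ((∑ c ∈ (zdiv h P₀ e j f).support, n c : ℕ) : ℝ) = (j : ℝ) * (e : ℝ) := by
    rw [hsum]
    push_cast
    ring
  rw [Nat.cast_sum] at hcastsum
  have hKj : (K : ℝ) + (j : ℝ) = (j : ℝ) * (e : ℝ) := by exact_mod_cast hK
  have hprodA : (K : ℝ) * Real.log (vnorm 𝔸 v (coord φ P)) +
      (j : ℝ) * Real.log (vnorm 𝔸 v (coord φ P)) =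
      Real.log (vnorm 𝔸 v (coord φ P)) *
        ∑ c ∈ (zdiv h P₀ e j f).support.filter (fun c => c ≠ P), (n c : ℝ)
      + (m : ℝ) * Real.log (vnorm 𝔸 v (coord φ P)) := by
    rw [← add_mul, hKj, ← hcastsum, hs3]
    ring
  simp only [MConst.add_apply]
  rw [hsecf, hgsum]
  linarith [hE3.1, hE3.2]

end main

end Fermat.Agent.S17
end
end MergeWrap_S17_H_LCge

section MergeWrap_S17_H_L7_MultiHom -- from S17/H/L7/MultiHom.lean

set_option autoImplicit false
set_option linter.unusedSectionVars false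

/-!
# S17, package H, seat L7, piece D1: closure properties of `IsMultiHom`

`IsMultiHom n d F` (seat L1, `S17/H/NST.lean`): every monomial of `F` has degree `d i` in the
variables of the factor `i`.  Here: constants, variables, sums, products, determinants and
adjugates of matrices of multihomogeneous forms, and renaming of homogeneous polynomials into
one factor.  Pure `MvPolynomial` bookkeeping (hint: `IsMultiHom n d F ↔ ∀ i,
IsWeightedHomogeneous (fun s => if s.1 = i then 1 else 0) F (d i)`, then Mathlib's closure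
lemmas for `IsWeightedHomogeneous`).
-/

noncomputable section

namespace Fermat.Agent.S17

open MvPolynomial

variable {ι : Type} [Fintype ι] [DecidableEq ι] {n : ι → ℕ}

theorem isMultiHom_zero (d : ι → ℕ) : IsMultiHom n d (0 : MvPolynomial (MPVar n) Qbar) := by
  intro m hm
  simp at hm

theorem isMultiHom_C (c : Qbar) : IsMultiHom n (fun _ => 0) (C c : MvPolynomial (MPVar n) Qbar) := by
  classical
  intro m hm i
  have h0 : m = 0 := by
    by_contra h
    rw [MvPolynomial.mem_support_iff, MvPolynomial.coeff_C, if_neg (Ne.symm h)] at hm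
    exact hm rfl
  subst h0
  simp

theorem isMultiHom_one : IsMultiHom n (fun _ => 0) (1 : MvPolynomial (MPVar n) Qbar) := by
  have := isMultiHom_C (n := n) (1 : Qbar)
  rwa [map_one] at this

theorem isMultiHom_X (i : ι) (a : Fin (n i + 1)) :
    IsMultiHom n (Pi.single i 1) (X (⟨i, a⟩ : MPVar n) : MvPolynomial (MPVar n) Qbar) := by
  classical
  intro m hm i'
  have h0 : m = Finsupp.single (⟨i, a⟩ : MPVar n) 1 := by
    by_contra h
    rw [MvPolynomial.mem_support_iff, MvPolynomial.coeff_X, if_neg (Ne.symm h)] at hm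
    exact hm rfl
  subst h0
  by_cases hi : i' = i
  · subst hi
    rw [Pi.single_eq_same, Finset.sum_eq_single a]
    · simp
    · intro b _ hb
      rw [Finsupp.single_apply, if_neg]
      intro h
      exact hb (by
        have := (Sigma.mk.inj_iff.mp h).2
        exact (eq_of_heq this).symm)
    · intro h
      exact absurd (Finset.mem_univ a) h
  · rw [Pi.single_eq_of_ne hi]
    refine Finset.sum_eq_zero fun b _ => ?_
    rw [Finsupp.single_apply, if_neg]
    intro h
    exact hi (Sigma.mk.inj_iff.mp h).1.symm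

theorem IsMultiHom.add {d : ι → ℕ} {F G : MvPolynomial (MPVar n) Qbar}
    (hF : IsMultiHom n d F) (hG : IsMultiHom n d G) : IsMultiHom n d (F + G) := by
  classical
  intro m hm
  rcases Finset.mem_union.mp (MvPolynomial.support_add hm) with h | h
  · exact hF m h
  · exact hG m h

theorem IsMultiHom.neg {d : ι → ℕ} {F : MvPolynomial (MPVar n) Qbar}
    (hF : IsMultiHom n d F) : IsMultiHom n d (-F) := by
  intro m hm
  rw [MvPolynomial.support_neg] at hm
  exact hF m hm

theorem IsMultiHom.sub {d : ι → ℕ} {F G : MvPolynomial (MPVar n) Qbar}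
    (hF : IsMultiHom n d F) (hG : IsMultiHom n d G) : IsMultiHom n d (F - G) := by
  rw [sub_eq_add_neg]
  exact hF.add hG.neg

theorem IsMultiHom.sum {d : ι → ℕ} {α : Type*} (s : Finset α)
    (F : α → MvPolynomial (MPVar n) Qbar) (hF : ∀ x ∈ s, IsMultiHom n d (F x)) :
    IsMultiHom n d (∑ x ∈ s, F x) := by
  classical
  induction s using Finset.induction_on with
  | empty => simpa using isMultiHom_zero (n := n) d
  | insert a s ha ih =>
    rw [Finset.sum_insert ha]
    exact (hF a (Finset.mem_insert_self a s)).add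
      (ih fun x hx => hF x (Finset.mem_insert_of_mem hx))

theorem IsMultiHom.mul {d d' : ι → ℕ} {F G : MvPolynomial (MPVar n) Qbar}
    (hF : IsMultiHom n d F) (hG : IsMultiHom n d' G) : IsMultiHom n (d + d') (F * G) := by
  classical
  intro m hm i
  obtain ⟨m₁, h₁, m₂, h₂, rfl⟩ := Finset.mem_add.mp (MvPolynomial.support_mul F G hm)
  simp only [Finsupp.add_apply, Finset.sum_add_distrib, Pi.add_apply]
  rw [hF m₁ h₁ i, hG m₂ h₂ i]

theorem IsMultiHom.C_mul {d : ι → ℕ} {F : MvPolynomial (MPVar n) Qbar} (c : Qbar)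
    (hF : IsMultiHom n d F) : IsMultiHom n d (C c * F) := by
  have h := (isMultiHom_C (n := n) c).mul hF
  have e : (fun _ : ι => 0) + d = d := by
    funext i
    simp
  rwa [e] at h

theorem IsMultiHom.prod {α : Type*} (s : Finset α) (d : α → ι → ℕ)
    (F : α → MvPolynomial (MPVar n) Qbar) (hF : ∀ x ∈ s, IsMultiHom n (d x) (F x)) :
    IsMultiHom n (∑ x ∈ s, d x) (∏ x ∈ s, F x) := by
  classical
  induction s using Finset.induction_on with
  | empty =>
    simp only [Finset.sum_empty, Finset.prod_empty]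
    exact isMultiHom_one
  | insert a s ha ih =>
    rw [Finset.sum_insert ha, Finset.prod_insert ha]
    exact (hF a (Finset.mem_insert_self a s)).mul
      (ih fun x hx => hF x (Finset.mem_insert_of_mem hx))

theorem IsMultiHom.pow {d : ι → ℕ} {F : MvPolynomial (MPVar n) Qbar}
    (hF : IsMultiHom n d F) (k : ℕ) : IsMultiHom n (k • d) (F ^ k) := by
  have h := IsMultiHom.prod (Finset.range k) (fun _ => d) (fun _ => F) (fun _ _ => hF)
  simpa using h

/-- change of the name of the multidegree -/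
theorem IsMultiHom.congr {d d' : ι → ℕ} {F : MvPolynomial (MPVar n) Qbar}
    (hF : IsMultiHom n d F) (h : d = d') : IsMultiHom n d' F := h ▸ hF

/-- the action of a sign -/
theorem IsMultiHom.units_smul {d : ι → ℕ} {F : MvPolynomial (MPVar n) Qbar}
    (hF : IsMultiHom n d F) (ε : ℤˣ) : IsMultiHom n d (ε • F) := by
  rcases Int.units_eq_one_or ε with h | h
  · rw [h, one_smul]; exact hF
  · rw [h, Units.neg_smul, one_smul]; exact hF.neg

/-- the determinant of a square matrix whose rows consist of forms of multidegree `δ r`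
(depending on the row `r`) has multidegree `∑ r, δ r`. -/
theorem IsMultiHom.det_rows {D : ℕ} {δ : Fin D → ι → ℕ}
    (M : Matrix (Fin D) (Fin D) (MvPolynomial (MPVar n) Qbar))
    (hM : ∀ a b, IsMultiHom n (δ a) (M a b)) : IsMultiHom n (∑ r, δ r) M.det := by
  rw [Matrix.det_apply]
  refine IsMultiHom.sum _ _ fun σ _ => ?_
  refine IsMultiHom.units_smul ?_ _
  have h := IsMultiHom.prod Finset.univ (fun i => δ (σ i)) (fun i => M (σ i) i)
    (fun i _ => hM (σ i) i)
  refine h.congr ?_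
  exact Equiv.sum_comp σ δ

/-- the determinant of a square matrix of forms of multidegree `δ` has multidegree `D • δ`. -/
theorem IsMultiHom.det {D : ℕ} {δ : ι → ℕ}
    (M : Matrix (Fin D) (Fin D) (MvPolynomial (MPVar n) Qbar))
    (hM : ∀ a b, IsMultiHom n δ (M a b)) : IsMultiHom n (D • δ) M.det := by
  refine (IsMultiHom.det_rows (δ := fun _ => δ) M hM).congr ?_
  simp

/-- the entries of the adjugate of a square matrix of forms of multidegree `δ` have
multidegree `(D - 1) • δ`. -/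
theorem IsMultiHom.adjugate {D : ℕ} {δ : ι → ℕ}
    (M : Matrix (Fin D) (Fin D) (MvPolynomial (MPVar n) Qbar))
    (hM : ∀ a b, IsMultiHom n δ (M a b)) (a b : Fin D) :
    IsMultiHom n ((D - 1) • δ) (M.adjugate a b) := by
  classical
  rw [Matrix.adjugate_apply]
  have h := IsMultiHom.det_rows (δ := fun r => if r = b then 0 else δ)
    (M.updateRow b (Pi.single a 1)) (fun r c => by
      by_cases hr : r = b
      · subst hr
        rw [if_pos rfl, Matrix.updateRow_self]
        by_cases hc : c = a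
        · subst hc
          rw [Pi.single_eq_same]
          exact isMultiHom_one
        · rw [Pi.single_eq_of_ne hc]
          exact isMultiHom_zero _
      · rw [if_neg hr, Matrix.updateRow_ne hr]
        exact hM r c)
  refine h.congr ?_
  rw [Finset.sum_ite, Finset.sum_const_zero, zero_add, Finset.sum_const]
  congr 1
  rw [Finset.filter_ne' Finset.univ b, Finset.card_erase_of_mem (Finset.mem_univ b),
    Finset.card_univ, Fintype.card_fin]

/-- a homogeneous polynomial in the variables of the factor `i` -/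
def inFactor (i : ι) (S : MvPolynomial (Fin (n i + 1)) Qbar) : MvPolynomial (MPVar n) Qbar :=
  rename (fun a => (⟨i, a⟩ : MPVar n)) S

theorem eval_inFactor (i : ι) (S : MvPolynomial (Fin (n i + 1)) Qbar)
    (y : ∀ i, Fin (n i + 1) → Qbar) :
    eval (mpPoint n y) (inFactor i S) = eval (y i) S := by
  unfold inFactor
  rw [MvPolynomial.eval_rename]
  rfl

theorem isMultiHom_inFactor (i : ι) {S : MvPolynomial (Fin (n i + 1)) Qbar} {k : ℕ}
    (hS : S.IsHomogeneous k) : IsMultiHom n (Pi.single i k) (inFactor i S) := by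
  classical
  have hinj : Function.Injective (fun a : Fin (n i + 1) => (⟨i, a⟩ : MPVar n)) := by
    intro a b h
    exact eq_of_heq (Sigma.mk.inj_iff.mp h).2
  intro m hm i'
  unfold inFactor at hm
  rw [MvPolynomial.support_rename_of_injective hinj, Finset.mem_image] at hm
  obtain ⟨m₀, hm₀, rfl⟩ := hm
  have hdeg : ∑ a : Fin (n i + 1), m₀ a = k := by
    have h1 := hS (MvPolynomial.mem_support_iff.mp hm₀)
    rw [← h1, Finsupp.weight_apply, Finsupp.sum_fintype _ _ (fun _ => by simp)]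
    simp
  by_cases hi : i' = i
  · subst hi
    rw [Pi.single_eq_same, ← hdeg]
    refine Finset.sum_congr rfl fun a _ => ?_
    exact Finsupp.mapDomain_apply hinj m₀ a
  · rw [Pi.single_eq_of_ne hi]
    refine Finset.sum_eq_zero fun a _ => ?_
    refine Finsupp.mapDomain_of_notMem_range _ _ ?_
    rintro ⟨b, hb⟩
    exact hi (Sigma.mk.inj_iff.mp hb).1.symm

end Fermat.Agent.S17
end
end MergeWrap_S17_H_L7_MultiHom

section MergeWrap_S17_H_L7_Cramer -- from S17/H/L7/Cramer.lean

set_option autoImplicit false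

/-!
# S17, package H, seat L7, piece D4: Cramer's rule for a tall matrix

`M` is an `E × D` matrix (rows `Fin E`, columns `Fin D`), `I : Fin D → Fin E` a choice of rows,
`M_I = M.submatrix I id` the square matrix of the chosen rows.
`cram M I w = adj(M_I) (w ∘ I)`: if `w = M k` then `cram M I w = det(M_I) k`.
Pure linear algebra (Mathlib `Matrix.adjugate`, `Matrix.det`).
-/

noncomputable section

namespace Fermat.Agent.S17.L7

open Matrix

variable {R : Type*} [CommRing R] {E D : ℕ}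

/-- the square matrix of the rows `I` -/
def rowsOf (M : Matrix (Fin E) (Fin D) R) (I : Fin D → Fin E) : Matrix (Fin D) (Fin D) R :=
  M.submatrix I id

/-- Cramer's vector: `adj(M_I) (w ∘ I)` -/
def cram (M : Matrix (Fin E) (Fin D) R) (I : Fin D → Fin E) (w : Fin E → R) : Fin D → R :=
  (rowsOf M I).adjugate *ᵥ (w ∘ I)

theorem cram_apply (M : Matrix (Fin E) (Fin D) R) (I : Fin D → Fin E) (w : Fin E → R)
    (s : Fin D) : cram M I w s = ∑ t, (rowsOf M I).adjugate s t * w (I t) := rfl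

/-- the chosen rows of `M k` are `M_I k`. -/
theorem mulVec_comp_rows (M : Matrix (Fin E) (Fin D) R) (I : Fin D → Fin E) (k : Fin D → R) :
    (M *ᵥ k) ∘ I = rowsOf M I *ᵥ k := by
  funext t
  rfl

/-- (C1) Cramer: `adj(M_I) ((M k) ∘ I) = det(M_I) k`. -/
theorem cram_mulVec (M : Matrix (Fin E) (Fin D) R) (I : Fin D → Fin E) (k : Fin D → R) :
    cram M I (M *ᵥ k) = (rowsOf M I).det • k := by
  unfold cram
  rw [mulVec_comp_rows, Matrix.mulVec_mulVec, Matrix.adjugate_mul, Matrix.smul_mulVec,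
    Matrix.one_mulVec]

/-- (C1') the Cramer identities hold for every vector in the range of `M`. -/
theorem det_smul_eq_mulVec_cram (M : Matrix (Fin E) (Fin D) R) (I : Fin D → Fin E)
    (k : Fin D → R) :
    (rowsOf M I).det • (M *ᵥ k) = M *ᵥ cram M I (M *ᵥ k) := by
  rw [cram_mulVec, Matrix.mulVec_smul]

theorem rowsOf_map {S : Type*} [CommRing S] (f : R →+* S) (M : Matrix (Fin E) (Fin D) R)
    (I : Fin D → Fin E) : rowsOf (M.map f) I = (rowsOf M I).map f := rfl

/-- (C4) compatibility with ring homomorphisms. -/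
theorem map_cram {S : Type*} [CommRing S] (f : R →+* S) (M : Matrix (Fin E) (Fin D) R)
    (I : Fin D → Fin E) (w : Fin E → R) (s : Fin D) :
    f (cram M I w s) = cram (M.map f) I (fun ρ => f (w ρ)) s := by
  rw [cram_apply, cram_apply, map_sum]
  refine Finset.sum_congr rfl fun t _ => ?_
  rw [map_mul, rowsOf_map]
  congr 1
  have h := RingHom.map_adjugate f (rowsOf M I)
  have h2 := congrFun (congrFun h s) t
  simpa [RingHom.mapMatrix_apply] using h2

theorem map_det_rowsOf {S : Type*} [CommRing S] (f : R →+* S) (M : Matrix (Fin E) (Fin D) R)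
    (I : Fin D → Fin E) :
    f (rowsOf M I).det = (rowsOf (M.map f) I).det := by
  rw [rowsOf_map, RingHom.map_det]
  rfl

section field

variable {K : Type*} [Field K]

/-- (C2) an injective tall matrix over a field has a nonzero maximal minor. -/
theorem exists_det_rowsOf_ne_zero (M : Matrix (Fin E) (Fin D) K)
    (hM : ∀ k : Fin D → K, M *ᵥ k = 0 → k = 0) :
    ∃ I : Fin D → Fin E, (rowsOf M I).det ≠ 0 := by
  classical
  -- the rank of `M` is `D`
  have hinj : Function.Injective M.mulVecLin := by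
    rw [← LinearMap.ker_eq_bot, LinearMap.ker_eq_bot']
    intro k hk
    exact hM k hk
  have hrank : M.rank = D := by
    rw [Matrix.rank, LinearMap.finrank_range_of_inj hinj, Module.finrank_fintype_fun_eq_card,
      Fintype.card_fin]
  have hrow : Module.finrank K (Submodule.span K (Set.range M.row)) = D := by
    rw [← Matrix.rank_eq_finrank_span_row, hrank]
  obtain ⟨f, hf, -, hfli⟩ := Submodule.exists_fun_fin_finrank_span_eq K (Set.range M.row)
  choose J hJ using hf
  -- reindex along `Fin D ≃ Fin (finrank ..)`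
  let e : Fin D ≃ Fin (Module.finrank K (Submodule.span K (Set.range M.row))) :=
    finCongr hrow.symm
  refine ⟨fun t => J (e t), ?_⟩
  have hli : LinearIndependent K (rowsOf M (fun t => J (e t))).row := by
    have h1 : (rowsOf M (fun t => J (e t))).row = f ∘ e := by
      funext t
      show M.row (J (e t)) = f (e t)
      exact hJ (e t)
    rw [h1]
    exact hfli.comp _ e.injective
  have hunit := Matrix.linearIndependent_rows_iff_isUnit.mp hli
  exact ((Matrix.isUnit_iff_isUnit_det _).mp hunit).ne_zero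

/-- (C3) if the Cramer identity holds for `w` at a nonzero minor, `w` is in the range of `M`. -/
theorem exists_mulVec_eq_of_cram (M : Matrix (Fin E) (Fin D) K) (I : Fin D → Fin E)
    (hI : (rowsOf M I).det ≠ 0) (w : Fin E → K)
    (hw : (rowsOf M I).det • w = M *ᵥ cram M I w) :
    ∃ k : Fin D → K, M *ᵥ k = w ∧ cram M I w = (rowsOf M I).det • k := by
  refine ⟨(rowsOf M I).det⁻¹ • cram M I w, ?_, ?_⟩
  · rw [Matrix.mulVec_smul, ← hw, smul_smul, inv_mul_cancel₀ hI, one_smul]
  · rw [smul_smul, mul_inv_cancel₀ hI, one_smul]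

end field

end Fermat.Agent.S17.L7
end
end MergeWrap_S17_H_L7_Cramer

section MergeWrap_S17_H_L7_Forms -- from S17/H/L7/Forms.lean

set_option autoImplicit false
set_option linter.unusedVariables false
set_option linter.unusedSectionVars false

/-!
# S17, package H, seat L7, piece D5: the generic forms (curve-free)

Factors of the multi-projective space: the point `P` (`ℙ^r`), the zeros `c_i`, `i : Fin N`
(`ℙ^r` each), the section `f` (`ℙ^d`).  Data: evaluation points `q ρ`, values `β ρ t` of the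
basis of `V_j` and `β' ρ s` of the basis of `V_{N-j}` at these points, polynomial representatives
`B' s` of the basis of `V_{N-j}`.

* `genM`   : the generic matrix of `k ↦ (values of f k)`,
* `genW μ` : the generic values of the product of linear forms `L_μ`,
* `psi I μ`: the Cramer form `Σ_s [adj(M_I) (w_μ)_I]_s B'_s(y)`,
* `cramEq I μ ρ` : the Cramer identity `det(M_I) w_μ ρ - (M adj(M_I) (w_μ)_I) ρ`.
-/

noncomputable section

namespace Fermat.Agent.S17.L7

open MvPolynomial Matrix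

/-- the factors: the point, the zeros, the section -/
abbrev Fac (N : ℕ) : Type := Unit ⊕ (Fin N ⊕ Unit)

/-- the factor of the point `P` -/
abbrev facP (N : ℕ) : Fac N := Sum.inl ()
/-- the factor of the zero `c_i` -/
abbrev facC {N : ℕ} (i : Fin N) : Fac N := Sum.inr (Sum.inl i)
/-- the factor of the section `f` -/
abbrev facF (N : ℕ) : Fac N := Sum.inr (Sum.inr ())

/-- dimensions of the factors -/
abbrev dims (r d N : ℕ) : Fac N → ℕ :=
  Sum.elim (fun _ => r) (Sum.elim (fun _ => r) (fun _ => d))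

variable {r d N D E : ℕ}

/-- a point of the multi-projective space -/
def mkPoint (yP : Fin (r + 1) → Qbar) (yC : Fin N → Fin (r + 1) → Qbar)
    (yF : Fin (d + 1) → Qbar) : ∀ i : Fac N, Fin (dims r d N i + 1) → Qbar
  | Sum.inl _ => yP
  | Sum.inr (Sum.inl i) => yC i
  | Sum.inr (Sum.inr _) => yF

/-- the polynomial ring of the forms -/
abbrev PolyRing (r d N : ℕ) : Type := MvPolynomial (MPVar (dims r d N)) Qbar

/-- variable of a zero -/
def XC (r d : ℕ) {N : ℕ} (i : Fin N) (a : Fin (r + 1)) : PolyRing r d N :=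
  X (⟨facC i, a⟩ : MPVar (dims r d N))

/-- variable of the section -/
def XF (r d N : ℕ) (t : Fin (d + 1)) : PolyRing r d N :=
  X (⟨facF N, t⟩ : MPVar (dims r d N))

/-- index pairs -/
abbrev Pair (r : ℕ) : Type := Fin (r + 1) × Fin (r + 1)

/-- multidegrees -/
def degP (r d N : ℕ) (k : ℕ) : Fac N → ℕ := Pi.single (facP N) k
def degF (r d N : ℕ) (k : ℕ) : Fac N → ℕ := Pi.single (facF N) k
def degC (r d N : ℕ) : Fac N → ℕ := fun i => Sum.elim (fun _ => 0) (Sum.elim (fun _ => 1) (fun _ => 0)) i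

/-- the generic value of `f` at the evaluation point `ρ` -/
def genF (r N : ℕ) (β : Fin E → Fin (d + 1) → Qbar) (ρ : Fin E) : PolyRing r d N :=
  ∑ t, C (β ρ t) * XF r d N t

/-- the generic matrix of `k ↦ values of f k` -/
def genM (r N : ℕ) (β : Fin E → Fin (d + 1) → Qbar) (β' : Fin E → Fin D → Qbar) :
    Matrix (Fin E) (Fin D) (PolyRing r d N) :=
  fun ρ s => genF r N β ρ * C (β' ρ s)

/-- the generic values of the product of linear forms -/
def genW (d : ℕ) (q : Fin E → Fin (r + 1) → Qbar) (μ : Fin N → Pair r) (ρ : Fin E) :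
    PolyRing r d N :=
  ∏ i, (XC r d i (μ i).2 * C (q ρ (μ i).1) - XC r d i (μ i).1 * C (q ρ (μ i).2))

/-- the Cramer forms -/
def psi (q : Fin E → Fin (r + 1) → Qbar) (β : Fin E → Fin (d + 1) → Qbar)
    (β' : Fin E → Fin D → Qbar) (B' : Fin D → MvPolynomial (Fin (r + 1)) Qbar)
    (I : Fin D → Fin E) (μ : Fin N → Pair r) : PolyRing r d N :=
  ∑ s, cram (genM r N β β') I (genW d q μ) s * inFactor (n := dims r d N) (facP N) (B' s)

/-- the Cramer identities -/
def cramEq (q : Fin E → Fin (r + 1) → Qbar) (β : Fin E → Fin (d + 1) → Qbar)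
    (β' : Fin E → Fin D → Qbar) (I : Fin D → Fin E) (μ : Fin N → Pair r) (ρ : Fin E) :
    PolyRing r d N :=
  (rowsOf (genM r N β β') I).det * genW d q μ ρ
    - (genM r N β β' *ᵥ cram (genM r N β β') I (genW d q μ)) ρ

/-! ### evaluation -/

section eval

variable (yP : Fin (r + 1) → Qbar) (yC : Fin N → Fin (r + 1) → Qbar) (yF : Fin (d + 1) → Qbar)

/-- the value of `f` at the evaluation point `ρ` -/
def valF (β : Fin E → Fin (d + 1) → Qbar) (yF : Fin (d + 1) → Qbar) (ρ : Fin E) : Qbar :=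
  ∑ t, β ρ t * yF t

/-- the matrix of `k ↦ values of f k` -/
def valM (β : Fin E → Fin (d + 1) → Qbar) (β' : Fin E → Fin D → Qbar)
    (yF : Fin (d + 1) → Qbar) : Matrix (Fin E) (Fin D) Qbar :=
  fun ρ s => valF β yF ρ * β' ρ s

/-- the values of the product of linear forms -/
def valW (q : Fin E → Fin (r + 1) → Qbar) (yC : Fin N → Fin (r + 1) → Qbar)
    (μ : Fin N → Pair r) (ρ : Fin E) : Qbar :=
  ∏ i, (yC i (μ i).2 * q ρ (μ i).1 - yC i (μ i).1 * q ρ (μ i).2)

theorem eval_XC (i : Fin N) (a : Fin (r + 1)) :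
    eval (mpPoint (dims r d N) (mkPoint yP yC yF)) (XC r d i a) = yC i a := by
  unfold XC
  rw [eval_X]
  rfl

theorem eval_XF (t : Fin (d + 1)) :
    eval (mpPoint (dims r d N) (mkPoint yP yC yF)) (XF r d N t) = yF t := by
  unfold XF
  rw [eval_X]
  rfl

theorem eval_genF (β : Fin E → Fin (d + 1) → Qbar) (ρ : Fin E) :
    eval (mpPoint (dims r d N) (mkPoint yP yC yF)) (genF r N β ρ) = valF β yF ρ := by
  unfold genF valF
  rw [map_sum]
  refine Finset.sum_congr rfl fun t _ => ?_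
  rw [map_mul, eval_C, eval_XF]

theorem eval_genM (β : Fin E → Fin (d + 1) → Qbar) (β' : Fin E → Fin D → Qbar) :
    (genM r N β β').map (eval (mpPoint (dims r d N) (mkPoint yP yC yF))) = valM β β' yF := by
  ext ρ s
  simp only [Matrix.map_apply, genM, valM, map_mul, eval_C, eval_genF]

theorem eval_genW (q : Fin E → Fin (r + 1) → Qbar) (μ : Fin N → Pair r) (ρ : Fin E) :
    eval (mpPoint (dims r d N) (mkPoint yP yC yF)) (genW d q μ ρ) = valW q yC μ ρ := by
  unfold genW valW
  rw [map_prod]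
  refine Finset.prod_congr rfl fun i _ => ?_
  rw [map_sub, map_mul, map_mul, eval_C, eval_C, eval_XC, eval_XC]

theorem eval_psi (q : Fin E → Fin (r + 1) → Qbar) (β : Fin E → Fin (d + 1) → Qbar)
    (β' : Fin E → Fin D → Qbar) (B' : Fin D → MvPolynomial (Fin (r + 1)) Qbar)
    (I : Fin D → Fin E) (μ : Fin N → Pair r) :
    eval (mpPoint (dims r d N) (mkPoint yP yC yF)) (psi q β β' B' I μ)
      = ∑ s, cram (valM β β' yF) I (valW q yC μ) s * eval yP (B' s) := by
  unfold psi
  rw [map_sum]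
  refine Finset.sum_congr rfl fun s _ => ?_
  rw [map_mul, map_cram, eval_genM, eval_inFactor]
  have h1 : (fun ρ => eval (mpPoint (dims r d N) (mkPoint yP yC yF)) (genW d q μ ρ))
      = valW q yC μ := funext fun ρ => eval_genW yP yC yF q μ ρ
  rw [h1]
  rfl

theorem eval_cramEq (q : Fin E → Fin (r + 1) → Qbar) (β : Fin E → Fin (d + 1) → Qbar)
    (β' : Fin E → Fin D → Qbar) (I : Fin D → Fin E) (μ : Fin N → Pair r) (ρ : Fin E) :
    eval (mpPoint (dims r d N) (mkPoint yP yC yF)) (cramEq q β β' I μ ρ)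
      = (rowsOf (valM β β' yF) I).det * valW q yC μ ρ
        - (valM β β' yF *ᵥ cram (valM β β' yF) I (valW q yC μ)) ρ := by
  unfold cramEq
  have h1 : (fun ρ => eval (mpPoint (dims r d N) (mkPoint yP yC yF)) (genW d q μ ρ))
      = valW q yC μ := funext fun ρ => eval_genW yP yC yF q μ ρ
  rw [map_sub, map_mul, map_det_rowsOf, eval_genM, eval_genW]
  congr 1
  simp only [Matrix.mulVec, dotProduct, map_sum, map_mul, map_cram, eval_genM, h1]
  refine Finset.sum_congr rfl fun s _ => ?_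
  congr 1
  have := congrFun (congrFun (eval_genM yP yC yF β β') ρ) s
  simpa [Matrix.map_apply] using this

theorem eval_det_rowsOf_genM (β : Fin E → Fin (d + 1) → Qbar) (β' : Fin E → Fin D → Qbar)
    (I : Fin D → Fin E) :
    eval (mpPoint (dims r d N) (mkPoint yP yC yF)) (rowsOf (genM r N β β') I).det
      = (rowsOf (valM β β' yF) I).det := by
  rw [map_det_rowsOf, eval_genM]

end eval

/-! ### multidegrees -/

section degrees

theorem isMultiHom_XC (i : Fin N) (a : Fin (r + 1)) :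
    IsMultiHom (dims r d N) (Pi.single (facC i) 1) (XC r d i a) :=
  isMultiHom_X (n := dims r d N) (facC i) a

theorem isMultiHom_genF (β : Fin E → Fin (d + 1) → Qbar) (ρ : Fin E) :
    IsMultiHom (dims r d N) (degF r d N 1) (genF r N β ρ) := by
  unfold genF
  refine IsMultiHom.sum _ _ fun t _ => ?_
  exact IsMultiHom.C_mul _ (isMultiHom_X (n := dims r d N) (facF N) t)

theorem isMultiHom_genM (β : Fin E → Fin (d + 1) → Qbar) (β' : Fin E → Fin D → Qbar)
    (ρ : Fin E) (s : Fin D) :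
    IsMultiHom (dims r d N) (degF r d N 1) (genM r N β β' ρ s) := by
  unfold genM
  rw [mul_comm]
  exact IsMultiHom.C_mul _ (isMultiHom_genF β ρ)

theorem sum_single_facC :
    (∑ i : Fin N, (Pi.single (facC i) 1 : Fac N → ℕ)) = degC r d N := by
  funext x
  rw [Finset.sum_apply]
  rcases x with x | x | x
  · simp [degC, Pi.single_apply]
  · simp [degC, Pi.single_apply]
  · simp [degC, Pi.single_apply]

theorem isMultiHom_genW (q : Fin E → Fin (r + 1) → Qbar) (μ : Fin N → Pair r) (ρ : Fin E) :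
    IsMultiHom (dims r d N) (degC r d N) (genW d q μ ρ) := by
  unfold genW
  have := IsMultiHom.prod (n := dims r d N) (Finset.univ : Finset (Fin N))
    (fun i => (Pi.single (facC i) 1 : Fac N → ℕ))
    (fun i => XC r d i (μ i).2 * C (q ρ (μ i).1) - XC r d i (μ i).1 * C (q ρ (μ i).2))
    (fun i _ => by
      refine IsMultiHom.sub ?_ ?_
      · rw [mul_comm]; exact IsMultiHom.C_mul _ (isMultiHom_XC i _)
      · rw [mul_comm]; exact IsMultiHom.C_mul _ (isMultiHom_XC i _))
  rwa [sum_single_facC] at this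

/-- the multidegree of the Cramer forms -/
def degPsi (r d N D k : ℕ) : Fac N → ℕ :=
  (D - 1) • degF r d N 1 + degC r d N + degP r d N k

/-- the multidegree of the Cramer identities -/
def degCramEq (r d N D : ℕ) : Fac N → ℕ :=
  D • degF r d N 1 + degC r d N

theorem isMultiHom_det_genM (β : Fin E → Fin (d + 1) → Qbar) (β' : Fin E → Fin D → Qbar)
    (I : Fin D → Fin E) :
    IsMultiHom (dims r d N) (D • degF r d N 1) (rowsOf (genM r N β β') I).det :=
  IsMultiHom.det _ fun a b => isMultiHom_genM β β' (I a) b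

theorem isMultiHom_cram (q : Fin E → Fin (r + 1) → Qbar) (β : Fin E → Fin (d + 1) → Qbar)
    (β' : Fin E → Fin D → Qbar) (I : Fin D → Fin E) (μ : Fin N → Pair r) (s : Fin D) :
    IsMultiHom (dims r d N) ((D - 1) • degF r d N 1 + degC r d N)
      (cram (genM r N β β') I (genW d q μ) s) := by
  rw [cram_apply]
  refine IsMultiHom.sum _ _ fun t _ => ?_
  exact IsMultiHom.mul
    (IsMultiHom.adjugate _ (fun a b => isMultiHom_genM β β' (I a) b) s t)
    (isMultiHom_genW q μ (I t))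

theorem isMultiHom_psi (q : Fin E → Fin (r + 1) → Qbar) (β : Fin E → Fin (d + 1) → Qbar)
    (β' : Fin E → Fin D → Qbar) (B' : Fin D → MvPolynomial (Fin (r + 1)) Qbar) {k : ℕ}
    (hB' : ∀ s, (B' s).IsHomogeneous k)
    (I : Fin D → Fin E) (μ : Fin N → Pair r) :
    IsMultiHom (dims r d N) (degPsi r d N D k) (psi q β β' B' I μ) := by
  unfold psi degPsi
  refine IsMultiHom.sum _ _ fun s _ => ?_
  exact IsMultiHom.mul (isMultiHom_cram q β β' I μ s)
    (isMultiHom_inFactor (n := dims r d N) (facP N) (hB' s))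

theorem isMultiHom_cramEq (hD : 1 ≤ D) (q : Fin E → Fin (r + 1) → Qbar)
    (β : Fin E → Fin (d + 1) → Qbar)
    (β' : Fin E → Fin D → Qbar) (I : Fin D → Fin E) (μ : Fin N → Pair r) (ρ : Fin E) :
    IsMultiHom (dims r d N) (degCramEq r d N D) (cramEq q β β' I μ ρ) := by
  unfold cramEq degCramEq
  refine IsMultiHom.sub ?_ ?_
  · exact IsMultiHom.mul (isMultiHom_det_genM β β' I) (isMultiHom_genW q μ ρ)
  · simp only [Matrix.mulVec, dotProduct]
    refine IsMultiHom.sum _ _ fun s _ => ?_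
    have h1 := IsMultiHom.mul (isMultiHom_genM β β' ρ s) (isMultiHom_cram q β β' I μ s)
    refine h1.congr ?_
    have h2 : D = 1 + (D - 1) := by omega
    conv_rhs => rw [h2, add_smul, one_smul]
    rw [add_assoc]

end degrees

end Fermat.Agent.S17.L7
end
end MergeWrap_S17_H_L7_Forms

section MergeWrap_S17_H_L7_GeomA -- from S17/H/L7/GeomA.lean

/-!
# S17/H seat L7, piece D3a: linear forms through a point, values of sections

`linForm φ x p = x_b φ_a - x_a φ_b` (`p = (a,b)`), `prodLin φ x μ = ∏_i linForm φ (x i) (μ i)`,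
`sval φ k P s` = the value at `P` of the section `s ∈ V_k`, `cnt c Q = #{i | c i = Q}`.
-/

set_option autoImplicit false
set_option linter.unusedSectionVars false
set_option linter.unusedVariables false

noncomputable section

open AlgebraicCurve MvPolynomial

namespace Fermat.Agent.S17.L7

open Fermat.Agent.RR

variable {F : Type*} [Field F] [Algebra Qbar F]
variable {P₀ : Place Qbar F} {e r : ℕ} {φ : Fin (r + 1) → F}

/-- the linear form `x_b φ_a - x_a φ_b` through the point with coordinates `x` -/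
def linForm (φ : Fin (r + 1) → F) (x : Fin (r + 1) → Qbar) (p : Pair r) : F :=
  algebraMap Qbar F (x p.2) * φ p.1 - algebraMap Qbar F (x p.1) * φ p.2

/-- the product of the linear forms -/
def prodLin (φ : Fin (r + 1) → F) {N : ℕ} (x : Fin N → Fin (r + 1) → Qbar)
    (μ : Fin N → Pair r) : F :=
  ∏ i, linForm φ (x i) (μ i)

/-- the value at `P` of a section of `V_k` -/
def sval (φ : Fin (r + 1) → F) (k : ℕ) (P : Place Qbar F) (s : F) : Qbar :=
  val P (s / φ (pivot φ P) ^ k)

/-- the number of indices `i` with `c i = Q` -/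
def cnt {N : ℕ} (c : Fin N → Place Qbar F) (Q : Place Qbar F) : ℕ :=
  open Classical in (Finset.univ.filter fun i => c i = Q).card

/-! ### values of sections -/

/-- the basis functions are sections of `V_1` (D3a, helper63) -/
theorem phi_mem_secSpace_one (hφ : IsEmbBasis P₀ e φ) (a : Fin (r + 1)) :
    φ a ∈ secSpace P₀ e 1 := by
  rw [← hφ.span_eq]
  exact Submodule.subset_span ⟨a, rfl⟩

/-- a section of `V_k` divided by the `k`-th power of the pivot is regular at `P` -/
theorem ord_div_pivot_pow_nonneg (h : IsRRField Qbar F) (hφ : IsEmbBasis P₀ e φ)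
    (he : 2 * genusFF Qbar F ≤ e) (k : ℕ) (P : Place Qbar F) {s : F}
    (hs : s ∈ secSpace P₀ e k) : 0 ≤ P.ord (s / φ (pivot φ P) ^ k) := by
  rcases eq_or_ne s 0 with rfl | hs0
  · rw [zero_div, P.ord_zero]
  · rw [ord_div_pivot_pow h hφ he k hs0 P]
    exact zdiv_nonneg h k hs hs0 P

/-- products of sections of `V_1` -/
theorem prod_mem_secSpace_card {α : Type*} (t : Finset α) (s : α → F)
    (hs : ∀ i ∈ t, s i ∈ secSpace P₀ e 1) : ∏ i ∈ t, s i ∈ secSpace P₀ e t.card := by
  classical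
  induction t using Finset.induction_on with
  | empty =>
    rw [Finset.prod_empty, Finset.card_empty]
    exact one_mem_secSpace_zero
  | insert a t ha ih =>
    rw [Finset.prod_insert ha, Finset.card_insert_of_notMem ha, add_comm]
    exact gauss_secSpace_mul_mem P₀ e 1 t.card (hs a (Finset.mem_insert_self a t))
      (ih fun i hi => hs i (Finset.mem_insert_of_mem hi))

theorem sval_zero (k : ℕ) (P : Place Qbar F) : sval φ k P (0 : F) = 0 := by
  unfold sval val
  rw [zero_div]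
  exact Pts.ev_zero P

theorem sval_one (P : Place Qbar F) : sval φ 0 P (1 : F) = 1 := by
  unfold sval val
  rw [pow_zero, div_one]
  exact Pts.ev_one P

theorem linForm_mem (hφ : IsEmbBasis P₀ e φ) (x : Fin (r + 1) → Qbar) (p : Pair r) :
    linForm φ x p ∈ secSpace P₀ e 1 := by
  unfold linForm
  rw [← Algebra.smul_def, ← Algebra.smul_def]
  exact Submodule.sub_mem _ (Submodule.smul_mem _ _ (phi_mem_secSpace_one hφ _))
    (Submodule.smul_mem _ _ (phi_mem_secSpace_one hφ _))

theorem prodLin_mem (hφ : IsEmbBasis P₀ e φ) {N : ℕ} (x : Fin N → Fin (r + 1) → Qbar)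
    (μ : Fin N → Pair r) : prodLin φ x μ ∈ secSpace P₀ e N := by
  have := prod_mem_secSpace_card (P₀ := P₀) (e := e) Finset.univ
    (fun i => linForm φ (x i) (μ i)) (fun i _ => linForm_mem hφ (x i) (μ i))
  rwa [Finset.card_univ, Fintype.card_fin] at this

theorem sval_add (h : IsRRField Qbar F) (hφ : IsEmbBasis P₀ e φ)
    (he : 2 * genusFF Qbar F ≤ e) (k : ℕ) (P : Place Qbar F) {s s' : F}
    (hs : s ∈ secSpace P₀ e k) (hs' : s' ∈ secSpace P₀ e k) :
    sval φ k P (s + s') = sval φ k P s + sval φ k P s' := by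
  unfold sval val
  rw [add_div]
  exact Pts.ev_add h P (ord_div_pivot_pow_nonneg h hφ he k P hs)
    (ord_div_pivot_pow_nonneg h hφ he k P hs')

theorem sval_smul (h : IsRRField Qbar F) (hφ : IsEmbBasis P₀ e φ)
    (he : 2 * genusFF Qbar F ≤ e) (k : ℕ) (P : Place Qbar F) (a : Qbar) {s : F}
    (hs : s ∈ secSpace P₀ e k) :
    sval φ k P (a • s) = a * sval φ k P s := by
  unfold sval val
  rw [smul_div_assoc]
  exact Pts.ev_smul_const h P a (ord_div_pivot_pow_nonneg h hφ he k P hs)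

theorem sval_sum (h : IsRRField Qbar F) (hφ : IsEmbBasis P₀ e φ)
    (he : 2 * genusFF Qbar F ≤ e) (k : ℕ) (P : Place Qbar F) {α : Type*} (t : Finset α)
    (a : α → Qbar) (s : α → F) (hs : ∀ i ∈ t, s i ∈ secSpace P₀ e k) :
    sval φ k P (∑ i ∈ t, a i • s i) = ∑ i ∈ t, a i * sval φ k P (s i) := by
  classical
  induction t using Finset.induction_on with
  | empty =>
    rw [Finset.sum_empty, Finset.sum_empty]
    exact sval_zero k P
  | insert b t hb ih =>
    rw [Finset.sum_insert hb, Finset.sum_insert hb,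
      sval_add h hφ he k P (Submodule.smul_mem _ _ (hs b (Finset.mem_insert_self b t)))
        (Submodule.sum_mem _ fun i hi =>
          Submodule.smul_mem _ _ (hs i (Finset.mem_insert_of_mem hi))),
      sval_smul h hφ he k P (a b) (hs b (Finset.mem_insert_self b t)),
      ih fun i hi => hs i (Finset.mem_insert_of_mem hi)]

theorem sval_mul (h : IsRRField Qbar F) (hφ : IsEmbBasis P₀ e φ)
    (he : 2 * genusFF Qbar F ≤ e) (P : Place Qbar F) {k k' : ℕ} {s s' : F}
    (hs : s ∈ secSpace P₀ e k) (hs' : s' ∈ secSpace P₀ e k') :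
    sval φ (k + k') P (s * s') = sval φ k P s * sval φ k' P s' :=
  val_section_mul h hφ he P hs hs'

theorem sval_linForm (h : IsRRField Qbar F) (hφ : IsEmbBasis P₀ e φ)
    (P : Place Qbar F) (x : Fin (r + 1) → Qbar) (p : Pair r) :
    sval φ 1 P (linForm φ x p) = x p.2 * coord φ P p.1 - x p.1 * coord φ P p.2 := by
  have hS : (C (x p.2) * X p.1 - C (x p.1) * X p.2 :
      MvPolynomial (Fin (r + 1)) Qbar).IsHomogeneous 1 :=
    (MvPolynomial.isHomogeneous_C_mul_X (x p.2) p.1).sub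
      (MvPolynomial.isHomogeneous_C_mul_X (x p.1) p.2)
  have h1 := val_polyRep h hφ P hS
  have h2 : aeval φ (C (x p.2) * X p.1 - C (x p.1) * X p.2 :
      MvPolynomial (Fin (r + 1)) Qbar) = linForm φ x p := by
    unfold linForm
    simp
  rw [h2] at h1
  unfold sval
  rw [h1]
  simp

theorem sval_prodLin (h : IsRRField Qbar F) (hφ : IsEmbBasis P₀ e φ)
    (he : 2 * genusFF Qbar F ≤ e) (P : Place Qbar F) {N : ℕ} (x : Fin N → Fin (r + 1) → Qbar)
    (μ : Fin N → Pair r) :
    sval φ N P (prodLin φ x μ)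
      = ∏ i, (x i (μ i).2 * coord φ P (μ i).1 - x i (μ i).1 * coord φ P (μ i).2) := by
  classical
  have key : ∀ t : Finset (Fin N), sval φ t.card P (∏ i ∈ t, linForm φ (x i) (μ i))
      = ∏ i ∈ t, (x i (μ i).2 * coord φ P (μ i).1 - x i (μ i).1 * coord φ P (μ i).2) := by
    intro t
    induction t using Finset.induction_on with
    | empty =>
      rw [Finset.prod_empty, Finset.prod_empty, Finset.card_empty]
      exact sval_one P
    | insert a t ha ih =>
      rw [Finset.prod_insert ha, Finset.prod_insert ha, Finset.card_insert_of_notMem ha,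
        add_comm t.card 1,
        sval_mul h hφ he P (linForm_mem hφ (x a) (μ a))
          (prod_mem_secSpace_card t _ fun i _ => linForm_mem hφ (x i) (μ i)),
        sval_linForm h hφ P, ih]
  have := key Finset.univ
  rw [Finset.card_univ, Fintype.card_fin] at this
  exact this

/-- a section is zero if it vanishes at more than `k e` places -/
theorem eq_zero_of_sval_eq_zero (h : IsRRField Qbar F) (hφ : IsEmbBasis P₀ e φ)
    (he : 2 * genusFF Qbar F ≤ e) (k : ℕ) {s : F} (hs : s ∈ secSpace P₀ e k) {E : ℕ}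
    (Q : Fin E → Place Qbar F) (hQ : Function.Injective Q) (hE : k * e < E)
    (hval : ∀ ρ, sval φ k (Q ρ) s = 0) : s = 0 := by
  classical
  refine eq_zero_of_val_eq_zero h hφ he k hs (Finset.univ.image Q) ?_ ?_
  · rw [Finset.card_image_of_injective _ hQ, Finset.card_univ, Fintype.card_fin]
    exact hE
  · intro P hP
    rw [Finset.mem_image] at hP
    obtain ⟨ρ, -, rfl⟩ := hP
    exact hval ρ

/-- the value of a nonzero section is nonzero iff the place is not a zero of the section -/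
theorem sval_ne_zero_iff (h : IsRRField Qbar F) (hφ : IsEmbBasis P₀ e φ)
    (he : 2 * genusFF Qbar F ≤ e) (k : ℕ) (P : Place Qbar F) {s : F}
    (hs : s ∈ secSpace P₀ e k) (hs0 : s ≠ 0) :
    sval φ k P s ≠ 0 ↔ zdiv h P₀ e k s P = 0 := by
  have hne : s / φ (pivot φ P) ^ k ≠ 0 := div_ne_zero hs0 (pow_ne_zero _ (hφ.ne_zero _))
  have hord := ord_div_pivot_pow_nonneg h hφ he k P hs
  have hiff := Pts.ev_eq_zero_iff h P hne hord
  have heq := ord_div_pivot_pow h hφ he k hs0 P
  unfold sval val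
  rw [Ne, hiff, ← heq]
  omega

end Fermat.Agent.S17.L7
end
end MergeWrap_S17_H_L7_GeomA

section MergeWrap_S17_H_L7_GeomZ2 -- from S17/H/L7/GeomZ2.lean

/-!
# S17/H seat L7, piece D3b (second half): products of linear forms with prescribed zeros

* `Z2.zdiv_mul`, `Z2.zdiv_prod` : the zero divisor is additive on products of sections.
* `Z2.exists_pair_zdiv_eq_zero`, `Z2.exists_pair_zdiv_eq_one` : linear forms through a point `c`
  which do not vanish at `Q ≠ c`, resp. vanish simply at `c`.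
* `Z2.exists_mu_zdiv_prodLin` : for every place `Q` a product of linear forms through the points
  `c i` whose zero divisor has multiplicity exactly `cnt c Q` at `Q`.
* `Z2.cnt_of_forall_quot_pf` (G6), `Z2.exists_mu_sval_ne_zero_pf` (G7).
-/

set_option autoImplicit false
set_option linter.unusedSectionVars false
set_option linter.unusedVariables false

noncomputable section

open AlgebraicCurve MvPolynomial

namespace Fermat.Agent.S17.L7.Z2

open Fermat.Agent.RR

variable {F : Type*} [Field F] [Algebra Qbar F]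
variable {P₀ : Place Qbar F} {e r : ℕ} {φ : Fin (r + 1) → F}

/-- the zero divisor is additive on products -/
theorem zdiv_mul (h : IsRRField Qbar F) (P₀ : Place Qbar F) (e j k : ℕ) {f g : F}
    (hf : f ≠ 0) (hg : g ≠ 0) (Q : Place Qbar F) :
    zdiv h P₀ e (j + k) (f * g) Q = zdiv h P₀ e j f Q + zdiv h P₀ e k g Q := by
  classical
  rw [zdiv_apply, zdiv_apply, zdiv_apply, Q.ord_mul hf hg, Finsupp.single_apply,
    Finsupp.single_apply, Finsupp.single_apply]
  split_ifs <;> push_cast <;> ring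

theorem zdiv_one_eq_zero (h : IsRRField Qbar F) (P₀ : Place Qbar F) (e : ℕ) (Q : Place Qbar F) :
    zdiv h P₀ e 0 (1 : F) Q = 0 := by
  classical
  have h1 : Q.ord (1 : F) = 0 := by
    have := Fermat.Agent.S24Res.ord_algebraMap Q (1 : Qbar)
    rwa [map_one] at this
  rw [zdiv_apply, h1, Finsupp.single_apply]
  split_ifs <;> simp

/-- the zero divisor of a product of sections of `V_1` -/
theorem zdiv_prod (h : IsRRField Qbar F) (P₀ : Place Qbar F) (e : ℕ) {α : Type*}
    (t : Finset α) (g : α → F) (hg : ∀ i ∈ t, g i ≠ 0) (Q : Place Qbar F) :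
    zdiv h P₀ e t.card (∏ i ∈ t, g i) Q = ∑ i ∈ t, zdiv h P₀ e 1 (g i) Q := by
  classical
  induction t using Finset.induction_on with
  | empty =>
    rw [Finset.prod_empty, Finset.sum_empty, Finset.card_empty]
    exact zdiv_one_eq_zero h P₀ e Q
  | insert a t ha ih =>
    rw [Finset.prod_insert ha, Finset.sum_insert ha, Finset.card_insert_of_notMem ha,
      add_comm t.card 1,
      zdiv_mul h P₀ e 1 t.card (hg a (Finset.mem_insert_self a t))
        (Finset.prod_ne_zero_iff.2 fun i hi => hg i (Finset.mem_insert_of_mem hi)),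
      ih fun i hi => hg i (Finset.mem_insert_of_mem hi)]

/-- a linear form through `c` which does not vanish at `Q ≠ c` -/
theorem exists_pair_zdiv_eq_zero (h : IsRRField Qbar F) (hφ : IsEmbBasis P₀ e φ)
    (he : 2 * genusFF Qbar F + 1 ≤ e) {Q c : Place Qbar F} (hQc : c ≠ Q) {lam : Qbar}
    (hlam : lam ≠ 0) :
    ∃ p : Pair r, linForm φ (lam • coord φ c) p ≠ 0 ∧
      zdiv h P₀ e 1 (linForm φ (lam • coord φ c) p) Q = 0 := by
  have he' : 2 * genusFF Qbar F ≤ e := by omega
  obtain ⟨a, b, hab⟩ := hφ.exists_minor_ne_zero h he (Ne.symm hQc)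
  have hval : sval φ 1 Q (linForm φ (lam • coord φ c) (a, b)) ≠ 0 := by
    rw [sval_linForm h hφ Q]
    show lam • coord φ c b * coord φ Q a - lam • coord φ c a * coord φ Q b ≠ 0
    have : lam • coord φ c b * coord φ Q a - lam • coord φ c a * coord φ Q b
        = lam * (coord φ Q a * coord φ c b - coord φ Q b * coord φ c a) := by
      simp only [smul_eq_mul]
      ring
    rw [this]
    exact mul_ne_zero hlam hab
  have hne : linForm φ (lam • coord φ c) (a, b) ≠ 0 := by
    intro h0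
    rw [h0] at hval
    exact hval (sval_zero 1 Q)
  exact ⟨(a, b), hne, (sval_ne_zero_iff h hφ he' 1 Q (linForm_mem hφ _ _) hne).1 hval⟩

/-- a linear form through `c` with a simple zero at `c` -/
theorem exists_pair_zdiv_eq_one (h : IsRRField Qbar F) (hφ : IsEmbBasis P₀ e φ)
    (he : 2 * genusFF Qbar F + 1 ≤ e) (c : Place Qbar F) {lam : Qbar} (hlam : lam ≠ 0) :
    ∃ p : Pair r, linForm φ (lam • coord φ c) p ≠ 0 ∧
      zdiv h P₀ e 1 (linForm φ (lam • coord φ c) p) c = 1 := by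
  have he' : 2 * genusFF Qbar F ≤ e := by omega
  obtain ⟨a, ha0, hord⟩ := imm_exists_simple_coord h (Finsupp.single P₀ (e : ℤ)) c
    (by rw [imm_degree_single h]; exact_mod_cast he) φ hφ.span_eq'
    (pivot φ c) (hφ.ne_zero _) (hφ.ord_pivot h he' c)
  have hlam' : algebraMap Qbar F lam ≠ 0 := by
    rw [Ne, map_eq_zero]
    exact hlam
  have hl : linForm φ (lam • coord φ c) (a, pivot φ c)
      = algebraMap Qbar F lam * (φ a - Pts.ev c (φ a / φ (pivot φ c)) • φ (pivot φ c)) := by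
    unfold linForm
    show algebraMap Qbar F (lam • coord φ c (pivot φ c)) * φ a
      - algebraMap Qbar F (lam • coord φ c a) * φ (pivot φ c) = _
    rw [hφ.coord_pivot c, smul_eq_mul, smul_eq_mul, mul_one, map_mul, Algebra.smul_def]
    show _ - algebraMap Qbar F lam * algebraMap Qbar F (Pts.ev c (φ a / φ (pivot φ c)))
      * φ (pivot φ c) = _
    ring
  have hne : linForm φ (lam • coord φ c) (a, pivot φ c) ≠ 0 := by
    rw [hl]
    exact mul_ne_zero hlam' ha0
  refine ⟨(a, pivot φ c), hne, ?_⟩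
  rw [← ord_div_pivot_pow h hφ he' 1 hne c, pow_one, hl, mul_div_assoc,
    c.ord_mul hlam' (div_ne_zero ha0 (hφ.ne_zero _)), Fermat.Agent.S24Res.ord_algebraMap,
    zero_add, hord]

/-- for every place `Q` a product of linear forms through the points `c i` whose zero divisor has
multiplicity exactly `cnt c Q` at `Q` -/
theorem exists_mu_zdiv_prodLin (h : IsRRField Qbar F) (hφ : IsEmbBasis P₀ e φ)
    (he : 2 * genusFF Qbar F + 1 ≤ e) {N : ℕ} (c : Fin N → Place Qbar F) (lam : Fin N → Qbar)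
    (hlam : ∀ i, lam i ≠ 0) (Q : Place Qbar F) :
    ∃ μ : Fin N → Pair r, prodLin φ (fun i => lam i • coord φ (c i)) μ ≠ 0 ∧
      zdiv h P₀ e N (prodLin φ (fun i => lam i • coord φ (c i)) μ) Q = (cnt c Q : ℤ) := by
  classical
  have hex : ∀ i : Fin N, ∃ p : Pair r, linForm φ (lam i • coord φ (c i)) p ≠ 0 ∧
      zdiv h P₀ e 1 (linForm φ (lam i • coord φ (c i)) p) Q = if c i = Q then 1 else 0 := by
    intro i
    by_cases hi : c i = Q
    · obtain ⟨p, hp, hp1⟩ := exists_pair_zdiv_eq_one h hφ he (c i) (hlam i)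
      refine ⟨p, hp, ?_⟩
      rw [if_pos hi, ← hi]
      exact hp1
    · obtain ⟨p, hp, hp0⟩ := exists_pair_zdiv_eq_zero h hφ he hi (hlam i)
      exact ⟨p, hp, by rw [if_neg hi]; exact hp0⟩
  choose μ hμ0 hμ using hex
  refine ⟨μ, Finset.prod_ne_zero_iff.2 fun i _ => hμ0 i, ?_⟩
  have h1 := zdiv_prod h P₀ e (Finset.univ : Finset (Fin N))
    (fun i => linForm φ (lam i • coord φ (c i)) (μ i)) (fun i _ => hμ0 i) Q
  rw [Finset.card_univ, Fintype.card_fin] at h1
  unfold prodLin
  rw [h1, Finset.sum_congr rfl fun i _ => hμ i, Finset.sum_boole]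
  unfold cnt
  congr 2

/-- the divisor `Σ_i [c i]` -/
theorem exists_divisor_cnt {N : ℕ} (h : IsRRField Qbar F) (c : Fin N → Place Qbar F) :
    ∃ C : Divisor Qbar F, (∀ Q, C Q = (cnt c Q : ℤ)) ∧ Divisor.degree C = (N : ℤ) := by
  classical
  refine ⟨∑ i, Finsupp.single (c i) (1 : ℤ), fun Q => ?_, ?_⟩
  · rw [Finsupp.finsetSum_apply]
    simp only [Finsupp.single_apply]
    rw [Finset.sum_boole]
    unfold cnt
    congr 2
  · rw [map_sum]
    simp only [degree_single_one h]
    simp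

/-- (G6) if all products of linear forms through the points `c i` are divisible by `f`, the
`c i` are the zeros of `f`. -/
theorem cnt_of_forall_quot_pf (h : IsRRField Qbar F) (hφ : IsEmbBasis P₀ e φ)
    (he : 2 * genusFF Qbar F + 1 ≤ e) (j : ℕ) {f : F} (hf : f ∈ secSpace P₀ e j) (hf0 : f ≠ 0)
    (c : Fin (j * e) → Place Qbar F) (lam : Fin (j * e) → Qbar) (hlam : ∀ i, lam i ≠ 0)
    (hq : ∀ μ : Fin (j * e) → Pair r, ∃ k, k ∈ secSpace P₀ e (j * e - j) ∧
      f * k = prodLin φ (fun i => lam i • coord φ (c i)) μ) :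
    ∀ Q, zdiv h P₀ e j f Q = (cnt c Q : ℤ) := by
  classical
  have he1 : 1 ≤ e := by omega
  have hN : j + (j * e - j) = j * e := by
    have : j ≤ j * e := Nat.le_mul_of_pos_right j he1
    omega
  have hle : ∀ Q, zdiv h P₀ e j f Q ≤ (cnt c Q : ℤ) := by
    intro Q
    obtain ⟨μ, hμ0, hμ⟩ := exists_mu_zdiv_prodLin (P₀ := P₀) h hφ he c lam hlam Q
    obtain ⟨k, hk, hfk⟩ := hq μ
    have hk0 : k ≠ 0 := by
      rintro rfl
      rw [mul_zero] at hfk
      exact hμ0 hfk.symm
    have h1 := zdiv_mul h P₀ e j (j * e - j) hf0 hk0 Q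
    rw [hN, hfk, hμ] at h1
    have h2 := zdiv_nonneg h (j * e - j) hk hk0 Q
    omega
  obtain ⟨C, hC, hCdeg⟩ := exists_divisor_cnt h c
  have hCle : zdiv h P₀ e j f ≤ C := Finsupp.le_def.2 fun Q => by rw [hC]; exact hle Q
  have h0 : C - zdiv h P₀ e j f = 0 := by
    refine eq_zero_of_nonneg_of_degree_eq_zero h (sub_nonneg.2 hCle) ?_
    rw [map_sub, hCdeg, degree_zdiv h j f, sub_self]
  intro Q
  have := congrArg (fun D : Divisor Qbar F => D Q) h0
  simp only [Finsupp.sub_apply, Finsupp.zero_apply] at this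
  rw [← hC]
  omega

/-- (G7) some quotient does not vanish at `P` -/
theorem exists_mu_sval_ne_zero_pf (h : IsRRField Qbar F) (hφ : IsEmbBasis P₀ e φ)
    (he : 2 * genusFF Qbar F + 1 ≤ e) (j : ℕ) {f : F} (hf : f ∈ secSpace P₀ e j) (hf0 : f ≠ 0)
    (c : Fin (j * e) → Place Qbar F) (lam : Fin (j * e) → Qbar) (hlam : ∀ i, lam i ≠ 0)
    (hc : ∀ Q, zdiv h P₀ e j f Q = (cnt c Q : ℤ)) (P : Place Qbar F) :
    ∃ μ : Fin (j * e) → Pair r, ∀ k, k ∈ secSpace P₀ e (j * e - j) →
      f * k = prodLin φ (fun i => lam i • coord φ (c i)) μ → sval φ (j * e - j) P k ≠ 0 := by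
  classical
  have he1 : 1 ≤ e := by omega
  have he' : 2 * genusFF Qbar F ≤ e := by omega
  have hN : j + (j * e - j) = j * e := by
    have : j ≤ j * e := Nat.le_mul_of_pos_right j he1
    omega
  obtain ⟨μ, hμ0, hμ⟩ := exists_mu_zdiv_prodLin (P₀ := P₀) h hφ he c lam hlam P
  refine ⟨μ, fun k hk hfk => ?_⟩
  have hk0 : k ≠ 0 := by
    rintro rfl
    rw [mul_zero] at hfk
    exact hμ0 hfk.symm
  have h1 := zdiv_mul h P₀ e j (j * e - j) hf0 hk0 P
  rw [hN, hfk, hμ, hc P] at h1
  refine (sval_ne_zero_iff h hφ he' (j * e - j) P hk hk0).2 ?_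
  omega

end Fermat.Agent.S17.L7.Z2
end
end MergeWrap_S17_H_L7_GeomZ2

section MergeWrap_S17_H_L7_GeomZeros -- from S17/H/L7/GeomZeros.lean

/-!
# S17/H seat L7, piece D3b (first half): the zeros of a section, with multiplicity

* `geomB_exists_enum`   : an effective finitely supported function of total mass `n` is the
                          counting function of some `c : Fin n → α`;
* `geomB_zdiv_mul`, `geomB_zdiv_prod`, `geomB_zdiv_prodLin` : zero divisors of products;
* `geomB_one_le_zdiv_of_sval_eq_zero` : a section vanishing at `P` has `Z(P) ≥ 1`;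
* `exists_zeros'`  (G4) : the zeros of a section of `V_j`, counted with multiplicity;
* `exists_quot'`   (G5) : the product of linear forms through the zeros of `f` is divisible by `f`.
-/

set_option autoImplicit false
set_option linter.unusedSectionVars false
set_option linter.unusedVariables false

noncomputable section

open AlgebraicCurve MvPolynomial

namespace Fermat.Agent.S17.L7

open Fermat.Agent.RR

/-! ### enumeration of an effective divisor -/

theorem geomB_card_filter_cons {α : Type*} {n : ℕ} (a : α) (c : Fin n → α) (b : α) :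
    open Classical in
    (Finset.univ.filter fun i : Fin (n + 1) => (Fin.cons a c : Fin (n + 1) → α) i = b).card
      = (if a = b then 1 else 0) + (Finset.univ.filter fun i : Fin n => c i = b).card := by
  classical
  rw [Finset.card_filter, Finset.card_filter, Fin.sum_univ_succ]
  simp only [Fin.cons_zero, Fin.cons_succ]

theorem geomB_exists_enum {α : Type*} : ∀ (n : ℕ) (D : α →₀ ℤ), (∀ a, 0 ≤ D a) →
    Finsupp.degree D = (n : ℤ) →
    ∃ c : Fin n → α, ∀ a, D a = (open Classical in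
      ((Finset.univ.filter fun i => c i = a).card : ℤ))
  | 0, D, hD, hn => by
    classical
    refine ⟨Fin.elim0, fun a => ?_⟩
    have h0 : D a = 0 := by
      by_contra hne
      have hmem : a ∈ D.support := Finsupp.mem_support_iff.2 hne
      have h1 : D a ≤ ∑ b ∈ D.support, D b :=
        Finset.single_le_sum (f := fun b => D b) (fun b _ => hD b) hmem
      rw [Finsupp.degree_apply] at hn
      rw [hn] at h1
      have h2 := hD a
      push_cast at h1
      omega
    rw [h0]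
    simp
  | n + 1, D, hD, hn => by
    classical
    have hne : D ≠ 0 := by
      rintro rfl
      rw [map_zero] at hn
      have : ((n + 1 : ℕ) : ℤ) ≠ 0 := by positivity
      exact this hn.symm
    obtain ⟨a, ha⟩ := Finsupp.ne_iff.mp hne
    have ha' : D a ≠ 0 := ha
    have hpos : 0 < D a := lt_of_le_of_ne (hD a) (Ne.symm ha')
    obtain ⟨c', hc'⟩ := geomB_exists_enum n (D - Finsupp.single a 1) (fun b => by
        rw [Finsupp.sub_apply, Finsupp.single_apply]
        split_ifs with hab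
        · subst hab
          omega
        · have := hD b
          omega) (by
        rw [map_sub, Finsupp.degree_single, hn]
        push_cast
        ring)
    refine ⟨Fin.cons a c', fun b => ?_⟩
    rw [geomB_card_filter_cons]
    have h1 := hc' b
    rw [Finsupp.sub_apply, Finsupp.single_apply] at h1
    push_cast
    split_ifs at h1 ⊢ with hab
    · omega
    · omega

variable {F : Type*} [Field F] [Algebra Qbar F]
variable {P₀ : Place Qbar F} {e r : ℕ} {φ : Fin (r + 1) → F}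

/-! ### zero divisors of products -/

theorem geomB_zdiv_mul (h : IsRRField Qbar F) (P₀ : Place Qbar F) (e j j' : ℕ) {f g : F}
    (hf : f ≠ 0) (hg : g ≠ 0) :
    zdiv h P₀ e (j + j') (f * g) = zdiv h P₀ e j f + zdiv h P₀ e j' g := by
  unfold zdiv
  rw [divOf_mul h hf hg]
  have h1 : (((j + j') * e : ℕ) : ℤ) = ((j * e : ℕ) : ℤ) + ((j' * e : ℕ) : ℤ) := by
    push_cast
    ring
  rw [h1, Finsupp.single_add]
  abel

theorem geomB_zdiv_one (h : IsRRField Qbar F) (P₀ : Place Qbar F) (e : ℕ) :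
    zdiv h P₀ e 0 (1 : F) = 0 := by
  unfold zdiv
  rw [divOf_one, zero_add, zero_mul, Nat.cast_zero, Finsupp.single_zero]

theorem geomB_zdiv_prod (h : IsRRField Qbar F) (P₀ : Place Qbar F) (e : ℕ) {ι : Type*}
    (t : Finset ι) (l : ι → F) (hl : ∀ i ∈ t, l i ≠ 0) :
    zdiv h P₀ e t.card (∏ i ∈ t, l i) = ∑ i ∈ t, zdiv h P₀ e 1 (l i) := by
  classical
  induction t using Finset.induction_on with
  | empty =>
    rw [Finset.prod_empty, Finset.sum_empty, Finset.card_empty]
    exact geomB_zdiv_one h P₀ e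
  | insert a t ha ih =>
    rw [Finset.prod_insert ha, Finset.sum_insert ha, Finset.card_insert_of_notMem ha,
      add_comm t.card 1,
      geomB_zdiv_mul h P₀ e 1 t.card (hl a (Finset.mem_insert_self a t))
        (Finset.prod_ne_zero_iff.mpr fun i hi => hl i (Finset.mem_insert_of_mem hi)),
      ih fun i hi => hl i (Finset.mem_insert_of_mem hi)]

/-- the zero divisor of a product of linear forms is the sum of the zero divisors -/
theorem geomB_zdiv_prodLin (h : IsRRField Qbar F) (P₀ : Place Qbar F) (e : ℕ) {N : ℕ}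
    (x : Fin N → Fin (r + 1) → Qbar) (μ : Fin N → Pair r)
    (hl : ∀ i, linForm φ (x i) (μ i) ≠ 0) (P : Place Qbar F) :
    zdiv h P₀ e N (prodLin φ x μ) P = ∑ i, zdiv h P₀ e 1 (linForm φ (x i) (μ i)) P := by
  have h1 := geomB_zdiv_prod h P₀ e Finset.univ (fun i => linForm φ (x i) (μ i))
    (fun i _ => hl i)
  rw [Finset.card_univ, Fintype.card_fin] at h1
  unfold prodLin
  rw [h1, Finsupp.finsetSum_apply]

theorem geomB_prodLin_ne_zero_iff {N : ℕ} (x : Fin N → Fin (r + 1) → Qbar)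
    (μ : Fin N → Pair r) :
    prodLin φ x μ ≠ 0 ↔ ∀ i, linForm φ (x i) (μ i) ≠ 0 := by
  unfold prodLin
  rw [Finset.prod_ne_zero_iff]
  exact ⟨fun h i => h i (Finset.mem_univ i), fun h i _ => h i⟩

/-- a nonzero section whose value at `P` is `0` has a zero at `P` -/
theorem geomB_one_le_zdiv_of_sval_eq_zero (h : IsRRField Qbar F) (hφ : IsEmbBasis P₀ e φ)
    (he : 2 * genusFF Qbar F ≤ e) (k : ℕ) (P : Place Qbar F) {s : F}
    (hs : s ∈ secSpace P₀ e k) (hs0 : s ≠ 0) (hval : sval φ k P s = 0) :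
    1 ≤ zdiv h P₀ e k s P := by
  have h0 := zdiv_nonneg h k hs hs0 P
  have hiff := sval_ne_zero_iff h hφ he k P hs hs0
  have hne : zdiv h P₀ e k s P ≠ 0 := fun hz => (hiff.mpr hz) hval
  omega

/-- the counting function as a sum of indicators -/
theorem geomB_cnt_eq_sum {N : ℕ} (c : Fin N → Place Qbar F) (Q : Place Qbar F) :
    open Classical in
    ((cnt c Q : ℕ) : ℤ) = ∑ i, (if c i = Q then (1 : ℤ) else 0) := by
  classical
  unfold cnt
  rw [Finset.sum_boole]

/-! ### the zeros of a section, with multiplicity -/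

/-- (G4) the zeros of a section of `V_j`, counted with multiplicity -/
theorem exists_zeros' (h : IsRRField Qbar F) (j : ℕ) {f : F} (hf : f ∈ secSpace P₀ e j)
    (hf0 : f ≠ 0) :
    ∃ c : Fin (j * e) → Place Qbar F, ∀ Q, zdiv h P₀ e j f Q = (cnt c Q : ℤ) := by
  have hdeg : Finsupp.degree (zdiv h P₀ e j f) = ((j * e : ℕ) : ℤ) := by
    rw [Finsupp.degree_apply, ← degree_eq_sum h]
    exact degree_zdiv h j f
  obtain ⟨c, hc⟩ := geomB_exists_enum (j * e) (zdiv h P₀ e j f)
    (fun P => zdiv_nonneg h j hf hf0 P) hdeg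
  exact ⟨c, fun Q => hc Q⟩

/-- (G5) the product of linear forms through the zeros of `f` is divisible by `f` -/
theorem exists_quot' (h : IsRRField Qbar F) (hφ : IsEmbBasis P₀ e φ)
    (he : 2 * genusFF Qbar F + 1 ≤ e) (j : ℕ) {f : F} (hf : f ∈ secSpace P₀ e j) (hf0 : f ≠ 0)
    (c : Fin (j * e) → Place Qbar F) (hc : ∀ Q, zdiv h P₀ e j f Q = (cnt c Q : ℤ))
    (μ : Fin (j * e) → Pair r) :
    ∃ k, k ∈ secSpace P₀ e (j * e - j) ∧ f * k = prodLin φ (fun i => coord φ (c i)) μ := by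
  classical
  have he' : 2 * genusFF Qbar F ≤ e := by omega
  have he1 : 1 ≤ e := by omega
  have hje : j ≤ j * e := Nat.le_mul_of_pos_right j he1
  rcases eq_or_ne (prodLin φ (fun i => coord φ (c i)) μ) 0 with hL0 | hL0
  · exact ⟨0, Submodule.zero_mem _, by rw [mul_zero, hL0]⟩
  · refine ⟨prodLin φ (fun i => coord φ (c i)) μ / f, ?_, mul_div_cancel₀ _ hf0⟩
    have hl := (geomB_prodLin_ne_zero_iff (φ := φ) (fun i => coord φ (c i)) μ).mp hL0
    unfold secSpace
    rw [mem_riemannRochSpace_iff]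
    intro P
    right
    rw [imm_ord_div P hL0 hf0]
    -- the zero divisor of the product dominates the counting function
    have h1 : ((cnt c P : ℕ) : ℤ)
        ≤ zdiv h P₀ e (j * e) (prodLin φ (fun i => coord φ (c i)) μ) P := by
      rw [geomB_zdiv_prodLin h P₀ e _ μ hl P, geomB_cnt_eq_sum]
      refine Finset.sum_le_sum fun i _ => ?_
      split_ifs with hi
      · refine geomB_one_le_zdiv_of_sval_eq_zero h hφ he' 1 P (linForm_mem hφ _ _) (hl i) ?_
        rw [sval_linForm h hφ, hi]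
        ring
      · exact zdiv_nonneg h 1 (linForm_mem hφ _ _) (hl i) P
    have h2 := hc P
    rw [zdiv_apply] at h1 h2
    have h3 : (((j * e - j) * e : ℕ) : ℤ) = ((j * e * e : ℕ) : ℤ) - ((j * e : ℕ) : ℤ) := by
      rw [Nat.sub_mul, Nat.cast_sub (Nat.mul_le_mul_right e hje)]
    rw [Finsupp.single_apply] at h1 h2 ⊢
    rw [h3]
    split_ifs at h1 h2 ⊢ with hP
    · linarith
    · linarith

end Fermat.Agent.S17.L7
end
end MergeWrap_S17_H_L7_GeomZeros

section MergeWrap_S17_H_L7_GeomB -- from S17/H/L7/GeomB.lean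

/-!
# S17/H seat L7, piece D3b: the zeros of a section, with multiplicity
-/

set_option autoImplicit false
set_option linter.unusedSectionVars false
set_option linter.unusedVariables false

noncomputable section

open AlgebraicCurve MvPolynomial

namespace Fermat.Agent.S17.L7

open Fermat.Agent.RR

variable {F : Type*} [Field F] [Algebra Qbar F]
variable {P₀ : Place Qbar F} {e r : ℕ} {φ : Fin (r + 1) → F}

/-! ### the zeros of a section, with multiplicity -/

/-- (G4) the zeros of a section of `V_j`, counted with multiplicity -/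
theorem exists_zeros (h : IsRRField Qbar F) (j : ℕ) {f : F} (hf : f ∈ secSpace P₀ e j)
    (hf0 : f ≠ 0) :
    ∃ c : Fin (j * e) → Place Qbar F, ∀ Q, zdiv h P₀ e j f Q = (cnt c Q : ℤ) :=
  exists_zeros' h j hf hf0

/-- (G5) the product of linear forms through the zeros of `f` is divisible by `f` -/
theorem exists_quot (h : IsRRField Qbar F) (hφ : IsEmbBasis P₀ e φ)
    (he : 2 * genusFF Qbar F + 1 ≤ e) (j : ℕ) {f : F} (hf : f ∈ secSpace P₀ e j) (hf0 : f ≠ 0)
    (c : Fin (j * e) → Place Qbar F) (hc : ∀ Q, zdiv h P₀ e j f Q = (cnt c Q : ℤ))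
    (μ : Fin (j * e) → Pair r) :
    ∃ k, k ∈ secSpace P₀ e (j * e - j) ∧ f * k = prodLin φ (fun i => coord φ (c i)) μ :=
  exists_quot' h hφ he j hf hf0 c hc μ

/-- (G6) conversely: if all products of linear forms through the points `c i` are divisible by
`f`, the `c i` are the zeros of `f`. -/
theorem cnt_of_forall_quot (h : IsRRField Qbar F) (hφ : IsEmbBasis P₀ e φ)
    (he : 2 * genusFF Qbar F + 1 ≤ e) (j : ℕ) {f : F} (hf : f ∈ secSpace P₀ e j) (hf0 : f ≠ 0)
    (c : Fin (j * e) → Place Qbar F) (lam : Fin (j * e) → Qbar) (hlam : ∀ i, lam i ≠ 0)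
    (hq : ∀ μ : Fin (j * e) → Pair r, ∃ k, k ∈ secSpace P₀ e (j * e - j) ∧
      f * k = prodLin φ (fun i => lam i • coord φ (c i)) μ) :
    ∀ Q, zdiv h P₀ e j f Q = (cnt c Q : ℤ) :=
  Z2.cnt_of_forall_quot_pf h hφ he j hf hf0 c lam hlam hq

/-- (G7) some quotient does not vanish at `P` -/
theorem exists_mu_sval_ne_zero (h : IsRRField Qbar F) (hφ : IsEmbBasis P₀ e φ)
    (he : 2 * genusFF Qbar F + 1 ≤ e) (j : ℕ) {f : F} (hf : f ∈ secSpace P₀ e j) (hf0 : f ≠ 0)
    (c : Fin (j * e) → Place Qbar F) (lam : Fin (j * e) → Qbar) (hlam : ∀ i, lam i ≠ 0)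
    (hc : ∀ Q, zdiv h P₀ e j f Q = (cnt c Q : ℤ)) (P : Place Qbar F) :
    ∃ μ : Fin (j * e) → Pair r, ∀ k, k ∈ secSpace P₀ e (j * e - j) →
      f * k = prodLin φ (fun i => lam i • coord φ (c i)) μ → sval φ (j * e - j) P k ≠ 0 :=
  Z2.exists_mu_sval_ne_zero_pf h hφ he j hf hf0 c lam hlam hc P

end Fermat.Agent.S17.L7
end
end MergeWrap_S17_H_L7_GeomB

section MergeWrap_S17_H_L7_GeomC -- from S17/H/L7/GeomC.lean

/-!
# S17/H seat L7, piece D3c: the leading coefficient identity, the sum of local heights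

Owner: helper63.  Sorry-free.
-/

set_option autoImplicit false
set_option linter.unusedSectionVars false
set_option linter.unusedVariables false

noncomputable section

open AlgebraicCurve MvPolynomial

namespace Fermat.Agent.S17.L7

open Fermat.Agent.RR

variable {F : Type*} [Field F] [Algebra Qbar F]
variable {P₀ : Place Qbar F} {e r : ℕ} {φ : Fin (r + 1) → F}

/-- values and orders of finite products of functions which are regular at `P` -/
theorem val_prod_of_ord_nonneg (h : IsRRField Qbar F) (P : Place Qbar F) {α : Type*}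
    (t : Finset α) (g : α → F) (hg : ∀ i ∈ t, 0 ≤ P.ord (g i)) :
    0 ≤ P.ord (∏ i ∈ t, g i) ∧ val P (∏ i ∈ t, g i) = ∏ i ∈ t, val P (g i) := by
  classical
  induction t using Finset.induction_on with
  | empty =>
    rw [Finset.prod_empty, Finset.prod_empty]
    refine ⟨?_, Pts.ev_one P⟩
    have := Fermat.Agent.S24Res.ord_algebraMap P (1 : Qbar)
    rw [map_one] at this
    exact this.ge
  | insert a t ha ih =>
    have h1 := hg a (Finset.mem_insert_self a t)
    obtain ⟨h2, h3⟩ := ih fun i hi => hg i (Finset.mem_insert_of_mem hi)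
    rw [Finset.prod_insert ha, Finset.prod_insert ha]
    refine ⟨?_, ?_⟩
    · exact Fermat.Agent.S24Res.ord_nonneg_of_mem P
        (mul_mem (Fermat.Agent.S24Res.mem_of_ord_nonneg P h1)
          (Fermat.Agent.S24Res.mem_of_ord_nonneg P h2))
    · unfold val at h3 ⊢
      rw [Pts.ev_mul h P h1 h2, h3]

/-- the linear form through `P` vanishes at `P`: `l / (φ_pivot π)` is regular at `P` -/
theorem ord_linForm_self_div (h : IsRRField Qbar F) (hφ : IsEmbBasis P₀ e φ)
    (he : 2 * genusFF Qbar F ≤ e) (P : Place Qbar F) {π : F} (hπ : P.ord π = 1) (p : Pair r) :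
    0 ≤ P.ord (linForm φ (coord φ P) p / (φ (pivot φ P) * π)) := by
  have hu : φ (pivot φ P) ≠ 0 := hφ.ne_zero _
  have hπ0 : π ≠ 0 := by
    rintro rfl
    rw [P.ord_zero] at hπ
    exact zero_ne_one hπ
  rcases eq_or_ne (linForm φ (coord φ P) p) 0 with h0 | h0
  · rw [h0, zero_div, P.ord_zero]
  · have hmem := linForm_mem (P₀ := P₀) (e := e) hφ (coord φ P) p
    have hval : sval φ 1 P (linForm φ (coord φ P) p) = 0 := by
      rw [sval_linForm h hφ P]
      ring
    have hne : linForm φ (coord φ P) p / φ (pivot φ P) ^ 1 ≠ 0 :=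
      div_ne_zero h0 (pow_ne_zero _ hu)
    have hord := ord_div_pivot_pow_nonneg h hφ he 1 P hmem
    have hpos := (Pts.ev_eq_zero_iff h P hne hord).mp hval
    rw [pow_one] at hpos
    have heq : linForm φ (coord φ P) p / (φ (pivot φ P) * π)
        = (linForm φ (coord φ P) p / φ (pivot φ P)) / π := by
      rw [div_div]
    rw [heq, imm_ord_div P (div_ne_zero h0 hu) hπ0, hπ]
    omega

/-- (G8) the leading coefficient identity -/
theorem lead_identity (h : IsRRField Qbar F) (hφ : IsEmbBasis P₀ e φ)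
    (he : 2 * genusFF Qbar F + 1 ≤ e) (j : ℕ) {f : F} (hf : f ∈ secSpace P₀ e j) (hf0 : f ≠ 0)
    (c : Fin (j * e) → Place Qbar F) (hc : ∀ Q, zdiv h P₀ e j f Q = (cnt c Q : ℤ))
    (P : Place Qbar F) {π : F} (hπ : P.ord π = 1) (m : ℕ) (hm : (m : ℤ) = zdiv h P₀ e j f P)
    (μ : Fin (j * e) → Pair r) {k : F} (hk : k ∈ secSpace P₀ e (j * e - j))
    (hfk : f * k = prodLin φ (fun i => coord φ (c i)) μ) :
    open Classical in
    val P (f / (φ (pivot φ P) ^ j * π ^ m)) * sval φ (j * e - j) P k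
      = (∏ i ∈ Finset.univ.filter (fun i => c i = P),
            val P (linForm φ (coord φ P) (μ i) / (φ (pivot φ P) * π)))
        * ∏ i ∈ Finset.univ.filter (fun i => c i ≠ P),
            sval φ 1 P (linForm φ (coord φ (c i)) (μ i)) := by
  classical
  have he2 : 2 * genusFF Qbar F ≤ e := by omega
  have he1 : 1 ≤ e := by omega
  set u := φ (pivot φ P) with hu_def
  have hu : u ≠ 0 := hφ.ne_zero _
  have hπ0 : π ≠ 0 := by
    rintro rfl
    rw [P.ord_zero] at hπ
    exact zero_ne_one hπ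
  -- the two index sets
  set IP : Finset (Fin (j * e)) := Finset.univ.filter (fun i => c i = P) with hIP
  set IQ : Finset (Fin (j * e)) := Finset.univ.filter (fun i => c i ≠ P) with hIQ
  have hmcard : IP.card = m := by
    have h1 : (m : ℤ) = (cnt c P : ℤ) := by rw [hm, hc P]
    have h2 : m = cnt c P := by exact_mod_cast h1
    rw [h2]
    unfold cnt
    rw [hIP]
  have hcard : IP.card + IQ.card = j * e := by
    have := Finset.card_filter_add_card_filter_not (s := (Finset.univ : Finset (Fin (j * e))))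
      (p := fun i => c i = P)
    rw [Finset.card_univ, Fintype.card_fin] at this
    exact this
  have hjle : j ≤ j * e := Nat.le_mul_of_pos_right j he1
  -- regularity of the factors
  have hA : P.ord (f / (u ^ j * π ^ m)) = 0 := hφ.ord_lead h he2 j P hπ hf0 m hm
  have hB : 0 ≤ P.ord (k / u ^ (j * e - j)) := ord_div_pivot_pow_nonneg h hφ he2 _ P hk
  have hgP : ∀ i ∈ IP, 0 ≤ P.ord (linForm φ (coord φ P) (μ i) / (u * π)) := fun i _ =>
    ord_linForm_self_div h hφ he2 P hπ (μ i)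
  have hgQ : ∀ i ∈ IQ, 0 ≤ P.ord (linForm φ (coord φ (c i)) (μ i) / u ^ 1) := fun i _ =>
    ord_div_pivot_pow_nonneg h hφ he2 1 P (linForm_mem hφ _ _)
  obtain ⟨hoP, hvP⟩ := val_prod_of_ord_nonneg h P IP _ hgP
  obtain ⟨hoQ, hvQ⟩ := val_prod_of_ord_nonneg h P IQ _ hgQ
  -- the algebraic identity
  have hprod : f / (u ^ j * π ^ m) * (k / u ^ (j * e - j))
      = (∏ i ∈ IP, linForm φ (coord φ P) (μ i) / (u * π))
        * ∏ i ∈ IQ, linForm φ (coord φ (c i)) (μ i) / u ^ 1 := by
    have hsplit : prodLin φ (fun i => coord φ (c i)) μ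
        = (∏ i ∈ IP, linForm φ (coord φ P) (μ i))
          * ∏ i ∈ IQ, linForm φ (coord φ (c i)) (μ i) := by
      unfold prodLin
      rw [← Finset.prod_filter_mul_prod_filter_not Finset.univ (fun i => c i = P)]
      congr 1
      refine Finset.prod_congr rfl fun i hi => ?_
      have hci : c i = P := (Finset.mem_filter.mp hi).2
      change linForm φ (coord φ (c i)) (μ i) = _
      rw [hci]
    rw [Finset.prod_div_distrib, Finset.prod_div_distrib, Finset.prod_const, Finset.prod_const,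
      hmcard, div_mul_div_comm, div_mul_div_comm, hfk, hsplit]
    congr 1
    have hexp : j * e - j + j = m + IQ.card := by omega
    calc u ^ j * π ^ m * u ^ (j * e - j) = u ^ (j * e - j + j) * π ^ m := by
          rw [pow_add]; ring
      _ = u ^ (m + IQ.card) * π ^ m := by rw [hexp]
      _ = (u * π) ^ m * (u ^ 1) ^ IQ.card := by
          rw [pow_add, mul_pow, pow_one]; ring
  unfold sval
  change Pts.ev P (f / (u ^ j * π ^ m)) * Pts.ev P (k / u ^ (j * e - j)) = _
  rw [← Pts.ev_mul h P hA.ge hB, hprod]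
  have := Pts.ev_mul h P hoP hoQ
  unfold val at hvP hvQ
  rw [this, hvP, hvQ]

/-- (G10) the sum of the local heights over the zeros -/
theorem gsum_eq_sum (h : IsRRField Qbar F) (𝔸 : AbsSys) (v : 𝔸.ι) (j : ℕ) {f : F}
    (c : Fin (j * e) → Place Qbar F) (hc : ∀ Q, zdiv h P₀ e j f Q = (cnt c Q : ℤ))
    (P : Place Qbar F) :
    open Classical in
    gsum 𝔸 v φ P (zdiv h P₀ e j f)
      = ∑ i ∈ Finset.univ.filter (fun i => c i ≠ P), gloc 𝔸 v φ P (c i) := by
  classical
  unfold gsum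
  have hmaps : ∀ i ∈ (Finset.univ.filter (fun i => c i ≠ P) : Finset (Fin (j * e))),
      c i ∈ (zdiv h P₀ e j f).support.filter (fun Q => Q ≠ P) := by
    intro i hi
    rw [Finset.mem_filter] at hi ⊢
    refine ⟨?_, hi.2⟩
    rw [Finsupp.mem_support_iff, hc (c i)]
    have : 0 < cnt c (c i) := by
      unfold cnt
      rw [Finset.card_pos]
      exact ⟨i, by simp⟩
    exact_mod_cast this.ne'
  rw [← Finset.sum_fiberwise_of_maps_to hmaps]
  refine Finset.sum_congr rfl fun Q hQ => ?_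
  have hQP : Q ≠ P := (Finset.mem_filter.mp hQ).2
  have hfilter : ((Finset.univ.filter (fun i => c i ≠ P)).filter (fun i => c i = Q)
      : Finset (Fin (j * e))) = Finset.univ.filter (fun i => c i = Q) := by
    ext i
    simp only [Finset.mem_filter, Finset.mem_univ, true_and, and_iff_right_iff_imp]
    intro hi
    rw [hi]
    exact hQP
  rw [hfilter, Finset.sum_congr rfl (fun i hi => by rw [(Finset.mem_filter.mp hi).2]),
    Finset.sum_const, nsmul_eq_mul, hc Q]
  congr 1

end Fermat.Agent.S17.L7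
end
end MergeWrap_S17_H_L7_GeomC

section MergeWrap_S17_H_L7_Geom -- from S17/H/L7/Geom.lean

/-!
# S17/H seat L7, piece D3: geometry of the zeros of a section (aggregator)
D3a = GeomA.lean, D3b = GeomB.lean, D3c = GeomC.lean.
-/
end MergeWrap_S17_H_L7_Geom

section MergeWrap_S17_H_L7_Main -- from S17/H/L7/Main.lean

set_option autoImplicit false
set_option linter.unusedSectionVars false
set_option linter.unusedVariables false

/-!
# S17, package H, seat L7: assembly (Cramer forms + NST)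
-/

noncomputable section

open AlgebraicCurve MvPolynomial Matrix

namespace Fermat.Agent.S17.L7

open Fermat.Agent.RR

variable {F : Type*} [Field F] [Algebra Qbar F]
variable {P₀ : Place Qbar F} {e r : ℕ} {φ : Fin (r + 1) → F}

/-- the conclusion of seat L2 (CLOSED) for the embedding basis: a nonzero vector killing all
homogeneous relations of `φ` is proportional to the coordinates of a place. -/
def ClosedProp (φ : Fin (r + 1) → F) : Prop :=
  ∀ y : Fin (r + 1) → Qbar, y ≠ 0 →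
    (∀ (k : ℕ) (G : MvPolynomial (Fin (r + 1)) Qbar), G.IsHomogeneous k → aeval φ G = 0 →
      eval y G = 0) →
    ∃ (P : Place Qbar F) (lam : Qbar), lam ≠ 0 ∧ y = lam • coord φ P

/-! ### points of the multi-projective space -/

section points

variable {d N : ℕ}

theorem mkPoint_eta (y : ∀ i : Fac N, Fin (dims r d N i + 1) → Qbar) :
    mkPoint (r := r) (d := d) (N := N) (y (facP N)) (fun i => y (facC i)) (y (facF N)) = y := by
  funext i
  rcases i with ⟨⟩ | i | ⟨⟩ <;> rfl

theorem prod_fac (g : Fac N → ℝ) :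
    ∏ i, g i = g (facP N) * ((∏ i, g (facC i)) * g (facF N)) := by
  rw [Fintype.prod_sum_type, Fintype.prod_sum_type]
  simp

theorem degPsi_facP (D k : ℕ) : degPsi r d N D k (facP N) = k := by
  simp [degPsi, degF, degC, degP]

theorem degPsi_facC (D k : ℕ) (i : Fin N) : degPsi r d N D k (facC i) = 1 := by
  simp [degPsi, degF, degC, degP]

theorem degPsi_facF (D k : ℕ) : degPsi r d N D k (facF N) = D - 1 := by
  simp [degPsi, degF, degC, degP]

theorem degF_facP (k : ℕ) : degF r d N k (facP N) = 0 := by simp [degF]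
theorem degF_facC (k : ℕ) (i : Fin N) : degF r d N k (facC i) = 0 := by simp [degF]
theorem degF_facF (k : ℕ) : degF r d N k (facF N) = k := by simp [degF]

end points
/-! ### the auxiliary data and the dictionary values <-> sections -/

section dict

variable {j d D E : ℕ}

/-- coordinates of the evaluation points -/
def qv (φ : Fin (r + 1) → F) (Q : Fin E → Place Qbar F) : Fin E → Fin (r + 1) → Qbar :=
  fun ρ => coord φ (Q ρ)

/-- values of the basis of `V_j` at the evaluation points -/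
def βv (φ : Fin (r + 1) → F) (b : Module.Basis (Fin (d + 1)) Qbar (secSpace P₀ e j))
    (Q : Fin E → Place Qbar F) : Fin E → Fin (d + 1) → Qbar :=
  fun ρ t => sval φ j (Q ρ) (b t : F)

/-- values of the basis of `V_{N-j}` at the evaluation points -/
def βv' (φ : Fin (r + 1) → F) (b' : Module.Basis (Fin D) Qbar (secSpace P₀ e (j * e - j)))
    (Q : Fin E → Place Qbar F) : Fin E → Fin D → Qbar :=
  fun ρ s => sval φ (j * e - j) (Q ρ) (b' s : F)

/-- the section with coefficients `z` -/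
def secOf {k n : ℕ} (b : Module.Basis (Fin n) Qbar (secSpace P₀ e k)) (z : Fin n → Qbar) : F :=
  ∑ t, z t • (b t : F)

theorem secOf_mem {k n : ℕ} (b : Module.Basis (Fin n) Qbar (secSpace P₀ e k))
    (z : Fin n → Qbar) : secOf b z ∈ secSpace P₀ e k :=
  Submodule.sum_mem _ fun t _ => Submodule.smul_mem _ _ (b t).2

theorem secOf_eq_coe {k n : ℕ} (b : Module.Basis (Fin n) Qbar (secSpace P₀ e k))
    (z : Fin n → Qbar) :
    secOf b z = ((∑ t, z t • b t : secSpace P₀ e k) : F) := by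
  unfold secOf
  rw [Submodule.coe_sum]
  rfl

theorem secOf_repr {k n : ℕ} (b : Module.Basis (Fin n) Qbar (secSpace P₀ e k)) {f : F}
    (hf : f ∈ secSpace P₀ e k) : secOf b (fun t => b.repr ⟨f, hf⟩ t) = f := by
  rw [secOf_eq_coe, b.sum_repr]

theorem secOf_eq_zero_iff {k n : ℕ} (b : Module.Basis (Fin n) Qbar (secSpace P₀ e k))
    (z : Fin n → Qbar) : secOf b z = 0 ↔ z = 0 := by
  rw [secOf_eq_coe]
  constructor
  · intro h0
    have h1 : (∑ t, z t • b t : secSpace P₀ e k) = 0 := Subtype.ext h0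
    have := Fintype.linearIndependent_iff.mp b.linearIndependent z h1
    exact funext this
  · rintro rfl
    simp

variable (h : IsRRField Qbar F) (hφ : IsEmbBasis P₀ e φ) (he : 2 * genusFF Qbar F + 1 ≤ e)
variable (b : Module.Basis (Fin (d + 1)) Qbar (secSpace P₀ e j))
  (b' : Module.Basis (Fin D) Qbar (secSpace P₀ e (j * e - j)))
  (Q : Fin E → Place Qbar F)

include h hφ he

theorem l7_sub_add : j + (j * e - j) = j * e := by
  have h1 : 1 ≤ e := by omega
  have h2 : j ≤ j * e := Nat.le_mul_of_pos_right j h1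
  omega

/-- (KL1) -/
theorem valF_eq (z : Fin (d + 1) → Qbar) (ρ : Fin E) :
    valF (βv φ b Q) z ρ = sval φ j (Q ρ) (secOf b z) := by
  unfold valF secOf βv
  rw [sval_sum h hφ (by omega) j (Q ρ) Finset.univ z (fun t => (b t : F)) (fun t _ => (b t).2)]
  exact Finset.sum_congr rfl fun t _ => mul_comm _ _

/-- (KL2) -/
theorem valM_mulVec_eq (z : Fin (d + 1) → Qbar) (κ : Fin D → Qbar) (ρ : Fin E) :
    (valM (βv φ b Q) (βv' φ b' Q) z *ᵥ κ) ρ
      = sval φ (j * e) (Q ρ) (secOf b z * secOf b' κ) := by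
  have h1 : sval φ (j * e) (Q ρ) (secOf b z * secOf b' κ)
      = sval φ j (Q ρ) (secOf b z) * sval φ (j * e - j) (Q ρ) (secOf b' κ) := by
    have := sval_mul h hφ (by omega) (Q ρ) (secOf_mem b z) (secOf_mem b' κ)
    rwa [l7_sub_add h hφ he] at this
  rw [h1, ← valF_eq h hφ he b Q z ρ]
  unfold secOf
  rw [sval_sum h hφ (by omega) (j * e - j) (Q ρ) Finset.univ κ (fun s => (b' s : F))
    (fun s _ => (b' s).2), Finset.mul_sum]
  simp only [Matrix.mulVec, dotProduct, valM, βv']
  exact Finset.sum_congr rfl fun s _ => by ring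

/-- (KL3) -/
theorem valW_eq (x : Fin (j * e) → Fin (r + 1) → Qbar) (μ : Fin (j * e) → Pair r) (ρ : Fin E) :
    valW (qv φ Q) x μ ρ = sval φ (j * e) (Q ρ) (prodLin φ x μ) := by
  rw [sval_prodLin h hφ (by omega)]
  rfl

/-- (KL4) -/
theorem eq_prodLin_of_mulVec_eq (hQ : Function.Injective Q) (hE : (j * e) * e < E)
    (z : Fin (d + 1) → Qbar) (κ : Fin D → Qbar)
    (x : Fin (j * e) → Fin (r + 1) → Qbar) (μ : Fin (j * e) → Pair r)
    (hMw : valM (βv φ b Q) (βv' φ b' Q) z *ᵥ κ = valW (qv φ Q) x μ) :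
    secOf b z * secOf b' κ = prodLin φ x μ := by
  have hmem1 : secOf b z * secOf b' κ ∈ secSpace P₀ e (j * e) := by
    have := gauss_secSpace_mul_mem P₀ e j (j * e - j) (secOf_mem b z) (secOf_mem b' κ)
    rwa [l7_sub_add h hφ he] at this
  have hmem2 : prodLin φ x μ ∈ secSpace P₀ e (j * e) := prodLin_mem hφ x μ
  have hmem3 : (-1 : Qbar) • prodLin φ x μ ∈ secSpace P₀ e (j * e) :=
    Submodule.smul_mem _ _ hmem2
  have hdiff : secOf b z * secOf b' κ + (-1 : Qbar) • prodLin φ x μ = 0 := by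
    refine eq_zero_of_sval_eq_zero h hφ (by omega) (j * e) (Submodule.add_mem _ hmem1 hmem3)
      Q hQ hE fun ρ => ?_
    rw [sval_add h hφ (by omega) (j * e) (Q ρ) hmem1 hmem3,
      sval_smul h hφ (by omega) (j * e) (Q ρ) (-1) hmem2,
      ← valM_mulVec_eq h hφ he b b' Q z κ ρ, ← valW_eq h hφ he Q x μ ρ, hMw]
    ring
  rw [neg_one_smul] at hdiff
  exact add_neg_eq_zero.mp hdiff

theorem mulVec_eq_of_eq_prodLin
    (z : Fin (d + 1) → Qbar) (κ : Fin D → Qbar)
    (x : Fin (j * e) → Fin (r + 1) → Qbar) (μ : Fin (j * e) → Pair r)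
    (hfk : secOf b z * secOf b' κ = prodLin φ x μ) :
    valM (βv φ b Q) (βv' φ b' Q) z *ᵥ κ = valW (qv φ Q) x μ := by
  funext ρ
  rw [valM_mulVec_eq h hφ he b b' Q z κ ρ, valW_eq h hφ he Q x μ ρ, hfk]

/-- (KL5) -/
theorem sum_eval_eq_sval (B' : Fin D → MvPolynomial (Fin (r + 1)) Qbar)
    (hB'hom : ∀ s, (B' s).IsHomogeneous (j * e - j))
    (hB' : ∀ s, aeval φ (B' s) = (b' s : F)) (κ : Fin D → Qbar) (P : Place Qbar F) :
    ∑ s, κ s * eval (coord φ P) (B' s) = sval φ (j * e - j) P (secOf b' κ) := by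
  unfold secOf
  rw [sval_sum h hφ (by omega) (j * e - j) P Finset.univ κ (fun s => (b' s : F))
    (fun s _ => (b' s).2)]
  refine Finset.sum_congr rfl fun s _ => ?_
  congr 1
  unfold sval
  rw [← hB' s, val_polyRep h hφ P (hB'hom s)]

end dict


/-! ### no common zero -/

section nozero

variable {j d D E : ℕ}
variable (h : IsRRField Qbar F) (hφ : IsEmbBasis P₀ e φ) (he : 2 * genusFF Qbar F + 1 ≤ e)
variable (b : Module.Basis (Fin (d + 1)) Qbar (secSpace P₀ e j))
  (b' : Module.Basis (Fin D) Qbar (secSpace P₀ e (j * e - j)))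
  (B' : Fin D → MvPolynomial (Fin (r + 1)) Qbar)
  (hB'hom : ∀ s, (B' s).IsHomogeneous (j * e - j))
  (hB' : ∀ s, aeval φ (B' s) = (b' s : F))
  (Q : Fin E → Place Qbar F) (hQ : Function.Injective Q) (hE : (j * e) * e < E)

theorem eval_smul_of_isHomogeneous {k : ℕ} {S : MvPolynomial (Fin (r + 1)) Qbar}
    (hS : S.IsHomogeneous k) (lam : Qbar) (x : Fin (r + 1) → Qbar) :
    eval (lam • x) S = lam ^ k * eval x S := by
  have := gauss_aeval_smul (F := Qbar) hS lam x
  have h2 : (lam • x) = fun a => lam * x a := rfl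
  rw [h2]
  simpa [MvPolynomial.aeval_eq_eval] using this

include h hφ he hB'hom hB' hQ hE in
/-- the Cramer forms have no common zero on the incidence set -/
theorem noZero (hclosed : ClosedProp φ)
    (yP : Fin (r + 1) → Qbar) (yC : Fin (j * e) → Fin (r + 1) → Qbar)
    (yF : Fin (d + 1) → Qbar)
    (hyP : yP ≠ 0) (hyC : ∀ i, yC i ≠ 0) (hyF : yF ≠ 0)
    (hP : ∀ (k : ℕ) (G : MvPolynomial (Fin (r + 1)) Qbar), G.IsHomogeneous k →
      aeval φ G = 0 → eval yP G = 0)
    (hC : ∀ i (k : ℕ) (G : MvPolynomial (Fin (r + 1)) Qbar), G.IsHomogeneous k →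
      aeval φ G = 0 → eval (yC i) G = 0)
    (hcram : ∀ (I : Fin D → Fin E) (μ : Fin (j * e) → Pair r) (ρ : Fin E),
      (rowsOf (valM (βv φ b Q) (βv' φ b' Q) yF) I).det * valW (qv φ Q) yC μ ρ
        = (valM (βv φ b Q) (βv' φ b' Q) yF *ᵥ
            cram (valM (βv φ b Q) (βv' φ b' Q) yF) I (valW (qv φ Q) yC μ)) ρ) :
    ∃ (I : Fin D → Fin E) (μ : Fin (j * e) → Pair r),
      ∑ s, cram (valM (βv φ b Q) (βv' φ b' Q) yF) I (valW (qv φ Q) yC μ) s
        * eval yP (B' s) ≠ 0 := by
  obtain ⟨P, lamP, hlamP, rfl⟩ := hclosed yP hyP hP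
  choose c lam hlam hc' using fun i => hclosed (yC i) (hyC i) (hC i)
  have hyC' : yC = fun i => lam i • coord φ (c i) := funext hc'
  have hf : secOf b yF ∈ secSpace P₀ e j := secOf_mem b yF
  have hf0 : secOf b yF ≠ 0 := fun h0 => hyF ((secOf_eq_zero_iff b yF).mp h0)
  have hinj : ∀ κ : Fin D → Qbar,
      valM (βv φ b Q) (βv' φ b' Q) yF *ᵥ κ = 0 → κ = 0 := by
    intro κ hκ
    have hmem : secOf b yF * secOf b' κ ∈ secSpace P₀ e (j * e) := by
      have := gauss_secSpace_mul_mem P₀ e j (j * e - j) hf (secOf_mem b' κ)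
      rwa [l7_sub_add h hφ he] at this
    have h0 : secOf b yF * secOf b' κ = 0 :=
      eq_zero_of_sval_eq_zero h hφ (by omega) (j * e) hmem Q hQ hE fun ρ => by
        rw [← valM_mulVec_eq h hφ he b b' Q yF κ ρ, hκ]
        rfl
    exact (secOf_eq_zero_iff b' κ).mp ((mul_eq_zero.mp h0).resolve_left hf0)
  obtain ⟨I₀, hI₀⟩ := exists_det_rowsOf_ne_zero _ hinj
  have hcr : ∀ μ : Fin (j * e) → Pair r,
      (rowsOf (valM (βv φ b Q) (βv' φ b' Q) yF) I₀).det • valW (qv φ Q) yC μ
        = valM (βv φ b Q) (βv' φ b' Q) yF *ᵥ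
            cram (valM (βv φ b Q) (βv' φ b' Q) yF) I₀ (valW (qv φ Q) yC μ) := fun μ =>
    funext fun ρ => by
      rw [Pi.smul_apply, smul_eq_mul]
      exact hcram I₀ μ ρ
  have hq : ∀ μ : Fin (j * e) → Pair r, ∃ k, k ∈ secSpace P₀ e (j * e - j) ∧
      secOf b yF * k = prodLin φ (fun i => lam i • coord φ (c i)) μ := by
    intro μ
    obtain ⟨κ, hκ, -⟩ := exists_mulVec_eq_of_cram _ I₀ hI₀ (valW (qv φ Q) yC μ) (hcr μ)
    refine ⟨secOf b' κ, secOf_mem b' κ, ?_⟩
    have := eq_prodLin_of_mulVec_eq h hφ he b b' Q hQ hE yF κ yC μ hκ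
    rwa [hyC'] at this
  have hcnt := cnt_of_forall_quot h hφ he j hf hf0 c lam hlam hq
  obtain ⟨μ₀, hμ₀⟩ := exists_mu_sval_ne_zero h hφ he j hf hf0 c lam hlam hcnt P
  obtain ⟨κ, hκ, hcramκ⟩ := exists_mulVec_eq_of_cram _ I₀ hI₀ (valW (qv φ Q) yC μ₀) (hcr μ₀)
  have hfk : secOf b yF * secOf b' κ = prodLin φ (fun i => lam i • coord φ (c i)) μ₀ := by
    have := eq_prodLin_of_mulVec_eq h hφ he b b' Q hQ hE yF κ yC μ₀ hκ
    rwa [hyC'] at this
  have hne := hμ₀ (secOf b' κ) (secOf_mem b' κ) hfk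
  refine ⟨I₀, μ₀, ?_⟩
  rw [hcramκ]
  have h1 : ∑ s, ((rowsOf (valM (βv φ b Q) (βv' φ b' Q) yF) I₀).det • κ) s
        * eval (lamP • coord φ P) (B' s)
      = (rowsOf (valM (βv φ b Q) (βv' φ b' Q) yF) I₀).det * lamP ^ (j * e - j)
        * ∑ s, κ s * eval (coord φ P) (B' s) := by
    rw [Finset.mul_sum]
    refine Finset.sum_congr rfl fun s _ => ?_
    rw [eval_smul_of_isHomogeneous (hB'hom s), Pi.smul_apply, smul_eq_mul]
    ring
  rw [h1, sum_eval_eq_sval h hφ he b' B' hB'hom hB' κ P]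
  exact mul_ne_zero (mul_ne_zero hI₀ (pow_ne_zero _ hlamP)) hne

end nozero


/-! ### the Nullstellensatz bound for the quotient -/

section bound

variable {j d : ℕ}

/-- the equations of the incidence set -/
def incEqs (φ : Fin (r + 1) → F) {N D E : ℕ} (q : Fin E → Fin (r + 1) → Qbar)
    (β : Fin E → Fin (d + 1) → Qbar) (β' : Fin E → Fin D → Qbar) :
    Set (PolyRing r d N) :=
  {G | (∃ (k : ℕ) (S : MvPolynomial (Fin (r + 1)) Qbar), S.IsHomogeneous k ∧ aeval φ S = 0 ∧
          G = inFactor (n := dims r d N) (facP N) S) ∨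
       (∃ (i : Fin N) (k : ℕ) (S : MvPolynomial (Fin (r + 1)) Qbar), S.IsHomogeneous k ∧
          aeval φ S = 0 ∧ G = inFactor (n := dims r d N) (facC i) S) ∨
       (∃ (I : Fin D → Fin E) (μ : Fin N → Pair r) (ρ : Fin E), G = cramEq q β β' I μ ρ)}

theorem exists_bound_quot (𝔸 : AbsSys) (hclosed : ClosedProp φ) (h : IsRRField Qbar F)
    (hφ : IsEmbBasis P₀ e φ) (he : 3 * genusFF Qbar F + 1 ≤ e)
    (b : Module.Basis (Fin (d + 1)) Qbar (secSpace P₀ e j)) :
    ∃ γ : MConst 𝔸, ∀ (v : 𝔸.ι) (f : F), f ∈ secSpace P₀ e j → f ≠ 0 →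
      ∀ (c : Fin (j * e) → Place Qbar F), (∀ Q, zdiv h P₀ e j f Q = (cnt c Q : ℤ)) →
      ∀ P : Place Qbar F, ∃ (μ : Fin (j * e) → Pair r) (k : F),
        k ∈ secSpace P₀ e (j * e - j) ∧
        f * k = prodLin φ (fun i => coord φ (c i)) μ ∧
        Real.exp (-(γ v)) * (vnorm 𝔸 v (coord φ P) ^ (j * e - j)
            * ∏ i, vnorm 𝔸 v (coord φ (c i)))
          ≤ cnorm 𝔸 v b f * 𝔸.abv v (sval φ (j * e - j) P k) := by
  classical
  have he2 : 2 * genusFF Qbar F + 1 ≤ e := by omega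
  -- auxiliary data
  have hfd : FiniteDimensional Qbar (secSpace P₀ e (j * e - j)) := by
    unfold secSpace
    exact finite_riemannRochSpace h _
  set D := Module.finrank Qbar (secSpace P₀ e (j * e - j)) with hDdef
  let b' : Module.Basis (Fin D) Qbar (secSpace P₀ e (j * e - j)) := Module.finBasis Qbar _
  have hD : 1 ≤ D := by
    have h1 : (1 : F) ∈ secSpace P₀ e (j * e - j) := by
      have := aeval_mem_secSpace hφ (k := j * e - j)
        (S := (MvPolynomial.X 0 : MvPolynomial (Fin (r + 1)) Qbar) ^ (j * e - j))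
        (by simpa using (MvPolynomial.isHomogeneous_X Qbar (0 : Fin (r + 1))).pow (j * e - j))
      simpa [hφ.zero_eq_one] using this
    have hne : Nontrivial (secSpace P₀ e (j * e - j)) :=
      ⟨⟨⟨1, h1⟩, 0, fun h0 => one_ne_zero (congrArg Subtype.val h0)⟩⟩
    exact Module.finrank_pos
  choose B' hB'hom hB' using fun s : Fin D =>
    exists_polyRep h hφ (by omega) (j * e - j) (b' s).2
  have hinf : Infinite (Place Qbar F) := infinite_place h
  set E := (j * e) * e + 1 with hEdef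
  let Q : Fin E → Place Qbar F := fun ρ => Infinite.natEmbedding (Place Qbar F) ρ.1
  have hQ : Function.Injective Q := fun ρ σ hρσ =>
    Fin.ext ((Infinite.natEmbedding (Place Qbar F)).injective hρσ)
  have hE : (j * e) * e < E := by omega
  -- the forms
  set q := qv φ Q with hq
  set β := βv φ b Q with hβ
  set β' := βv' φ b' Q with hβ'
  obtain ⟨γ₁, hγ₁⟩ := nst 𝔸 (degPsi r d (j * e) D (j * e - j))
    (fun Iμ : (Fin D → Fin E) × (Fin (j * e) → Pair r) => psi q β β' B' Iμ.1 Iμ.2)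
    (fun Iμ => isMultiHom_psi q β β' B' hB'hom Iμ.1 Iμ.2)
    (incEqs φ (N := j * e) q β β')
    (by
      rintro G (⟨k, S, hS, -, rfl⟩ | ⟨i, k, S, hS, -, rfl⟩ | ⟨I, μ, ρ, rfl⟩)
      · exact ⟨_, isMultiHom_inFactor (n := dims r d (j * e)) (facP (j * e)) hS⟩
      · exact ⟨_, isMultiHom_inFactor (n := dims r d (j * e)) (facC i) hS⟩
      · exact ⟨_, isMultiHom_cramEq hD q β β' I μ ρ⟩)
    (by
      intro y hy hY
      rw [← mkPoint_eta y] at hY ⊢
      obtain ⟨I, μ, hne⟩ := noZero h hφ he2 b b' B' hB'hom hB' Q hQ hE hclosed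
        (y (facP (j * e))) (fun i => y (facC i)) (y (facF (j * e)))
        (hy (facP (j * e))) (fun i => hy (facC i)) (hy (facF (j * e)))
        (fun k G hG hG0 => by
          have := hY _ (Or.inl ⟨k, G, hG, hG0, rfl⟩)
          rwa [eval_inFactor] at this)
        (fun i k G hG hG0 => by
          have := hY _ (Or.inr (Or.inl ⟨i, k, G, hG, hG0, rfl⟩))
          rwa [eval_inFactor] at this)
        (fun I μ ρ => by
          have := hY _ (Or.inr (Or.inr ⟨I, μ, ρ, rfl⟩))
          have h2 := eval_cramEq (r := r) (d := d) (y (facP (j * e))) (fun i => y (facC i))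
            (y (facF (j * e))) q β β' I μ ρ
          exact sub_eq_zero.mp (h2.symm.trans this))
      refine ⟨(I, μ), ?_⟩
      have h2 := eval_psi (r := r) (d := d) (y (facP (j * e))) (fun i => y (facC i))
        (y (facF (j * e))) q β β' B' I μ
      rw [h2]
      exact hne)
  -- upper bound for the minors
  let γ₂ : MConst 𝔸 := MConst.finsetSum Finset.univ fun I : Fin D → Fin E =>
    polyConst 𝔸 (rowsOf (genM r (j * e) β β') I).det
  refine ⟨γ₁ + γ₂, fun v f hf hf0 c hc P => ?_⟩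
  -- the actual point
  set z : Fin (d + 1) → Qbar := fun t => b.repr ⟨f, hf⟩ t with hz
  have hfz : secOf b z = f := secOf_repr b hf
  have hz0 : z ≠ 0 := fun h0 => hf0 (by
    rw [← hfz, h0]
    exact (secOf_eq_zero_iff b 0).mpr rfl)
  have hnz : 0 < vnorm 𝔸 v z := vnorm_pos 𝔸 v hz0
  -- quotients for all μ
  have hquot : ∀ μ : Fin (j * e) → Pair r, ∃ κ : Fin D → Qbar,
      f * secOf b' κ = prodLin φ (fun i => coord φ (c i)) μ := by
    intro μ
    obtain ⟨k, hk, hfk⟩ := exists_quot h hφ he2 j hf hf0 c hc μ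
    refine ⟨fun s => b'.repr ⟨k, hk⟩ s, ?_⟩
    rw [secOf_repr b' hk]
    exact hfk
  choose κ hκ using hquot
  have hMw : ∀ μ, valM β β' z *ᵥ κ μ = valW q (fun i => coord φ (c i)) μ := fun μ =>
    mulVec_eq_of_eq_prodLin h hφ he2 b b' Q z (κ μ) _ μ (by rw [hfz]; exact hκ μ)
  -- the point lies on the incidence set
  have hy0 : ∀ i, mkPoint (r := r) (d := d) (N := j * e) (coord φ P)
      (fun i => coord φ (c i)) z i ≠ 0 := by
    rintro (⟨⟩ | i | ⟨⟩)
    · exact hφ.coord_ne_zero P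
    · exact hφ.coord_ne_zero (c i)
    · exact hz0
  have hY : ∀ G ∈ incEqs φ (N := j * e) q β β',
      eval (mpPoint (dims r d (j * e)) (mkPoint (r := r) (d := d) (N := j * e) (coord φ P)
        (fun i => coord φ (c i)) z)) G = 0 := by
    rintro G (⟨k, S, hS, hS0, rfl⟩ | ⟨i, k, S, hS, hS0, rfl⟩ | ⟨I, μ, ρ, rfl⟩)
    · rw [eval_inFactor]
      exact eval_coord_eq_zero h hφ P hS hS0
    · rw [eval_inFactor]
      exact eval_coord_eq_zero h hφ (c i) hS hS0
    · rw [eval_cramEq, ← hMw μ, sub_eq_zero]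
      have := congrFun (det_smul_eq_mulVec_cram (valM β β' z) I (κ μ)) ρ
      simpa [Pi.smul_apply, smul_eq_mul] using this
  obtain ⟨⟨I, μ⟩, hIμ⟩ := hγ₁ v _ hy0 hY
  -- value of Ψ
  have hΨ : eval (mpPoint (dims r d (j * e)) (mkPoint (r := r) (d := d) (N := j * e)
        (coord φ P) (fun i => coord φ (c i)) z)) (psi q β β' B' I μ)
      = (rowsOf (valM β β' z) I).det * sval φ (j * e - j) P (secOf b' (κ μ)) := by
    rw [eval_psi, ← hMw μ, cram_mulVec,
      ← sum_eval_eq_sval h hφ he2 b' B' hB'hom hB' (κ μ) P, Finset.mul_sum]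
    refine Finset.sum_congr rfl fun s _ => ?_
    rw [Pi.smul_apply, smul_eq_mul]
    ring
  -- upper bound for the minor
  have hdet : 𝔸.abv v ((rowsOf (valM β β' z) I).det)
      ≤ Real.exp (γ₂ v) * vnorm 𝔸 v z ^ D := by
    have h1 := abv_eval_mpPoint_le 𝔸 v (isMultiHom_det_genM (r := r) (N := j * e) β β' I)
      (mkPoint (r := r) (d := d) (N := j * e) (coord φ P) (fun i => coord φ (c i)) z)
    rw [eval_det_rowsOf_genM] at h1
    have h2 : ∏ i, vnorm 𝔸 v (mkPoint (r := r) (d := d) (N := j * e) (coord φ P)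
        (fun i => coord φ (c i)) z i) ^ ((D • degF r d (j * e) 1) i) = vnorm 𝔸 v z ^ D := by
      rw [prod_fac]
      simp only [Pi.smul_apply, degF_facP, degF_facC, degF_facF, smul_eq_mul, mul_zero,
        pow_zero, Finset.prod_const_one, one_mul, mul_one]
      rfl
    rw [h2] at h1
    refine h1.trans (mul_le_mul_of_nonneg_right ?_ (pow_nonneg (vnorm_nonneg 𝔸 v z) D))
    rw [Real.exp_le_exp]
    show (polyConst 𝔸 (rowsOf (genM r (j * e) β β') I).det) v ≤ γ₂ v
    rw [MConst.finsetSum_apply]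
    exact Finset.single_le_sum (f := fun I : Fin D → Fin E =>
      (polyConst 𝔸 (rowsOf (genM r (j * e) β β') I).det) v)
      (fun I _ => (polyConst 𝔸 _).nonneg v) (Finset.mem_univ I)
  -- product of norms
  have hprod : ∏ i, vnorm 𝔸 v (mkPoint (r := r) (d := d) (N := j * e) (coord φ P)
        (fun i => coord φ (c i)) z i) ^ (degPsi r d (j * e) D (j * e - j) i)
      = vnorm 𝔸 v (coord φ P) ^ (j * e - j)
        * ((∏ i, vnorm 𝔸 v (coord φ (c i))) * vnorm 𝔸 v z ^ (D - 1)) := by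
    rw [prod_fac]
    simp only [degPsi_facP, degPsi_facC, degPsi_facF, pow_one]
    rfl
  rw [hprod, hΨ, map_mul] at hIμ
  refine ⟨μ, secOf b' (κ μ), secOf_mem b' (κ μ), hκ μ, ?_⟩
  rw [gauss_cnorm_of_mem 𝔸 v b hf]
  set nP := vnorm 𝔸 v (coord φ P) ^ (j * e - j) with hnP
  set nC := ∏ i, vnorm 𝔸 v (coord φ (c i)) with hnC
  set sv := 𝔸.abv v (sval φ (j * e - j) P (secOf b' (κ μ))) with hsv
  have hsv0 : 0 ≤ sv := (𝔸.abv v).nonneg _
  have hzD : vnorm 𝔸 v z ^ D = vnorm 𝔸 v z ^ (D - 1) * vnorm 𝔸 v z := by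
    rw [← pow_succ]
    congr 1
    omega
  have hpos : 0 < vnorm 𝔸 v z ^ (D - 1) := pow_pos hnz _
  -- exp(-γ₁) nP nC nz^(D-1) ≤ exp(γ₂) nz^(D-1) nz sv
  have h3 : Real.exp (-(γ₁ v)) * (nP * (nC * vnorm 𝔸 v z ^ (D - 1)))
      ≤ Real.exp (γ₂ v) * (vnorm 𝔸 v z ^ (D - 1) * vnorm 𝔸 v z) * sv := by
    refine hIμ.trans ?_
    rw [← hzD]
    exact mul_le_mul_of_nonneg_right hdet hsv0
  have h4 : Real.exp (-(γ₁ v)) * (nP * nC) ≤ Real.exp (γ₂ v) * (vnorm 𝔸 v z * sv) := by
    have h5 : (Real.exp (-(γ₁ v)) * (nP * nC)) * vnorm 𝔸 v z ^ (D - 1)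
        ≤ (Real.exp (γ₂ v) * (vnorm 𝔸 v z * sv)) * vnorm 𝔸 v z ^ (D - 1) := by
      calc (Real.exp (-(γ₁ v)) * (nP * nC)) * vnorm 𝔸 v z ^ (D - 1)
          = Real.exp (-(γ₁ v)) * (nP * (nC * vnorm 𝔸 v z ^ (D - 1))) := by ring
        _ ≤ Real.exp (γ₂ v) * (vnorm 𝔸 v z ^ (D - 1) * vnorm 𝔸 v z) * sv := h3
        _ = (Real.exp (γ₂ v) * (vnorm 𝔸 v z * sv)) * vnorm 𝔸 v z ^ (D - 1) := by ring
    exact le_of_mul_le_mul_right h5 hpos
  have h6 : Real.exp (-((γ₁ + γ₂) v)) * (nP * nC)
      = Real.exp (-(γ₂ v)) * (Real.exp (-(γ₁ v)) * (nP * nC)) := by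
    rw [MConst.add_apply, neg_add, Real.exp_add]
    ring
  rw [h6]
  calc Real.exp (-(γ₂ v)) * (Real.exp (-(γ₁ v)) * (nP * nC))
      ≤ Real.exp (-(γ₂ v)) * (Real.exp (γ₂ v) * (vnorm 𝔸 v z * sv)) :=
        mul_le_mul_of_nonneg_left h4 (Real.exp_pos _).le
    _ = vnorm 𝔸 v z * sv := by
        rw [← mul_assoc, ← Real.exp_add, neg_add_cancel, Real.exp_zero, one_mul]

end bound


/-! ### the final inequality -/

section final

theorem l7_real {a nP nz θ X Y lead sv g : ℝ} {N j m : ℕ} (hj : j ≤ N) (hm : m ≤ N)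
    (ha : a = Real.exp (-g)) (hnP : 0 < nP) (hnz : 0 ≤ nz) (hX : 0 < X) (hlead : 0 ≤ lead)
    (hd : a * (nP ^ (N - j) * (nP ^ m * X)) ≤ nz * sv)
    (hf : lead * sv ≤ (θ * nP ^ 2) ^ m * (Y * nP ^ (N - m) * X)) :
    lead / nP ^ j ≤ Real.exp g * (nz * θ ^ m * Y) := by
  have hW : 0 < a * (nP ^ (N - j) * (nP ^ m * X)) := by rw [ha]; positivity
  rw [div_le_iff₀ (pow_pos hnP j)]
  have h1 : Real.exp g * a = 1 := by
    rw [ha, ← Real.exp_add, add_neg_cancel, Real.exp_zero]
  have h2 : nP ^ j * nP ^ (N - j) = nP ^ N := by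
    rw [← pow_add]; congr 1; omega
  have h3 : nP ^ (N - m) * nP ^ m = nP ^ N := by
    rw [← pow_add]; congr 1; omega
  have key : lead * (a * (nP ^ (N - j) * (nP ^ m * X)))
      ≤ (Real.exp g * (nz * θ ^ m * Y) * nP ^ j) * (a * (nP ^ (N - j) * (nP ^ m * X))) := by
    calc lead * (a * (nP ^ (N - j) * (nP ^ m * X))) ≤ lead * (nz * sv) :=
          mul_le_mul_of_nonneg_left hd hlead
      _ = nz * (lead * sv) := by ring
      _ ≤ nz * ((θ * nP ^ 2) ^ m * (Y * nP ^ (N - m) * X)) :=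
          mul_le_mul_of_nonneg_left hf hnz
      _ = nz * θ ^ m * Y * X * (nP ^ m * (nP ^ (N - m) * nP ^ m)) := by
          rw [mul_pow, ← pow_mul]
          have : nP ^ (2 * m) = nP ^ m * nP ^ m := by rw [← pow_add]; congr 1; omega
          rw [this]; ring
      _ = nz * θ ^ m * Y * X * (nP ^ m * nP ^ N) := by rw [h3]
      _ = (Real.exp g * a) * (nz * θ ^ m * Y * X * (nP ^ m * (nP ^ j * nP ^ (N - j)))) := by
          rw [h1, h2, one_mul]
      _ = (Real.exp g * (nz * θ ^ m * Y) * nP ^ j) * (a * (nP ^ (N - j) * (nP ^ m * X))) := by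
          ring
  exact le_of_mul_le_mul_right key hW

variable {j d : ℕ}

/-- **L7**, modulo the closedness of the curve (seat L2). -/
theorem localDecompLe_of_closed (𝔸 : AbsSys) (hclosed : ClosedProp φ) (h : IsRRField Qbar F)
    (hφ : IsEmbBasis P₀ e φ) (he : 3 * genusFF Qbar F + 1 ≤ e)
    (b : Module.Basis (Fin (d + 1)) Qbar (secSpace P₀ e j)) :
    LocalDecompLe 𝔸 h P₀ e φ j b := by
  classical
  have he2 : 2 * genusFF Qbar F + 1 ≤ e := by omega
  have he1 : 2 * genusFF Qbar F ≤ e := by omega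
  obtain ⟨γ, hγ⟩ := exists_bound_quot 𝔸 hclosed h hφ he b
  refine ⟨γ, fun v f hf hf0 P π hπ m hm => ?_⟩
  obtain ⟨c, hc⟩ := exists_zeros h j hf hf0
  obtain ⟨μ, k, hk, hfk, hbound⟩ := hγ v f hf hf0 c hc P
  have hlead := lead_identity h hφ he2 j hf hf0 c hc P hπ m hm μ hk hfk
  -- notation
  set T := (Finset.univ.filter fun i => c i = P : Finset (Fin (j * e))) with hT
  set T' := (Finset.univ.filter fun i => c i ≠ P : Finset (Fin (j * e))) with hT'
  have hcardT : T.card = m := by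
    have h1 := hc P
    rw [← hm] at h1
    have h2 : cnt c P = T.card := by
      unfold cnt
      congr 1
    rw [h2] at h1
    exact_mod_cast h1.symm
  have hcardT' : T'.card = j * e - m := by
    have h1 : T.card + T'.card = (Finset.univ : Finset (Fin (j * e))).card := by
      rw [hT, hT']
      exact Finset.card_filter_add_card_filter_not (s := Finset.univ) (fun i => c i = P)
    rw [Finset.card_univ, Fintype.card_fin, hcardT] at h1
    omega
  have hmN : m ≤ j * e := by
    have h1 : T.card ≤ (Finset.univ : Finset (Fin (j * e))).card := Finset.card_le_univ T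
    rw [Finset.card_univ, Fintype.card_fin, hcardT] at h1
    exact h1
  have hjN : j ≤ j * e := Nat.le_mul_of_pos_right j (by omega)
  set nP := vnorm 𝔸 v (coord φ P) with hnP
  have hnPpos : 0 < nP := hφ.vnorm_coord_pos 𝔸 v P
  have hθpos : 0 < theta 𝔸 v φ P π := hφ.theta_pos 𝔸 v h he2 P hπ
  -- bound for the factors at P
  have hA : 𝔸.abv v (∏ i ∈ T, val P (linForm φ (coord φ P) (μ i) / (φ (pivot φ P) * π)))
      ≤ (theta 𝔸 v φ P π * nP ^ 2) ^ m := by
    rw [map_prod, ← hcardT, ← Finset.prod_const]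
    refine Finset.prod_le_prod (fun i _ => (𝔸.abv v).nonneg _) fun i _ => ?_
    have h1 : theta 𝔸 v φ P π * nP ^ 2
        = Finset.univ.sup' Finset.univ_nonempty fun p : Fin (r + 1) × Fin (r + 1) =>
          𝔸.abv v (val P ((algebraMap Qbar F (coord φ P p.2) * φ p.1
            - algebraMap Qbar F (coord φ P p.1) * φ p.2) / (φ (pivot φ P) * π))) := by
      unfold theta
      rw [div_mul_cancel₀ _ (pow_pos hnPpos 2).ne']
    rw [h1]
    exact Finset.le_sup' (fun p : Fin (r + 1) × Fin (r + 1) =>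
      𝔸.abv v (val P ((algebraMap Qbar F (coord φ P p.2) * φ p.1
        - algebraMap Qbar F (coord φ P p.1) * φ p.2) / (φ (pivot φ P) * π))))
      (Finset.mem_univ (μ i))
  -- bound for the other factors
  have hchordpos : ∀ i ∈ T', 0 < chord 𝔸 v φ P (c i) := fun i hi =>
    hφ.chord_pos 𝔸 v h he2 (fun hPc => (Finset.mem_filter.mp hi).2 hPc.symm)
  have hB : 𝔸.abv v (∏ i ∈ T', sval φ 1 P (linForm φ (coord φ (c i)) (μ i)))
      ≤ (∏ i ∈ T', chord 𝔸 v φ P (c i)) * nP ^ (j * e - m)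
        * ∏ i ∈ T', vnorm 𝔸 v (coord φ (c i)) := by
    rw [map_prod]
    have h1 : ∀ i ∈ T', 𝔸.abv v (sval φ 1 P (linForm φ (coord φ (c i)) (μ i)))
        ≤ chord 𝔸 v φ P (c i) * nP * vnorm 𝔸 v (coord φ (c i)) := by
      intro i _
      rw [sval_linForm h hφ P]
      have h2 := abv_minor_le_wnorm 𝔸 v (coord φ P) (coord φ (c i)) (μ i).1 (μ i).2
      have h3 : coord φ (c i) (μ i).2 * coord φ P (μ i).1
          - coord φ (c i) (μ i).1 * coord φ P (μ i).2
          = coord φ P (μ i).1 * coord φ (c i) (μ i).2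
            - coord φ P (μ i).2 * coord φ (c i) (μ i).1 := by ring
      rw [h3]
      refine h2.trans (le_of_eq ?_)
      unfold chord
      rw [mul_assoc, div_mul_cancel₀ _
        (mul_pos hnPpos (hφ.vnorm_coord_pos 𝔸 v (c i))).ne']
    refine (Finset.prod_le_prod (fun i _ => (𝔸.abv v).nonneg _) h1).trans (le_of_eq ?_)
    rw [Finset.prod_mul_distrib, Finset.prod_mul_distrib, Finset.prod_const, hcardT']
  -- split the product of the norms of the zeros
  have hsplit : ∏ i, vnorm 𝔸 v (coord φ (c i))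
      = nP ^ m * ∏ i ∈ T', vnorm 𝔸 v (coord φ (c i)) := by
    have h1 := Finset.prod_filter_mul_prod_filter_not (Finset.univ : Finset (Fin (j * e)))
      (fun i => c i = P) (fun i => vnorm 𝔸 v (coord φ (c i)))
    rw [← h1]
    congr 1
    rw [← hcardT, ← Finset.prod_const]
    refine Finset.prod_congr rfl fun i hi => ?_
    rw [(Finset.mem_filter.mp hi).2]
  rw [hsplit] at hbound
  -- the product identity in absolute values
  have hlead' : 𝔸.abv v (val P (f / (φ (pivot φ P) ^ j * π ^ m)))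
        * 𝔸.abv v (sval φ (j * e - j) P k)
      ≤ (theta 𝔸 v φ P π * nP ^ 2) ^ m
        * ((∏ i ∈ T', chord 𝔸 v φ P (c i)) * nP ^ (j * e - m)
          * ∏ i ∈ T', vnorm 𝔸 v (coord φ (c i))) := by
    rw [← map_mul, hlead, map_mul]
    exact mul_le_mul hA hB ((𝔸.abv v).nonneg _) (pow_nonneg (mul_nonneg hθpos.le
      (pow_nonneg hnPpos.le 2)) m)
  have hXpos : 0 < ∏ i ∈ T', vnorm 𝔸 v (coord φ (c i)) :=
    Finset.prod_pos fun i _ => hφ.vnorm_coord_pos 𝔸 v (c i)
  have hYpos : 0 < ∏ i ∈ T', chord 𝔸 v φ P (c i) := Finset.prod_pos hchordpos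
  have hcn : 0 < cnorm 𝔸 v b f := gauss_cnorm_pos 𝔸 v b hf hf0
  have hfinal := l7_real (g := γ v) hjN hmN rfl hnPpos hcn.le hXpos
    ((𝔸.abv v).nonneg (val P (f / (φ (pivot φ P) ^ j * π ^ m)))) hbound hlead'
  -- logarithms
  have hsec : secSize 𝔸 v φ j P π m f
      = 𝔸.abv v (val P (f / (φ (pivot φ P) ^ j * π ^ m))) / nP ^ j := rfl
  have hsecpos : 0 < secSize 𝔸 v φ j P π m f := hφ.secSize_pos h he1 𝔸 v j P hπ hf0 m hm
  rw [← hsec] at hfinal
  have hlog := Real.log_le_log hsecpos hfinal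
  rw [Real.log_mul (Real.exp_pos _).ne' (mul_pos (mul_pos hcn (pow_pos hθpos m)) hYpos).ne',
    Real.log_exp, Real.log_mul (mul_pos hcn (pow_pos hθpos m)).ne' hYpos.ne',
    Real.log_mul hcn.ne' (pow_pos hθpos m).ne', Real.log_pow,
    Real.log_prod (fun i hi => (hchordpos i hi).ne')] at hlog
  rw [gsum_eq_sum h 𝔸 v j c hc P]
  have hg : ∑ i ∈ T', gloc 𝔸 v φ P (c i) = -∑ i ∈ T', Real.log (chord 𝔸 v φ P (c i)) := by
    rw [← Finset.sum_neg_distrib]
    rfl
  rw [hg]
  linarith

end final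

end Fermat.Agent.S17.L7
end
end MergeWrap_S17_H_L7_Main

section MergeWrap_S17_H_L7_Bridge -- from S17/H/L7/Bridge.lean

set_option autoImplicit false
set_option linter.unusedSectionVars false
set_option linter.unusedVariables false

/-!
# S17, package H, seat L7: from L2 (`WF1.ClosedImage`) to `ClosedProp`, and L7 from L2
-/

noncomputable section

open AlgebraicCurve MvPolynomial

namespace Fermat.Agent.S17.L7

open Fermat.Agent.RR

variable {F : Type*} [Field F] [Algebra Qbar F]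
variable {P₀ : Place Qbar F} {e r : ℕ} {φ : Fin (r + 1) → F}

/-- L2 in the form of `WF1.ClosedImage` gives `ClosedProp`. -/
theorem closedProp_of_closedImage (h : IsRRField Qbar F) (hφ : IsEmbBasis P₀ e φ)
    (hcl : WF1.ClosedImage φ) : ClosedProp φ := by
  intro y hy hrel
  obtain ⟨P, i₀, c, hi₀, hord, hval⟩ := hcl y hy fun G ⟨k, hG⟩ hG0 => hrel k G hG hG0
  have hp0 : φ (pivot φ P) ≠ 0 := hφ.ne_zero _
  -- the pivot and `i₀` have the same order
  have h1 : P.ord (φ (pivot φ P)) = P.ord (φ i₀) := by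
    have h2 := pivot_le φ P i₀
    have h3 := hord (pivot φ P)
    rw [WF1.ord_div' P hp0 hi₀] at h3
    omega
  have hu : P.ord (φ (pivot φ P) / φ i₀) = 0 := by
    rw [WF1.ord_div' P hp0 hi₀, h1, sub_self]
  have hune : φ (pivot φ P) / φ i₀ ≠ 0 := div_ne_zero hp0 hi₀
  have hvu : val P (φ (pivot φ P) / φ i₀) ≠ 0 := Pts.ev_ne_zero_of_ord_eq_zero h P hune hu
  have hc : c ≠ 0 := by
    rintro rfl
    exact hy (funext fun i => by rw [hval i, zero_mul]; rfl)
  refine ⟨P, c * val P (φ (pivot φ P) / φ i₀), mul_ne_zero hc hvu, funext fun i => ?_⟩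
  rw [hval i, Pi.smul_apply, smul_eq_mul]
  have h4 : φ i / φ i₀ = (φ i / φ (pivot φ P)) * (φ (pivot φ P) / φ i₀) := by
    field_simp
  have h5 : val P (φ i / φ i₀) = coord φ P i * val P (φ (pivot φ P) / φ i₀) := by
    rw [h4]
    exact Pts.ev_mul h P (hφ.ord_div_pivot_nonneg P i) hu.ge
  rw [h5]
  ring

/-- **L7** from L2. -/
theorem localDecompLe_of_closedImage (𝔸 : AbsSys) (h : IsRRField Qbar F)
    (hφ : IsEmbBasis P₀ e φ) (hcl : WF1.ClosedImage φ)
    (he : 3 * genusFF Qbar F + 1 ≤ e) {j d : ℕ}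
    (b : Module.Basis (Fin (d + 1)) Qbar (secSpace P₀ e j)) :
    LocalDecompLe 𝔸 h P₀ e φ j b :=
  localDecompLe_of_closed 𝔸 (closedProp_of_closedImage h hφ hcl) h hφ he b

end Fermat.Agent.S17.L7
end
end MergeWrap_S17_H_L7_Bridge

section MergeWrap_S17_H_LCle -- from S17/H/LCle.lean

set_option autoImplicit false
set_option linter.unusedSectionVars false
set_option linter.unusedVariables false

/-!
# S17, package H, seat L7: the `≤` half of the local decomposition

* `closedImage_of_isRRField` : L2 (CLOSED) in the form `WF1.ClosedImage z`, for every family `z`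
  (from `Closed.closed_image_of_placesExhaust` and the (DVR) lemma `Closed.exists_place_eq`).
* `localDecompLe` : **L7**, `LocalDecompLe 𝔸 h P₀ e φ j b` for every embedding basis `φ` of
  `L(e P₀)` with `3 g + 1 ≤ e`, every `j` and every basis `b` of `L(j e P₀)`.
-/

noncomputable section

open AlgebraicCurve MvPolynomial

namespace Fermat.Agent.S17

open Fermat.Agent.RR

variable {F : Type*} [Field F] [Algebra Qbar F]

/-- **L2 (CLOSED)**: the image of the curve under any family of functions is Zariski closed. -/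
theorem closedImage_of_isRRField (h : IsRRField Qbar F) {n : ℕ} (z : Fin (n + 1) → F) :
    WF1.ClosedImage z := fun y hy hrel =>
  Closed.closed_image_of_placesExhaust h (fun O hO hK => Closed.exists_place_eq h O hO hK)
    z y hy hrel

/-- **L7**: the `≤` half of the local decomposition of the size of a section. -/
theorem localDecompLe (𝔸 : AbsSys) (h : IsRRField Qbar F) {P₀ : Place Qbar F} {e r : ℕ}
    {φ : Fin (r + 1) → F} (hφ : IsEmbBasis P₀ e φ) (he : 3 * genusFF Qbar F + 1 ≤ e)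
    {j d : ℕ} (b : Module.Basis (Fin (d + 1)) Qbar (secSpace P₀ e j)) :
    LocalDecompLe 𝔸 h P₀ e φ j b :=
  L7.localDecompLe_of_closedImage 𝔸 h hφ (closedImage_of_isRRField h φ) he b

end Fermat.Agent.S17
end
end MergeWrap_S17_H_LCle

section MergeWrap_S17_H_Pos_FinalPre -- from S17/H/Pos/FinalPre.lean

set_option autoImplicit false

/-!
# S17, package H, seat GB: pre-assembly

`positivityThm_pre`: `PositivityThm S` from the seats which are still open
(`JetData`, `DetData`, `KappaFam`, `PosLocStatement`); everything else (L6, L7, L4, ADJ, DETGLOB,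
POS-GLOB, UNIF, FIN) is plugged in.
-/

noncomputable section

open AlgebraicCurve ModularCurve Fermat.Agent.RR

namespace Fermat.Agent.S17.Pos

variable {N : ℕ} [NeZero N]

/-- the basis of `V₁ = L(e P₀)` given by `φ` -/
def embBasis (S : HSetup N) : Module.Basis (Fin (S.r + 1)) Qbar (secSpace S.P₀ S.e 1) :=
  (Module.Basis.span S.isEmbBasis.linearIndependent).map
    (LinearEquiv.ofEq _ _ S.isEmbBasis.span_eq)

theorem e_large4 (S : HSetup N) : 4 * genusFF Qbar (FN N) + 1 ≤ S.e := by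
  have := S.e_large
  omega

theorem e_large3 (S : HSetup N) : 3 * genusFF Qbar (FN N) + 1 ≤ S.e := by
  have := S.e_large
  omega

/-- L6 at `j = 1` for the basis `φ` -/
theorem localGe (S : HSetup N) :
    LocalDecompGe S.𝔸 (Pairing.hRR N) S.P₀ S.e S.φ 1 (embBasis S) :=
  localDecompGe S.𝔸 (Pairing.hRR N) (e_large4 S) S.isEmbBasis le_rfl (embBasis S)

/-- L7 at `j = 1` for the basis `φ` -/
theorem localLe (S : HSetup N) :
    LocalDecompLe S.𝔸 (Pairing.hRR N) S.P₀ S.e S.φ 1 (embBasis S) :=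
  localDecompLe S.𝔸 (Pairing.hRR N) S.isEmbBasis (e_large3 S) (embBasis S)

/-- L6 + L7 at `j = 1` for the basis `φ` -/
theorem localDecomp (S : HSetup N) :
    LocalDecomp S.𝔸 (Pairing.hRR N) S.P₀ S.e S.φ 1 (embBasis S) :=
  Pairing.localDecomp_of_ge_le S.𝔸 (Pairing.hRR N) S.P₀ S.e S.φ 1 (embBasis S)
    (localGe S) (localLe S)

/-- **Pre-assembly of seat GB.** -/
theorem positivityThm_pre (S : HSetup N) (U : Unif S) (J : JetData S U) (hD : DetData S)
    (hK : KappaFam S U) (hPL : PosLocStatement S U) : PositivityThm S :=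
  positivityThm_of S U (canonAdm S) (adjThm S U (embBasis S) (localDecomp S))
    (detThm_of S U J hD)
    (posThm_of_halves S U hPL (posGlob S U) hK (weilCompareAll S))

end Fermat.Agent.S17.Pos
end
end MergeWrap_S17_H_Pos_FinalPre
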